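import Mathlib.NumberTheory.ModularForms.LevelOne.GradedRing

/-!
# Integrality of the q-expansions of `E₄`, `E₆`, `Δ`

Integer power series `E4Z`, `E6Z`, `DeltaZ` whose images in `ℂ⟦X⟧` are the q-expansions of the
level one forms `E₄`, `E₆`, `Δ`.
-/

namespace Fermat.Agent.S16.SturmZ

open UpperHalfPlane ModularForm ModularFormClass MatrixGroups EisensteinSeries
open scoped ArithmeticFunction.sigma

noncomputable section

/-- `∑ σ_k(n) qⁿ` as an integer power series. -/
def sigmaSeries (k : ℕ) : PowerSeries ℤ := PowerSeries.mk fun n => (σ k n : ℤ)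

@[simp] lemma coeff_sigmaSeries (k n : ℕ) : (sigmaSeries k).coeff n = (σ k n : ℤ) := by
  simp [sigmaSeries]

/-- The integral q-expansion of `E₄`. -/
def E4Z : PowerSeries ℤ := 1 + 240 * sigmaSeries 3

/-- The integral q-expansion of `E₆`. -/
def E6Z : PowerSeries ℤ := 1 - 504 * sigmaSeries 5

/-- the coercion `ℤ⟦X⟧ → ℂ⟦X⟧`. -/
abbrev toC : PowerSeries ℤ →+* PowerSeries ℂ := PowerSeries.map (Int.castRingHom ℂ)

lemma coeff_ofNat_mul {R : Type*} [CommRing R] (a : ℤ) (f : PowerSeries R) (n : ℕ) :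
    ((a : PowerSeries R) * f).coeff n = (a : R) * f.coeff n := by
  have : (a : PowerSeries R) = PowerSeries.C (a : R) := by simp
  rw [this, PowerSeries.coeff_C_mul]

lemma coeff_E4Z (n : ℕ) : E4Z.coeff n = if n = 0 then 1 else 240 * (σ 3 n : ℤ) := by
  have h := coeff_ofNat_mul (R := ℤ) 240 (sigmaSeries 3) n
  simp only [Int.cast_ofNat] at h
  rw [E4Z, map_add, h, PowerSeries.coeff_one]
  split_ifs with hn
  · subst hn; simp
  · simp

lemma coeff_E6Z (n : ℕ) : E6Z.coeff n = if n = 0 then 1 else -504 * (σ 5 n : ℤ) := by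
  have h := coeff_ofNat_mul (R := ℤ) 504 (sigmaSeries 5) n
  simp only [Int.cast_ofNat] at h
  rw [E6Z, map_sub, h, PowerSeries.coeff_one]
  split_ifs with hn
  · subst hn; simp
  · simp

theorem qExpansion_E4 : qExpansion 1 E₄ = toC E4Z := by
  ext n
  rw [E_qExpansion_coeff _ ⟨2, rfl⟩, PowerSeries.coeff_map, coeff_E4Z]
  split_ifs with hn
  · simp
  · norm_num [show bernoulli 4 = -1 / 30 by decide +kernel]

theorem qExpansion_E6 : qExpansion 1 E₆ = toC E6Z := by
  ext n
  rw [E_qExpansion_coeff _ ⟨3, rfl⟩, PowerSeries.coeff_map, coeff_E6Z]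
  split_ifs with hn
  · simp
  · norm_num [show bernoulli 6 = 1 / 42 by decide +kernel]

lemma twelve_dvd_aux (d : ℤ) : (12 : ℤ) ∣ 5 * d ^ 3 + 7 * d ^ 5 := by
  have h : ∀ x : ZMod 12, 5 * x ^ 3 + 7 * x ^ 5 = 0 := by decide
  have := h (d : ZMod 12)
  have h2 := (ZMod.intCast_zmod_eq_zero_iff_dvd (5 * d ^ 3 + 7 * d ^ 5) 12).1 (by
    push_cast
    exact this)
  exact_mod_cast h2

lemma twelve_dvd_sigma (n : ℕ) : (12 : ℤ) ∣ 5 * (σ 3 n : ℤ) + 7 * (σ 5 n : ℤ) := by
  rw [ArithmeticFunction.sigma_apply, ArithmeticFunction.sigma_apply]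
  push_cast
  rw [Finset.mul_sum, Finset.mul_sum, ← Finset.sum_add_distrib]
  exact Finset.dvd_sum fun d _ => twelve_dvd_aux d

/-- `(5 S₃ + 7 S₅)/12`. -/
def linPart : PowerSeries ℤ := PowerSeries.mk fun n => (5 * (σ 3 n : ℤ) + 7 * (σ 5 n : ℤ)) / 12

lemma twelve_mul_linPart : 12 * linPart = 5 * sigmaSeries 3 + 7 * sigmaSeries 5 := by
  ext n
  have h12 := coeff_ofNat_mul (R := ℤ) 12 linPart n
  have h5 := coeff_ofNat_mul (R := ℤ) 5 (sigmaSeries 3) n
  have h7 := coeff_ofNat_mul (R := ℤ) 7 (sigmaSeries 5) n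
  simp only [Int.cast_ofNat] at h12 h5 h7
  rw [h12, map_add, h5, h7]
  simp only [linPart, PowerSeries.coeff_mk, coeff_sigmaSeries]
  exact Int.mul_ediv_cancel' (twelve_dvd_sigma n)

/-- The integral q-expansion of `Δ`. -/
def DeltaZ : PowerSeries ℤ :=
  linPart + 100 * sigmaSeries 3 ^ 2 + 8000 * sigmaSeries 3 ^ 3 - 147 * sigmaSeries 5 ^ 2

lemma DeltaZ_mul : 1728 * DeltaZ = E4Z ^ 3 - E6Z ^ 2 := by
  have h := twelve_mul_linPart
  simp only [DeltaZ, E4Z, E6Z]
  linear_combination 144 * h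

theorem qExpansion_discriminant : qExpansion 1 ModularForm.discriminant = toC DeltaZ := by
  have h1 : (1728 : ℂ) • (ModularForm.discriminant : ℍ → ℂ) =
      ((ModularForm.mcast (by decide) (E₄.pow 3) - ModularForm.mcast (by decide) (E₆.pow 2) :
        ModularForm 𝒮ℒ 12) : ℍ → ℂ) := by
    ext z
    simp only [Pi.smul_apply, smul_eq_mul, sub_apply, coe_mcast, coe_pow, Pi.pow_apply]
    rw [discriminant_eq_E₄_cube_sub_E₆_sq z]
    ring
  have h2 : (1728 : ℂ) • qExpansion 1 ModularForm.discriminant =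
      qExpansion 1 E₄ ^ 3 - qExpansion 1 E₆ ^ 2 := by
    rw [← CuspForm.coe_discriminant,
      ← ModularForm.qExpansion_smul one_pos one_mem_strictPeriods_SL (1728 : ℂ)
        CuspForm.discriminant, CuspForm.coe_discriminant, h1]
    simp only [FunLike.coe_sub, coe_mcast,
      ModularForm.qExpansion_sub one_pos one_mem_strictPeriods_SL,
      ModularForm.qExpansion_pow one_pos one_mem_strictPeriods_SL]
  rw [qExpansion_E4, qExpansion_E6, ← map_pow, ← map_pow, ← map_sub, ← DeltaZ_mul, map_mul] at h2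
  have h3 : toC (1728 : PowerSeries ℤ) = PowerSeries.C (1728 : ℂ) := by
    rw [map_ofNat]
    exact (map_ofNat (PowerSeries.C (R := ℂ)) 1728).symm
  rw [h3, ← PowerSeries.smul_eq_C_mul] at h2
  exact smul_right_injective _ (by norm_num : (1728 : ℂ) ≠ 0) h2

lemma coeff_zero_DeltaZ : DeltaZ.coeff 0 = 0 := by
  have h : (toC DeltaZ).coeff 0 = 0 := by
    rw [← qExpansion_discriminant]
    simpa using CuspFormClass.qExpansion_coeff_zero CuspForm.discriminant one_pos
      one_mem_strictPeriods_SL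
  rw [PowerSeries.coeff_map] at h
  simpa using h

lemma coeff_one_DeltaZ : DeltaZ.coeff 1 = 1 := by
  have h : (toC DeltaZ).coeff 1 = 1 := by
    rw [← qExpansion_discriminant]
    exact discriminant_qExpansion_coeff_one
  rw [PowerSeries.coeff_map] at h
  simpa using h

end

end Fermat.Agent.S16.SturmZ
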