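import Fermat.Prelude.Def_CuspForm_HeckeLocal
import Fermat.Prelude.Def_CuspForm_HeckeEvalForms
import Fermat.Prelude.Def_HeckeGalois_EichlerShimura
import Fermat.Prelude.Def_ModularCurve_ModularUnit
import Mathlib

/-!
# S16: common definitions

Everything used by more than one file of the S16 project.  See `Fermat/Agent/S16/PLAN.md`.
-/

set_option autoImplicit false

noncomputable section

namespace Fermat.Agent.S16

open UpperHalfPlane ModularForm CongruenceSubgroup
open scoped MatrixGroups ModularForm Manifold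

/-! ## Formal operators on power series -/

/-- formal `U_p`: `a_n ↦ a_{n p}`. -/
def psU {R : Type*} [Semiring R] (p : ℕ) (A : PowerSeries R) : PowerSeries R :=
  PowerSeries.mk fun n => PowerSeries.coeff (n * p) A

/-- formal `V_p`: `q ↦ q ^ p`. -/
def psV {R : Type*} [Semiring R] (p : ℕ) (A : PowerSeries R) : PowerSeries R :=
  PowerSeries.mk fun n => if p ∣ n then PowerSeries.coeff (n / p) A else 0

/-- integer power series viewed as complex power series. -/
abbrev toC : PowerSeries ℤ →+* PowerSeries ℂ := PowerSeries.map (Int.castRingHom ℂ)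

/-- `σ'(k)`: the sum of the divisors of `k` which are prime to `p` (`0` for `k = 0`). -/
def sigP (p k : ℕ) : ℕ := ∑ d ∈ k.divisors with ¬ p ∣ d, d

/-- `δ = ∑ σ'(k) q^k`. -/
def deltaZ (p : ℕ) : PowerSeries ℤ := PowerSeries.mk fun k => (sigP p k : ℤ)

/-- `S_j = ∑ σ_j(k) q^k`. -/
def sigZ (j : ℕ) : PowerSeries ℤ := PowerSeries.mk fun k => (ArithmeticFunction.sigma j k : ℤ)

/-- `E₄ = 1 + 240 S₃` as an integral power series. -/
def E4Z : PowerSeries ℤ := 1 + 240 * sigZ 3

/-- `E₆ = 1 - 504 S₅` as an integral power series. -/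
def E6Z : PowerSeries ℤ := 1 - 504 * sigZ 5

/-- the `q`-expansion `(p-1)/24 + δ` of the weight two Eisenstein series of level `p`. -/
def EisQ (p : ℕ) : PowerSeries ℂ := PowerSeries.C (((p : ℂ) - 1) / 24) + toC (deltaZ p)

/-! ## Fricke pairs -/

/-- the Fricke matrix `[[0,-1],[p,0]]`. -/
def frickeGL (p : ℕ) [NeZero p] : GL (Fin 2) ℝ :=
  Matrix.GeneralLinearGroup.mkOfDetNeZero !![0, -1; (p : ℝ), 0]
    (by simpa [Matrix.det_fin_two_of] using NeZero.ne p)

/-- `F♯(z) = (p z)^(-k) F(-1/(p z))`, as a function. -/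
def sharp (p : ℕ) [NeZero p] (k : ℤ) (F : ℍ → ℂ) : ℍ → ℂ :=
  ((p : ℂ) ^ (1 - k)) • (F ∣[k] frickeGL p)

/-- `A` is the `q`-expansion of a modular form `F` on `Γ₀(p)` of weight `k` and `B` is the
`q`-expansion of `F♯`. -/
def IsPair (p : ℕ) [NeZero p] (k : ℤ) (A B : PowerSeries ℂ) : Prop :=
  ∃ F G : ModularForm (Gamma0 p) k, (G : ℍ → ℂ) = sharp p k F ∧
    qExpansion 1 F = A ∧ qExpansion 1 G = B

/-- `A` is the `q`-expansion of a modular form of level one and weight `k`. -/
def IsLevelOne (k : ℤ) (A : PowerSeries ℂ) : Prop :=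
  ∃ H : ModularForm 𝒮ℒ k, qExpansion 1 H = A

/-! ## The Hecke action -/

/-- the lattice of cusp forms with integral `q`-expansion. -/
abbrev Lat (p : ℕ) : Type := ↥(CuspForm.intLattice p 2)

/-- the ring homomorphism `ℤ[X_ℓ] → 𝕋` of the statement. -/
def phi (p : ℕ) [NeZero p] : ModularCurve.HeckeAlg →+* ↥(CuspForm.heckeLatticeAlgebra p ∅) :=
  (CuspForm.latticeRestrictHom p ∅).toRingHom.comp (CuspForm.heckeEvalForms p 2)

/-- the Eisenstein eigensystem as a ring homomorphism `ℤ[X_ℓ] → ℤ`. -/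
def eis (p : ℕ) : ModularCurve.HeckeAlg →+* ℤ :=
  (MvPolynomial.aeval (R := ℤ) (ModularCurve.eisensteinSystem p)).toRingHom

/-- action of `ℤ[X_ℓ]` on the lattice. -/
def act (p : ℕ) [NeZero p] (t : ModularCurve.HeckeAlg) (f : Lat p) : Lat p :=
  (phi p t : Module.End ℤ (Lat p)) f

/-- `n`-th `q`-expansion coefficient of an element of the lattice (a complex number). -/
def coeffC {p : ℕ} (f : Lat p) (n : ℕ) : ℂ :=
  ModularFormClass.qCoeff (f : CuspForm (Gamma0 p) 2) n

end Fermat.Agent.S16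

end
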