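import Mathlib
import Fermat.Prelude.Def_FLTPrelim_Modularity
import Fermat.Agent.S16.Defs

set_option autoImplicit false
set_option linter.unusedSectionVars false

namespace Fermat.Agent.S16.EisP

open UpperHalfPlane hiding I
open ModularForm EisensteinSeries Matrix.SpecialLinearGroup Filter Complex MatrixGroups Real
open scoped Manifold

noncomputable section

/-- The matrix `diag(N,1)`. -/
def alpha (N : ℕ) [NeZero N] : GL (Fin 2) ℝ :=
  Matrix.GeneralLinearGroup.mkOfDetNeZero !![(N : ℝ), 0; 0, 1]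
    (by simp [Matrix.det_fin_two, NeZero.ne])

variable (N : ℕ) [NeZero N]

lemma alpha_det : (alpha N).det.val = (N : ℝ) := by
  simp [alpha, Matrix.GeneralLinearGroup.mkOfDetNeZero, Matrix.det_fin_two]

lemma alpha_det_pos : 0 < (alpha N).det.val := by
  rw [alpha_det]; exact_mod_cast Nat.pos_of_ne_zero (NeZero.ne N)

lemma coe_alpha_smul (z : ℍ) : ((alpha N • z : ℍ) : ℂ) = N * z := by
  rw [UpperHalfPlane.coe_smul_of_det_pos (alpha_det_pos N)]
  simp [alpha, num, denom, Matrix.GeneralLinearGroup.mkOfDetNeZero]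

lemma denom_alpha (z : ℍ) : denom (alpha N) z = 1 := by
  simp [alpha, denom, Matrix.GeneralLinearGroup.mkOfDetNeZero]

lemma slash_alpha_apply (f : ℍ → ℂ) (z : ℍ) :
    (f ∣[(2 : ℤ)] alpha N) z = N * f (alpha N • z) := by
  have hσ : σ (alpha N) = ContinuousAlgEquiv.refl ℝ ℂ := by
    rw [σ, if_pos (alpha_det_pos N)]
  rw [ModularForm.slash_apply, denom_alpha, alpha_det, hσ]
  simp [mul_comm]

lemma sigma_alpha : σ (alpha N) = ContinuousAlgEquiv.refl ℝ ℂ := by
  rw [σ, if_pos (alpha_det_pos N)]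

/-- The conjugate `α γ α⁻¹` of an element of `Γ₀(N)`. -/
def conjG (γ : SL(2, ℤ)) (c' : ℤ) (h : γ 1 0 = N * c') : SL(2, ℤ) :=
  ⟨!![γ 0 0, N * γ 0 1; c', γ 1 1], by
    have h1 := γ.det_coe
    rw [Matrix.det_fin_two] at h1 ⊢
    simp only [Matrix.of_apply, Matrix.cons_val', Matrix.cons_val_zero, Matrix.cons_val_one,
      Matrix.cons_val_fin_one]
    rw [h] at h1
    linarith⟩

lemma conjG_00 (γ : SL(2, ℤ)) (c' : ℤ) (h : γ 1 0 = N * c') :
    (conjG N γ c' h) 0 0 = γ 0 0 := rfl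
lemma conjG_01 (γ : SL(2, ℤ)) (c' : ℤ) (h : γ 1 0 = N * c') :
    (conjG N γ c' h) 0 1 = N * γ 0 1 := rfl
lemma conjG_10 (γ : SL(2, ℤ)) (c' : ℤ) (h : γ 1 0 = N * c') :
    (conjG N γ c' h) 1 0 = c' := rfl
lemma conjG_11 (γ : SL(2, ℤ)) (c' : ℤ) (h : γ 1 0 = N * c') :
    (conjG N γ c' h) 1 1 = γ 1 1 := rfl

lemma alpha_mul_mapGL (γ : SL(2, ℤ)) (c' : ℤ) (h : γ 1 0 = N * c') :
    alpha N * mapGL ℝ γ = mapGL ℝ (conjG N γ c' h) * alpha N := by
  ext i j
  fin_cases i <;> fin_cases j <;>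
    simp [alpha, conjG_00, conjG_01, conjG_10, conjG_11, Matrix.GeneralLinearGroup.mkOfDetNeZero,
      Matrix.mul_apply, Fin.sum_univ_two, h, mul_comm]

lemma D2_conjG_slash (γ : SL(2, ℤ)) (c' : ℤ) (h : γ 1 0 = N * c') :
    (D2 (conjG N γ c' h)) ∣[(2 : ℤ)] alpha N = D2 γ := by
  ext z
  rw [slash_alpha_apply]
  simp only [D2, ModularGroup.denom_apply]
  simp only [coe_alpha_smul, conjG_10, conjG_11, h]
  have hN : (N : ℂ) ≠ 0 := by exact_mod_cast NeZero.ne N
  push_cast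
  rw [← mul_div_assoc]
  congr 1 <;> ring

/-- The function `z ↦ N E₂(Nz) - E₂(z)`. -/
def eisFun : ℍ → ℂ := E2 ∣[(2 : ℤ)] alpha N - E2

lemma eisFun_apply (z : ℍ) : eisFun N z = N * E2 (alpha N • z) - E2 z := by
  simp [eisFun, slash_alpha_apply]

lemma E2_slash_mapGL (γ : SL(2, ℤ)) :
    E2 ∣[(2 : ℤ)] (mapGL ℝ γ) = E2 - (1 / (2 * riemannZeta 2)) • D2 γ :=
  E2_slash_action γ

lemma eisFun_slash (γ : SL(2, ℤ)) (c' : ℤ) (h : γ 1 0 = N * c') :
    eisFun N ∣[(2 : ℤ)] (mapGL ℝ γ) = eisFun N := by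
  have h1 : (E2 ∣[(2 : ℤ)] alpha N) ∣[(2 : ℤ)] (mapGL ℝ γ) =
      E2 ∣[(2 : ℤ)] alpha N - (1 / (2 * riemannZeta 2)) • D2 γ := by
    rw [← SlashAction.slash_mul, alpha_mul_mapGL N γ c' h, SlashAction.slash_mul,
      E2_slash_mapGL, sub_eq_add_neg, SlashAction.add_slash,
      SlashAction.neg_slash, ModularForm.smul_slash, sigma_alpha, D2_conjG_slash]
    simp [sub_eq_add_neg]
  rw [eisFun, sub_eq_add_neg, SlashAction.add_slash, SlashAction.neg_slash, h1, E2_slash_mapGL]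
  abel

lemma eisFun_mdiff : MDiff (eisFun N) :=
  (E2_mdifferentiable.slash 2 (alpha N)).sub E2_mdifferentiable

lemma D2_isBoundedAtImInfty (γ : SL(2, ℤ)) : IsBoundedAtImInfty (D2 γ) := by
  rw [UpperHalfPlane.isBoundedAtImInfty_iff]
  refine ⟨2 * π, 1, fun z hz => ?_⟩
  by_cases hc : γ 1 0 = 0
  · simp [D2, hc, Real.pi_pos.le]
  have hc' : (0 : ℝ) < |((γ 1 0 : ℤ) : ℝ)| := by
    rw [abs_pos]; exact_mod_cast hc
  have h1 : |((γ 1 0 : ℤ) : ℝ)| * z.im ≤ ‖denom γ z‖ := by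
    have := Complex.abs_im_le_norm (denom γ z)
    rw [ModularGroup.denom_apply] at this ⊢
    simpa [abs_mul, abs_of_pos z.im_pos] using this
  have h2 : |((γ 1 0 : ℤ) : ℝ)| ≤ ‖denom γ z‖ := by
    refine le_trans ?_ h1
    nlinarith
  have h3 : 0 < ‖denom γ z‖ := lt_of_lt_of_le hc' h2
  simp only [D2, norm_div, norm_mul, Complex.norm_I, mul_one]
  rw [div_le_iff₀ h3]
  have : ‖(2 : ℂ)‖ * ‖(π : ℂ)‖ = 2 * π := by
    simp [abs_of_pos Real.pi_pos]
  rw [this]
  have h4 : ‖((γ 1 0 : ℤ) : ℂ)‖ = |((γ 1 0 : ℤ) : ℝ)| := by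
    simp
  rw [h4]
  exact mul_le_mul_of_nonneg_left h2 (by positivity)

lemma E2_isBoundedAt {c : OnePoint ℝ} (hc : IsCusp c 𝒮ℒ) : c.IsBoundedAt E2 2 := by
  obtain ⟨γ, rfl⟩ := isCusp_SL2Z_iff'.mp hc
  rw [OnePoint.IsBoundedAt.smul_iff, OnePoint.isBoundedAt_infty_iff, E2_slash_mapGL]
  exact isBoundedAtImInfty_E2.sub ((D2_isBoundedAtImInfty γ).const_smul_left _)

/-- The matrix `diag(N,1)` over `ℚ`. -/
def alphaQ : GL (Fin 2) ℚ :=
  Matrix.GeneralLinearGroup.mkOfDetNeZero !![(N : ℚ), 0; 0, 1]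
    (by simp [Matrix.det_fin_two, NeZero.ne])

lemma alphaQ_map : (alphaQ N).map (Rat.castHom ℝ) = alpha N := by
  ext i j
  fin_cases i <;> fin_cases j <;>
    simp [alpha, alphaQ, Matrix.GeneralLinearGroup.mkOfDetNeZero]

lemma isCusp_alpha_smul {c : OnePoint ℝ} (hc : IsCusp c 𝒮ℒ) : IsCusp (alpha N • c) 𝒮ℒ := by
  rw [isCusp_SL2Z_iff] at hc ⊢
  obtain ⟨q, rfl⟩ := hc
  refine ⟨alphaQ N • q, ?_⟩
  rw [← Rat.coe_castHom, OnePoint.map_smul, alphaQ_map]

lemma isBoundedAt_neg {c : OnePoint ℝ} {f : ℍ → ℂ} {k : ℤ} (hf : c.IsBoundedAt f k) :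
    c.IsBoundedAt (-f) k :=
  fun g hg ↦ by simpa using! (hf g hg).neg

lemma eisFun_isBoundedAt {c : OnePoint ℝ} (hc : IsCusp c 𝒮ℒ) : c.IsBoundedAt (eisFun N) 2 := by
  rw [eisFun, sub_eq_add_neg]
  refine OnePoint.IsBoundedAt.add ?_ (isBoundedAt_neg (E2_isBoundedAt hc))
  rw [← OnePoint.IsBoundedAt.smul_iff]
  exact E2_isBoundedAt (isCusp_alpha_smul N hc)

/-- The Eisenstein series `N E₂(Nz) - E₂(z)` as a modular form of weight `2` on `Γ₀(N)`. -/
def eisN0 : ModularForm (CongruenceSubgroup.Gamma0 N) 2 where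
  toFun := eisFun N
  slash_action_eq' := by
    intro γ hγ
    obtain ⟨g, hg, rfl⟩ := Subgroup.mem_map.mp hγ
    rw [CongruenceSubgroup.Gamma0_mem, ZMod.intCast_zmod_eq_zero_iff_dvd] at hg
    obtain ⟨c', hc'⟩ := hg
    exact eisFun_slash N g c' hc'
  holo' := eisFun_mdiff N
  bdd_at_cusps' := by
    intro c hc
    rw [Subgroup.IsArithmetic.isCusp_iff_isCusp_SL2Z] at hc
    exact eisFun_isBoundedAt N hc

/-- The Eisenstein series `(N E₂(Nz) - E₂(z)) / 24` as a modular form of weight `2` on `Γ₀(N)`. -/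
def eisN : ModularForm (CongruenceSubgroup.Gamma0 N) 2 := (1 / 24 : ℂ) • eisN0 N

lemma eisN_apply (z : ℍ) : eisN N z = (N * E2 (alpha N • z) - E2 z) / 24 := by
  have : eisN N z = (1 / 24 : ℂ) * eisFun N z := rfl
  rw [this, eisFun_apply]
  ring

open scoped ArithmeticFunction.sigma

/-- Coefficients of `E₂`. -/
def cE (m : ℕ) : ℂ := if m = 0 then 1 else -24 * (ArithmeticFunction.sigma 1 m : ℂ)

/-- Coefficients of `E₂(Nz)`. -/
def cEN (k : ℕ) : ℂ := if N ∣ k then cE (k / N) else 0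

lemma hasSum_E2 (z : ℍ) :
    HasSum (fun m : ℕ ↦ cE m • Function.Periodic.qParam 1 z ^ m) (E2 z) := by
  simpa only [Function.Periodic.qParam, ofReal_one, div_one, cE] using hasSum_qExpansion_E2 (z := z)

lemma qParam_alpha (z : ℍ) :
    Function.Periodic.qParam 1 (alpha N • z : ℍ) = Function.Periodic.qParam 1 z ^ N := by
  rw [coe_alpha_smul]
  simp only [Function.Periodic.qParam, ofReal_one, div_one]
  rw [← Complex.exp_nat_mul]
  congr 1
  ring

lemma hasSum_E2_alpha (z : ℍ) :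
    HasSum (fun k : ℕ ↦ cEN N k • Function.Periodic.qParam 1 z ^ k) (E2 (alpha N • z)) := by
  have hN : 0 < N := Nat.pos_of_ne_zero (NeZero.ne N)
  have hinj : Function.Injective (fun m : ℕ => N * m) := fun a b h =>
    Nat.eq_of_mul_eq_mul_left hN h
  rw [← hinj.hasSum_iff]
  · convert hasSum_E2 (alpha N • z) using 2 with m
    simp only [Function.comp, cEN, dvd_mul_right, if_true, Nat.mul_div_cancel_left _ hN,
      qParam_alpha, pow_mul]
  · intro k hk
    have : ¬ N ∣ k := fun ⟨m, hm⟩ => hk ⟨m, hm.symm⟩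
    simp [cEN, this]

lemma hasSum_eisN (z : ℍ) :
    HasSum (fun k : ℕ ↦ ((N * cEN N k - cE k) / 24) • Function.Periodic.qParam 1 z ^ k)
      (eisN N z) := by
  rw [eisN_apply]
  have := (((hasSum_E2_alpha N z).mul_left (N : ℂ)).sub (hasSum_E2 z)).div_const 24
  have hfun : (fun k : ℕ ↦ ((N * cEN N k - cE k) / 24) • Function.Periodic.qParam 1 z ^ k) =
      fun i => (↑N * cEN N i • Function.Periodic.qParam 1 ↑z ^ i -
        cE i • Function.Periodic.qParam 1 ↑z ^ i) / 24 := by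
    funext k
    rw [smul_eq_mul, smul_eq_mul, smul_eq_mul]
    ring
  rw [hfun]
  exact this

lemma one_mem_strictPeriods :
    (1 : ℝ) ∈ (CongruenceSubgroup.Gamma0 N : Subgroup (GL (Fin 2) ℝ)).strictPeriods := by
  rw [CongruenceSubgroup.strictPeriods_Gamma0]
  exact AddSubgroup.mem_zmultiples 1

lemma coeff_eisN (k : ℕ) :
    (qExpansion 1 (eisN N)).coeff k = (N * cEN N k - cE k) / 24 :=
  (ModularFormClass.qExpansion_coeff_unique one_pos (one_mem_strictPeriods N)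
    (hasSum_eisN N) k).symm

lemma qCoeff_eisN_zero : ModularFormClass.qCoeff (eisN N) 0 = ((N : ℂ) - 1) / 24 := by
  rw [ModularFormClass.qCoeff, coeff_eisN]
  simp [cEN, cE]

lemma qCoeff_eisN {k : ℕ} (hk : k ≠ 0) :
    ModularFormClass.qCoeff (eisN N) k =
      (ArithmeticFunction.sigma 1 k : ℂ) -
        N * (if N ∣ k then (ArithmeticFunction.sigma 1 (k / N) : ℂ) else 0) := by
  rw [ModularFormClass.qCoeff, coeff_eisN]
  by_cases h : N ∣ k
  · have hkN : k / N ≠ 0 := by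
      obtain ⟨m, rfl⟩ := h
      have hN : 0 < N := Nat.pos_of_ne_zero (NeZero.ne N)
      rw [Nat.mul_div_cancel_left _ hN]
      rintro rfl
      simp at hk
    simp only [cEN, cE, h, if_true, hk, hkN, if_false]
    ring
  · simp only [cEN, cE, h, hk, if_false]
    ring

/-- The sum of the divisors of `k` which are not divisible by `N`. -/
def sigmaN (N k : ℕ) : ℤ := ∑ d ∈ k.divisors.filter (fun d => ¬ N ∣ d), (d : ℤ)

lemma sigma_sub_eq_sigmaN {k : ℕ} (hk : k ≠ 0) :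
    (ArithmeticFunction.sigma 1 k : ℤ) -
      N * (if N ∣ k then (ArithmeticFunction.sigma 1 (k / N) : ℤ) else 0) = sigmaN N k := by
  have hN : 0 < N := Nat.pos_of_ne_zero (NeZero.ne N)
  have h1 : (ArithmeticFunction.sigma 1 k : ℤ) =
      ∑ d ∈ k.divisors.filter (fun d => N ∣ d), (d : ℤ) + sigmaN N k := by
    rw [sigmaN, Finset.sum_filter_add_sum_filter_not, ArithmeticFunction.sigma_one_apply]
    push_cast
    rfl
  have h2 : ∑ d ∈ k.divisors.filter (fun d => N ∣ d), (d : ℤ) =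
      N * (if N ∣ k then (ArithmeticFunction.sigma 1 (k / N) : ℤ) else 0) := by
    by_cases h : N ∣ k
    · obtain ⟨m, rfl⟩ := h
      have hm : m ≠ 0 := by rintro rfl; simp at hk
      rw [if_pos (dvd_mul_right _ _), Nat.mul_div_cancel_left _ hN,
        ArithmeticFunction.sigma_one_apply]
      push_cast
      rw [Finset.mul_sum]
      symm
      refine Finset.sum_bij (fun e _ => N * e) ?_ ?_ ?_ ?_
      · intro e he
        rw [Nat.mem_divisors] at he
        simp only [Finset.mem_filter, Nat.mem_divisors]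
        exact ⟨⟨Nat.mul_dvd_mul_left N he.1, hk⟩, dvd_mul_right _ _⟩
      · intro a _ b _ hab
        exact Nat.eq_of_mul_eq_mul_left hN hab
      · intro d hd
        simp only [Finset.mem_filter, Nat.mem_divisors] at hd
        obtain ⟨⟨hd1, -⟩, e, rfl⟩ := hd
        exact ⟨e, Nat.mem_divisors.mpr ⟨Nat.dvd_of_mul_dvd_mul_left hN hd1, hm⟩, rfl⟩
      · intro e _
        push_cast
        rfl
    · rw [if_neg h, mul_zero]
      apply Finset.sum_eq_zero
      intro d hd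
      simp only [Finset.mem_filter, Nat.mem_divisors] at hd
      exact absurd (hd.2.trans hd.1.1) h
  rw [h1, h2]
  ring

lemma qCoeff_eisN_eq_sigmaN {k : ℕ} (hk : k ≠ 0) :
    ModularFormClass.qCoeff (eisN N) k = (sigmaN N k : ℂ) := by
  rw [qCoeff_eisN N hk, ← sigma_sub_eq_sigmaN N hk]
  push_cast
  split_ifs <;> simp

/-- The constant in the transformation law of `E₂` under `S` (equal to `6 i / π`). -/
def kappa : ℂ := (1 / (2 * riemannZeta 2)) * (2 * π * I)

lemma E2_S_transform (z w : ℍ) (h : (w : ℂ) = -1 / z) :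
    E2 w = (z : ℂ) ^ 2 * E2 z - kappa * z := by
  have hz : (z : ℂ) ≠ 0 := ne_zero z
  have hw : ModularGroup.S • z = w := by
    apply UpperHalfPlane.ext
    rw [h, UpperHalfPlane.modular_S_smul]
    simp [neg_div, inv_neg]
  have h1 := congrFun (E2_slash_action ModularGroup.S) z
  rw [ModularForm.SL_slash_apply, hw] at h1
  simp only [Pi.sub_apply, Pi.smul_apply, D2_S, smul_eq_mul] at h1
  rw [ModularGroup.denom_S] at h1
  have h2 : E2 w = (E2 w * (z : ℂ) ^ (-2 : ℤ)) * (z : ℂ) ^ 2 := by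
    rw [zpow_neg, mul_assoc]
    have : ((z : ℂ) ^ (2 : ℤ))⁻¹ * (z : ℂ) ^ 2 = 1 := by
      rw [zpow_ofNat]
      exact inv_mul_cancel₀ (pow_ne_zero 2 hz)
    rw [this, mul_one]
  rw [h2, h1, kappa]
  field_simp

/-- Fricke transformation of `eisN`: if `w = -1/(N z)` then `E(w) = - N z² E(z)`. -/
lemma eisN_fricke (z w : ℍ) (h : (w : ℂ) = -1 / (N * z)) :
    eisN N w = -(N : ℂ) * (z : ℂ) ^ 2 * eisN N z := by
  have hN : (N : ℂ) ≠ 0 := by exact_mod_cast NeZero.ne N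
  have hz : (z : ℂ) ≠ 0 := ne_zero z
  have h1 : E2 (alpha N • w) = (z : ℂ) ^ 2 * E2 z - kappa * z := by
    apply E2_S_transform
    rw [coe_alpha_smul, h]
    field_simp
  have h2 : E2 w = ((alpha N • z : ℍ) : ℂ) ^ 2 * E2 (alpha N • z) -
      kappa * ((alpha N • z : ℍ) : ℂ) := by
    apply E2_S_transform
    rw [coe_alpha_smul, h]
  rw [coe_alpha_smul] at h2
  rw [eisN_apply, eisN_apply, h1, h2]
  ring

lemma kappa_eq : kappa = 6 * I / π := by
  have hpi : (π : ℂ) ≠ 0 := by exact_mod_cast Real.pi_ne_zero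
  rw [kappa, riemannZeta_two]
  field_simp

/-- Version of `eisN_apply` with an arbitrary name for the point `N z`. -/
lemma eisN_apply' (z w : ℍ) (h : (w : ℂ) = N * z) : eisN N z = (N * E2 w - E2 z) / 24 := by
  have : alpha N • z = w := UpperHalfPlane.ext (by rw [coe_alpha_smul, h])
  rw [eisN_apply, this]

/-- The slash of `eisN` by `S`: `(E ∣ S)(z) = -(1/N) E(z/N)`. -/
lemma eisN_slash_S (z w : ℍ) (h : (w : ℂ) = z / N) :
    ((eisN N : ℍ → ℂ) ∣[(2 : ℤ)] ModularGroup.S) z = -(1 / (N : ℂ)) * eisN N w := by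
  have hN : (N : ℂ) ≠ 0 := by exact_mod_cast NeZero.ne N
  have hz : (z : ℂ) ≠ 0 := ne_zero z
  have h1 : eisN N (ModularGroup.S • z) = -(N : ℂ) * (w : ℂ) ^ 2 * eisN N w := by
    apply eisN_fricke
    rw [h, UpperHalfPlane.modular_S_smul]
    change (-(z : ℂ))⁻¹ = _
    field_simp
  rw [ModularForm.SL_slash_apply, ModularGroup.denom_S, h1, h, zpow_neg, zpow_ofNat]
  field_simp

lemma sigP_eq_sigmaN (p k : ℕ) : ((sigP p k : ℕ) : ℤ) = sigmaN p k := by
  simp [sigP, sigmaN]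

lemma qExpansion_eisN : qExpansion 1 (eisN N) = EisQ N := by
  ext k
  rcases Nat.eq_zero_or_pos k with rfl | hk
  · have := qCoeff_eisN_zero N
    rw [ModularFormClass.qCoeff] at this
    rw [this]
    have h0 : PowerSeries.coeff 0 (toC (deltaZ N)) = 0 := by
      rw [toC, PowerSeries.coeff_map, deltaZ, PowerSeries.coeff_mk]
      simp [sigP]
    rw [EisQ, map_add, h0, add_zero, PowerSeries.coeff_zero_C]
  · have := qCoeff_eisN_eq_sigmaN N hk.ne'
    rw [ModularFormClass.qCoeff] at this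
    rw [this, ← sigP_eq_sigmaN]
    simp [EisQ, deltaZ, PowerSeries.coeff_C, hk.ne']

end

end Fermat.Agent.S16.EisP

namespace Fermat.Agent.S16

open UpperHalfPlane ModularForm CongruenceSubgroup PowerSeries

theorem exists_eisForm (p : ℕ) [Fact p.Prime] :
    ∃ F : ModularForm (Gamma0 p) 2, qExpansion 1 F = EisQ p :=
  ⟨EisP.eisN p, EisP.qExpansion_eisN p⟩

end Fermat.Agent.S16
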