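import Fermat.Agent.S16.Defs

/-!
# S16 : formal calculus of `U_p`, `V_p` on power series, Frobenius congruences (owner helper117)
-/

set_option autoImplicit false

noncomputable section

namespace Fermat.Agent.S16

open PowerSeries

section Formal
variable {R S : Type*} [CommRing R] [CommRing S]

@[simp] theorem coeff_psU (p n : ℕ) (A : PowerSeries R) : coeff n (psU p A) = coeff (n * p) A :=
  coeff_mk _ _

@[simp] theorem coeff_psV (p n : ℕ) (A : PowerSeries R) :
    coeff n (psV p A) = if p ∣ n then coeff (n / p) A else 0 :=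
  coeff_mk _ _

theorem psU_add (p : ℕ) (A B : PowerSeries R) : psU p (A + B) = psU p A + psU p B := by
  ext n; simp

theorem psU_sub (p : ℕ) (A B : PowerSeries R) : psU p (A - B) = psU p A - psU p B := by
  ext n; simp

theorem psU_neg (p : ℕ) (A : PowerSeries R) : psU p (-A) = -psU p A := by
  ext n; simp

theorem psU_smul (p : ℕ) (c : R) (A : PowerSeries R) : psU p (c • A) = c • psU p A := by
  ext n; simp

theorem psU_C_mul (p : ℕ) (c : R) (A : PowerSeries R) : psU p (C c * A) = C c * psU p A := by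
  ext n; simp

theorem psU_C {p : ℕ} (hp : p ≠ 0) (c : R) : psU p (C c : PowerSeries R) = C c := by
  ext n
  simp [coeff_C, hp]

theorem psV_add (p : ℕ) (A B : PowerSeries R) : psV p (A + B) = psV p A + psV p B := by
  ext n
  simp only [coeff_psV, map_add]
  split_ifs <;> simp

theorem psV_sub (p : ℕ) (A B : PowerSeries R) : psV p (A - B) = psV p A - psV p B := by
  ext n
  simp only [coeff_psV, map_sub]
  split_ifs <;> simp

theorem psV_neg (p : ℕ) (A : PowerSeries R) : psV p (-A) = -psV p A := by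
  ext n
  simp only [coeff_psV, map_neg]
  split_ifs <;> simp

theorem psV_smul (p : ℕ) (c : R) (A : PowerSeries R) : psV p (c • A) = c • psV p A := by
  ext n
  simp only [coeff_psV, coeff_smul]
  split_ifs <;> simp

/-- `V_p` is Mathlib's `PowerSeries.expand`. -/
theorem psV_eq_expand {p : ℕ} (hp : p ≠ 0) (A : PowerSeries R) : psV p A = expand p hp A := by
  ext n
  rw [coeff_psV, coeff_expand]

theorem psV_C {p : ℕ} (hp : p ≠ 0) (c : R) : psV p (C c : PowerSeries R) = C c := by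
  rw [psV_eq_expand hp, expand_C]

theorem psV_one {p : ℕ} (hp : p ≠ 0) : psV p (1 : PowerSeries R) = 1 := by
  rw [psV_eq_expand hp, map_one]

theorem psV_mul {p : ℕ} (hp : p ≠ 0) (A B : PowerSeries R) :
    psV p (A * B) = psV p A * psV p B := by
  rw [psV_eq_expand hp, psV_eq_expand hp, psV_eq_expand hp, map_mul]

theorem psV_pow {p : ℕ} (hp : p ≠ 0) (A : PowerSeries R) (r : ℕ) :
    psV p (A ^ r) = psV p A ^ r := by
  rw [psV_eq_expand hp, psV_eq_expand hp, map_pow]

theorem psU_psV {p : ℕ} (hp : p ≠ 0) (A : PowerSeries R) : psU p (psV p A) = A := by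
  ext n
  rw [coeff_psU, coeff_psV, if_pos (Dvd.intro_left n rfl),
    Nat.mul_div_cancel _ (Nat.pos_of_ne_zero hp)]

theorem psU_psV_mul {p : ℕ} (hp : p ≠ 0) (A B : PowerSeries R) :
    psU p (psV p A * B) = A * psU p B := by
  ext n
  rw [coeff_psU, coeff_mul, coeff_mul]
  symm
  have hpos : 0 < p := Nat.pos_of_ne_zero hp
  refine Finset.sum_of_injOn (fun x : ℕ × ℕ => (x.1 * p, x.2 * p)) ?_ ?_ ?_ ?_
  · intro x _ y _ hxy
    simp only [Prod.mk.injEq] at hxy
    exact Prod.ext (Nat.eq_of_mul_eq_mul_right hpos hxy.1) (Nat.eq_of_mul_eq_mul_right hpos hxy.2)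
  · intro x hx
    rw [Finset.mem_coe, Finset.HasAntidiagonal.mem_antidiagonal] at hx ⊢
    rw [← hx, add_mul]
  · intro y hy hnot
    rw [coeff_psV]
    split_ifs with hdvd
    · exfalso
      apply hnot
      rw [Finset.HasAntidiagonal.mem_antidiagonal] at hy
      obtain ⟨k, hk⟩ := hdvd
      have hdvd2 : p ∣ y.2 := by
        have h1 : p ∣ y.1 + y.2 := by rw [hy]; exact Dvd.intro_left n rfl
        exact (Nat.dvd_add_right ⟨k, hk⟩).mp h1
      obtain ⟨l, hl⟩ := hdvd2
      refine ⟨(k, l), ?_, ?_⟩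
      · rw [Finset.mem_coe, Finset.HasAntidiagonal.mem_antidiagonal]
        apply Nat.eq_of_mul_eq_mul_right hpos
        rw [add_mul, ← hy, hk, hl]
        ring
      · apply Prod.ext
        · simp [hk, mul_comm]
        · simp [hl, mul_comm]
    · rw [zero_mul]
  · intro x _
    rw [coeff_psV, if_pos (Dvd.intro_left x.1 rfl), Nat.mul_div_cancel _ hpos, coeff_psU]

theorem map_psU (f : R →+* S) (p : ℕ) (A : PowerSeries R) :
    PowerSeries.map f (psU p A) = psU p (PowerSeries.map f A) := by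
  ext n; simp

theorem map_psV (f : R →+* S) (p : ℕ) (A : PowerSeries R) :
    PowerSeries.map f (psV p A) = psV p (PowerSeries.map f A) := by
  ext n
  simp only [coeff_map, coeff_psV]
  split_ifs <;> simp

theorem intCast_dvd_iff (d : ℤ) (A : PowerSeries ℤ) :
    (d : PowerSeries ℤ) ∣ A ↔ ∀ n, d ∣ coeff n A := by
  have hd : (d : PowerSeries ℤ) = C d := by
    rw [← map_intCast (C : ℤ →+* PowerSeries ℤ) d, Int.cast_id]
  rw [hd]
  constructor
  · rintro ⟨B, rfl⟩ n
    rw [coeff_C_mul]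
    exact Dvd.intro _ rfl
  · intro h
    choose b hb using h
    refine ⟨PowerSeries.mk b, ?_⟩
    ext n
    rw [coeff_C_mul, coeff_mk, hb n]

theorem dvd_psU {d : ℤ} {A : PowerSeries ℤ} (p : ℕ) (h : (d : PowerSeries ℤ) ∣ A) :
    (d : PowerSeries ℤ) ∣ psU p A := by
  rw [intCast_dvd_iff] at h ⊢
  intro n
  rw [coeff_psU]
  exact h _

theorem dvd_psV {d : ℤ} {A : PowerSeries ℤ} (p : ℕ) (h : (d : PowerSeries ℤ) ∣ A) :
    (d : PowerSeries ℤ) ∣ psV p A := by
  rw [intCast_dvd_iff] at h ⊢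
  intro n
  rw [coeff_psV]
  split_ifs
  · exact h _
  · exact dvd_zero _

theorem toC_injective : Function.Injective toC := by
  intro A B h
  ext n
  have := congrArg (coeff n) h
  simpa using this

/-- Frobenius: `A ^ (ℓ ^ v) ≡ V_{ℓ^v} A mod ℓ`. -/
theorem frobenius_dvd (ℓ : ℕ) [Fact ℓ.Prime] (A : PowerSeries ℤ) (v : ℕ) :
    ((ℓ : ℤ) : PowerSeries ℤ) ∣ A ^ (ℓ ^ v) - psV (ℓ ^ v) A := by
  have hℓ : ℓ ≠ 0 := (Fact.out : ℓ.Prime).ne_zero
  have hit : iterateFrobenius (ZMod ℓ) ℓ v = RingHom.id (ZMod ℓ) := by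
    ext x
    rw [iterateFrobenius_def, RingHom.id_apply]
    induction v with
    | zero => simp
    | succ k ih => rw [pow_succ, pow_mul, ih, ZMod.pow_card]
  have key : ∀ f : PowerSeries (ZMod ℓ), expand (ℓ ^ v) (pow_ne_zero v hℓ) f = f ^ ℓ ^ v := by
    intro f
    have h := MvPowerSeries.map_iterateFrobenius_expand (σ := Unit) ℓ hℓ f v
    rw [hit, MvPowerSeries.map_id] at h
    exact h
  rw [intCast_dvd_iff]
  intro n
  rw [← ZMod.intCast_zmod_eq_zero_iff_dvd]
  have h1 : ((coeff n (A ^ (ℓ ^ v) - psV (ℓ ^ v) A) : ℤ) : ZMod ℓ) =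
      coeff n (PowerSeries.map (Int.castRingHom (ZMod ℓ)) (A ^ (ℓ ^ v) - psV (ℓ ^ v) A)) := by
    rw [coeff_map]
    rfl
  rw [h1, map_sub, map_pow, map_psV, psV_eq_expand (pow_ne_zero v hℓ), key, sub_self, map_zero]

/-- `A ≡ B mod ℓ ⇒ A ^ (ℓ ^ v) ≡ B ^ (ℓ ^ v) mod ℓ ^ (v + 1)`. -/
theorem pow_lift (ℓ : ℕ) {A B : PowerSeries ℤ} (h : ((ℓ : ℤ) : PowerSeries ℤ) ∣ A - B) (v : ℕ) :
    (((ℓ : ℤ) ^ (v + 1) : ℤ) : PowerSeries ℤ) ∣ A ^ (ℓ ^ v) - B ^ (ℓ ^ v) := by
  rw [Int.cast_natCast] at h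
  have := dvd_sub_pow_of_dvd_sub h v
  rwa [Int.cast_pow, Int.cast_natCast]

end Formal

end Fermat.Agent.S16

end
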