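import Fermat.Agent.S16.LevelOneInt

/-!
# Integral Sturm bound in level one

For any additive subgroup `I ⊆ ℂ` and any level one modular form `F` of weight `k`: if the
q-expansion coefficients `a_n(F)`, `n ≤ k/12`, lie in `I`, then all of them do.
-/

namespace Fermat.Agent.S16.SturmZ

open UpperHalfPlane ModularForm ModularFormClass MatrixGroups EisensteinSeries

noncomputable section

/-- multiplication by an integral power series preserves "coefficients up to `B` lie in `I`". -/
lemma coeff_toC_mul_mem (I : AddSubgroup ℂ) (P : PowerSeries ℤ) (f : PowerSeries ℂ) (B : ℕ)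
    (hf : ∀ n ≤ B, f.coeff n ∈ I) : ∀ n ≤ B, (toC P * f).coeff n ∈ I := by
  intro n hn
  rw [PowerSeries.coeff_mul]
  refine I.sum_mem fun x hx => ?_
  have hx' : x.1 + x.2 = n := Finset.mem_antidiagonal.1 hx
  rw [PowerSeries.coeff_map]
  have : (Int.castRingHom ℂ) (P.coeff x.1) * f.coeff x.2 = (P.coeff x.1) • f.coeff x.2 := by
    simp
  rw [this]
  exact I.zsmul_mem (hf _ (by omega)) _

/-- multiplication by an integral power series preserves "all coefficients lie in `I`". -/
lemma coeff_toC_mul_mem' (I : AddSubgroup ℂ) (P : PowerSeries ℤ) (f : PowerSeries ℂ)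
    (hf : ∀ n, f.coeff n ∈ I) : ∀ n, (toC P * f).coeff n ∈ I :=
  fun n => coeff_toC_mul_mem I P f n (fun m _ => hf m) n le_rfl

/-- `Δ = q · U` with `U` a unit of `ℤ⟦q⟧`. -/
lemma exists_DeltaZ_eq : ∃ U V : PowerSeries ℤ, DeltaZ = PowerSeries.X * U ∧ V * U = 1 := by
  obtain ⟨U, hU⟩ := PowerSeries.X_dvd_iff.2
    (by simpa using coeff_zero_DeltaZ : PowerSeries.constantCoeff DeltaZ = 0)
  have h1 : PowerSeries.constantCoeff U = ((1 : ℤˣ) : ℤ) := by
    have := coeff_one_DeltaZ
    rw [hU, show (1 : ℕ) = 0 + 1 from rfl, PowerSeries.coeff_succ_X_mul] at this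
    simpa using this
  exact ⟨U, PowerSeries.invOfUnit U 1, hU, by
    rw [mul_comm]; exact PowerSeries.mul_invOfUnit U 1 h1⟩

/-- dividing by `Δ`. -/
lemma coeff_mem_of_DeltaZ_mul (I : AddSubgroup ℂ) (g h : PowerSeries ℂ) (hg : g = toC DeltaZ * h)
    (B : ℕ) (hB : ∀ n ≤ B + 1, g.coeff n ∈ I) : ∀ n ≤ B, h.coeff n ∈ I := by
  obtain ⟨U, V, hU, hV⟩ := exists_DeltaZ_eq
  have h1 : h = toC V * (toC U * h) := by
    rw [← mul_assoc, ← map_mul, hV, map_one, one_mul]
  rw [h1]
  refine coeff_toC_mul_mem I V _ B fun n hn => ?_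
  have h2 : g = PowerSeries.X * (toC U * h) := by
    rw [hg, hU, map_mul, PowerSeries.map_X, mul_assoc]
  have h3 := hB (n + 1) (by omega)
  rwa [h2, PowerSeries.coeff_succ_X_mul] at h3

/-- The monomial `E₄^a E₆^b` as a level one form. -/
def monomial (a b : ℕ) (k : ℤ) (hk : (a : ℤ) * 4 + (b : ℤ) * 6 = k) : ModularForm 𝒮ℒ k :=
  ModularForm.mcast hk ((E₄.pow a).mul (E₆.pow b))

lemma qExpansion_monomial (a b : ℕ) (k : ℤ) (hk : (a : ℤ) * 4 + (b : ℤ) * 6 = k) :
    qExpansion 1 (monomial a b k hk) = toC (E4Z ^ a * E6Z ^ b) := by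
  rw [monomial, ModularForm.qExpansion_mcast,
    ModularForm.qExpansion_mul one_pos one_mem_strictPeriods_SL,
    ModularForm.qExpansion_pow one_pos one_mem_strictPeriods_SL,
    ModularForm.qExpansion_pow one_pos one_mem_strictPeriods_SL, qExpansion_E4, qExpansion_E6,
    map_mul, map_pow, map_pow]

lemma constantCoeff_E4Z : PowerSeries.constantCoeff E4Z = 1 := by
  have := coeff_E4Z 0
  simpa using this

lemma constantCoeff_E6Z : PowerSeries.constantCoeff E6Z = 1 := by
  have := coeff_E6Z 0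
  simpa using this

lemma exists_weights (k : ℕ) (hk : Even k) (hk2 : k ≠ 2) : ∃ a b : ℕ, a * 4 + b * 6 = k := by
  obtain ⟨m, rfl⟩ := hk
  rcases Nat.even_or_odd' m with ⟨c, rfl | rfl⟩
  · exact ⟨c, 0, by ring⟩
  · have hc : c ≠ 0 := by rintro rfl; simp at hk2
    exact ⟨c - 1, 1, by omega⟩

/-- **Integral Sturm bound, level one, natural weight.** -/
theorem sturmZ_nat (I : AddSubgroup ℂ) (k : ℕ) (F : ModularForm 𝒮ℒ (k : ℤ))
    (h : ∀ n ≤ k / 12, (qExpansion 1 F).coeff n ∈ I) : ∀ n, (qExpansion 1 F).coeff n ∈ I := by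
  induction k using Nat.strong_induction_on with | _ k ih =>
  rcases Nat.even_or_odd k with hev | hodd
  swap
  · have : F = 0 := ModularForm.levelOne_odd_weight_eq_zero (by exact_mod_cast hodd) F
    intro n
    rw [this]
    simp [qExpansion_zero, I.zero_mem]
  by_cases hk2 : k = 2
  · subst hk2
    have : F = 0 := rank_zero_iff_forall_zero.mp levelOne_weight_two_rank_zero F
    intro n
    rw [this]
    simp [qExpansion_zero, I.zero_mem]
  obtain ⟨a, b, hab⟩ := exists_weights k hev hk2
  have hab' : (a : ℤ) * 4 + (b : ℤ) * 6 = (k : ℤ) := by exact_mod_cast hab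
  set a0 : ℂ := (qExpansion 1 F).coeff 0 with ha0
  have ha0I : a0 ∈ I := h 0 (Nat.zero_le _)
  set Mo : ModularForm 𝒮ℒ (k : ℤ) := monomial a b k hab' with hMo
  set P : PowerSeries ℤ := E4Z ^ a * E6Z ^ b with hP
  have hPq : qExpansion 1 Mo = toC P := qExpansion_monomial a b k hab'
  have hP0 : PowerSeries.constantCoeff P = 1 := by
    simp [hP, constantCoeff_E4Z, constantCoeff_E6Z]
  set G : ModularForm 𝒮ℒ (k : ℤ) := F - a0 • Mo with hG
  have hGq : qExpansion 1 G = qExpansion 1 F - toC P * PowerSeries.C a0 := by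
    rw [hG, FunLike.coe_sub, ModularForm.qExpansion_sub one_pos one_mem_strictPeriods_SL,
      FunLike.coe_smul, ModularForm.qExpansion_smul one_pos one_mem_strictPeriods_SL, hPq,
      PowerSeries.smul_eq_C_mul, mul_comm]
  have hCa0 : ∀ n, (PowerSeries.C a0 : PowerSeries ℂ).coeff n ∈ I := by
    intro n
    rw [PowerSeries.coeff_C]
    split_ifs
    · exact ha0I
    · exact I.zero_mem
  have hPa0 : ∀ n, (toC P * PowerSeries.C a0).coeff n ∈ I := coeff_toC_mul_mem' I P _ hCa0
  have hG0 : (qExpansion 1 G).coeff 0 = 0 := by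
    rw [hGq, map_sub, PowerSeries.coeff_zero_eq_constantCoeff_apply,
      PowerSeries.coeff_zero_eq_constantCoeff_apply, map_mul]
    have : PowerSeries.constantCoeff (toC P) = 1 := by
      rw [← PowerSeries.coeff_zero_eq_constantCoeff_apply, PowerSeries.coeff_map,
        PowerSeries.coeff_zero_eq_constantCoeff_apply, hP0]
      simp
    rw [this]
    simp [ha0]
  suffices hGall : ∀ n, (qExpansion 1 G).coeff n ∈ I by
    intro n
    have : (qExpansion 1 F).coeff n = (qExpansion 1 G).coeff n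
        + (toC P * PowerSeries.C a0).coeff n := by
      rw [hGq]; simp
    rw [this]
    exact I.add_mem (hGall n) (hPa0 n)
  have hfac := qExpansion_eq_qExpansion_discriminant_mul G hG0
  rw [qExpansion_discriminant] at hfac
  set H := CuspForm.discriminantEquiv (toCuspForm G hG0) with hH
  rcases lt_or_ge k 12 with hk12 | hk12
  · have hH0 : H = 0 := rank_zero_iff_forall_zero.mp (levelOne_neg_weight_rank_zero (by lia)) H
    intro n
    rw [hfac, hH0]
    simp [qExpansion_zero, I.zero_mem]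
  · have hcast : ((k : ℤ) - 12) = ((k - 12 : ℕ) : ℤ) := by lia
    set H' : ModularForm 𝒮ℒ ((k - 12 : ℕ) : ℤ) := ModularForm.mcast hcast H with hH'
    have hHq : qExpansion 1 H' = qExpansion 1 H := rfl
    have hsucc : k / 12 = (k - 12) / 12 + 1 := by lia
    have hGlow : ∀ n ≤ (k - 12) / 12 + 1, (qExpansion 1 G).coeff n ∈ I := by
      intro n hn
      rw [hGq, map_sub]
      exact I.sub_mem (h n (by omega)) (hPa0 n)
    have hHlow := coeff_mem_of_DeltaZ_mul I _ _ hfac _ hGlow
    have hHall := ih (k - 12) (by lia) H' (by rw [hHq]; exact hHlow)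
    rw [hHq] at hHall
    rw [hfac]
    exact coeff_toC_mul_mem' I DeltaZ _ hHall

/-- **Integral Sturm bound, level one.** If the q-expansion coefficients `a_n`, `n ≤ k/12`, of a
level one form of weight `k` lie in the additive subgroup `I` of `ℂ`, then all of them do. -/
theorem sturmZ (I : AddSubgroup ℂ) {k : ℤ} (F : ModularForm 𝒮ℒ k)
    (h : ∀ n ≤ k.toNat / 12, (qExpansion 1 F).coeff n ∈ I) :
    ∀ n, (qExpansion 1 F).coeff n ∈ I := by
  rcases lt_or_ge k 0 with hk | hk
  · have : F = 0 := rank_zero_iff_forall_zero.mp (levelOne_neg_weight_rank_zero hk) F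
    intro n
    rw [this]
    simp [qExpansion_zero, I.zero_mem]
  · lift k to ℕ using hk
    exact sturmZ_nat I k F (by simpa using h)

end

end Fermat.Agent.S16.SturmZ
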