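import Fermat.Agent.S16.Interface
import Fermat.Agent.S16.SturmZ

/-!
# S16: proof of the interface structure `LevelOneCalc`
-/

set_option autoImplicit false

noncomputable section

namespace Fermat.Agent.S16

open UpperHalfPlane ModularForm ModularFormClass CongruenceSubgroup PowerSeries EisensteinSeries
open scoped MatrixGroups ModularForm Manifold

lemma sigZ_eq_sigmaSeries (j : ℕ) : sigZ j = SturmZ.sigmaSeries j := rfl

lemma E4Z_eq : E4Z = SturmZ.E4Z := rfl

lemma E6Z_eq : E6Z = SturmZ.E6Z := rfl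

/-- the integral `q`-expansion of `Δ`. -/
abbrev DeltaZ : PowerSeries ℤ := SturmZ.DeltaZ

lemma isLevelOne_add {k : ℤ} {A B : PowerSeries ℂ} (hA : IsLevelOne k A) (hB : IsLevelOne k B) :
    IsLevelOne k (A + B) := by
  obtain ⟨F, rfl⟩ := hA
  obtain ⟨G, rfl⟩ := hB
  exact ⟨F + G, by
    rw [FunLike.coe_add, ModularForm.qExpansion_add one_pos one_mem_strictPeriods_SL]⟩

lemma isLevelOne_smul {k : ℤ} {A : PowerSeries ℂ} (c : ℂ) (hA : IsLevelOne k A) :
    IsLevelOne k (c • A) := by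
  obtain ⟨F, rfl⟩ := hA
  exact ⟨c • F, by
    rw [FunLike.coe_smul, ModularForm.qExpansion_smul one_pos one_mem_strictPeriods_SL]⟩

lemma isLevelOne_neg {k : ℤ} {A : PowerSeries ℂ} (hA : IsLevelOne k A) : IsLevelOne k (-A) := by
  simpa using isLevelOne_smul (-1) hA

lemma isLevelOne_sub {k : ℤ} {A B : PowerSeries ℂ} (hA : IsLevelOne k A) (hB : IsLevelOne k B) :
    IsLevelOne k (A - B) := by
  simpa [sub_eq_add_neg] using isLevelOne_add hA (isLevelOne_neg hB)

lemma isLevelOne_mul {k k' : ℤ} {A B : PowerSeries ℂ} (hA : IsLevelOne k A)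
    (hB : IsLevelOne k' B) : IsLevelOne (k + k') (A * B) := by
  obtain ⟨F, rfl⟩ := hA
  obtain ⟨G, rfl⟩ := hB
  exact ⟨F.mul G, ModularForm.qExpansion_mul one_pos one_mem_strictPeriods_SL F G⟩

lemma isLevelOne_pow {k : ℤ} {A : PowerSeries ℂ} (r : ℕ) (hA : IsLevelOne k A) :
    IsLevelOne (r * k) (A ^ r) := by
  obtain ⟨F, rfl⟩ := hA
  exact ⟨F.pow r, ModularForm.qExpansion_pow one_pos one_mem_strictPeriods_SL F r⟩

lemma isLevelOne_cast {k k' : ℤ} (h : k = k') {A : PowerSeries ℂ} (hA : IsLevelOne k A) :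
    IsLevelOne k' A := h ▸ hA

lemma isLevelOne_zero (k : ℤ) : IsLevelOne k 0 := ⟨0, by simp [qExpansion_zero]⟩

lemma isLevelOne_one : IsLevelOne 0 1 := ⟨1, ModularForm.qExpansion_one⟩

lemma isLevelOne_E4 : IsLevelOne 4 (toC E4Z) := ⟨E₄, SturmZ.qExpansion_E4⟩

lemma isLevelOne_E6 : IsLevelOne 6 (toC E6Z) := ⟨E₆, SturmZ.qExpansion_E6⟩

lemma isLevelOne_Delta : IsLevelOne 12 (toC DeltaZ) :=
  ⟨(CuspForm.discriminant : ModularForm 𝒮ℒ 12), SturmZ.qExpansion_discriminant⟩

lemma isLevelOne_sturm (I : AddSubgroup ℂ) (k : ℕ) {A : PowerSeries ℂ}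
    (hA : IsLevelOne (k : ℤ) A) (h : ∀ n ≤ k / 12, coeff n A ∈ I) : ∀ n, coeff n A ∈ I := by
  obtain ⟨F, rfl⟩ := hA
  exact SturmZ.sturmZ_nat I k F h

/-- a level one form of weight `2` vanishes. -/
lemma isLevelOne_two {A : PowerSeries ℂ} (hA : IsLevelOne 2 A) : A = 0 := by
  obtain ⟨F, rfl⟩ := hA
  have : F = 0 := rank_zero_iff_forall_zero.mp levelOne_weight_two_rank_zero F
  rw [this]
  simp [qExpansion_zero]

/-- a level one form of weight `< 12` (or `14`) with vanishing constant term vanishes; more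
generally: a level one form of weight `k` whose first `k/12 + 1` coefficients vanish is zero. -/
lemma isLevelOne_eq_zero (k : ℕ) {A : PowerSeries ℂ} (hA : IsLevelOne (k : ℤ) A)
    (h : ∀ n ≤ k / 12, coeff n A = 0) : A = 0 := by
  ext n
  have := isLevelOne_sturm ⊥ k hA (fun n hn => by simpa using h n hn) n
  simpa using this

/-- **The level one interface.** -/
theorem levelOneCalc : LevelOneCalc where
  add := isLevelOne_add
  smul := isLevelOne_smul
  mul := isLevelOne_mul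
  pow := isLevelOne_pow
  E4 := isLevelOne_E4
  E6 := isLevelOne_E6
  sturm := fun I k _ hA h => isLevelOne_sturm I k hA h

end Fermat.Agent.S16

end
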