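import Fermat.Agent.S16.Interface
import Fermat.Agent.Lib.Gamma0CountIndex
import Fermat.Prelude.Thm_ModularForm_sturm_bound_Gamma0
import Fermat.Prelude.Thm_CongruenceSubgroup_one_mem_strictPeriods_Gamma0

/-!
# S16: the levels `p = 2, 3`

There is no nonzero cusp form of weight two on `Γ₀(2)` or `Γ₀(3)`: the Sturm bound
`2 * index / 12` is zero.
-/

set_option autoImplicit false

noncomputable section

namespace Fermat.Agent.S16

open UpperHalfPlane ModularForm CongruenceSubgroup PowerSeries
open scoped MatrixGroups ModularForm Manifold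

theorem index_Gamma0_le_four {p : ℕ} (hp : p.Prime) (hp3 : p ≤ 3) : (Gamma0 p).index ≤ 4 := by
  rw [Fermat.Agent.Lib.Gamma0Count.index_Gamma0 p hp.ne_zero]
  have h2 := hp.two_le
  interval_cases p
  · decide +kernel
  · decide +kernel

theorem cuspForm_eq_zero_of_le_three {p : ℕ} (hp : p.Prime) (hp3 : p ≤ 3)
    (f : CuspForm (Gamma0 p) 2) : f = 0 := by
  have : NeZero p := ⟨hp.ne_zero⟩
  have key : (f : ModularForm (Gamma0 p) 2) = 0 := by
    apply ModularForm.sturm_bound_Gamma0 p
    intro n hn
    have hidx := index_Gamma0_le_four hp hp3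
    have hn0 : n = 0 := by
      have : ((2 : ℤ) * ((Gamma0 p).index : ℤ)).toNat / 12 = 0 := by
        apply Nat.div_eq_of_lt
        omega
      omega
    subst hn0
    exact CuspFormClass.qExpansion_coeff_zero f one_pos
      (CongruenceSubgroup.one_mem_strictPeriods_Gamma0 p)
  ext z
  have := congrArg (fun F : ModularForm (Gamma0 p) 2 => F z) key
  simpa using this

theorem intLattice_eq_bot_of_le_three (p : ℕ) [Fact p.Prime] (hp : p ≤ 3) :
    CuspForm.intLattice p 2 = ⊥ := by
  rw [eq_bot_iff]
  intro f _
  rw [Submodule.mem_bot]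
  exact cuspForm_eq_zero_of_le_three (Fact.out) hp f

end Fermat.Agent.S16

end
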