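import Fermat.Agent.S16.Interface
import Fermat.Agent.S16.EisP
import Fermat.Prelude.Thm_CongruenceSubgroup_one_mem_strictPeriods_Gamma0

/-!
# S16: the lower bound form

From a form `G` of weight two on `Γ₀(p)` with `a₀ = 1` and `a_n ∈ 2ℤ` (theta series) and the
Eisenstein series `E = (p-1)/24 + δ` we build the cusp form `c (E - (p-1)/24 G)`, `c = 12 / g₀`,
which is integral and congruent to `c δ` modulo `n = (p-1)/g₀`.

The passage "`a₀ = 0` implies cuspidal" is taken as a hypothesis here; see `LB.lean`.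
-/

set_option autoImplicit false

noncomputable section

namespace Fermat.Agent.S16

open UpperHalfPlane ModularForm CongruenceSubgroup PowerSeries
open scoped MatrixGroups ModularForm Manifold

theorem isCoprime_twelve_div_eisensteinNumerator (p : ℕ) :
    IsCoprime ((12 / Nat.gcd (p - 1) 12 : ℕ) : ℤ) (ModularCurve.eisensteinNumerator p : ℤ) := by
  rw [Nat.isCoprime_iff_coprime, ModularCurve.eisensteinNumerator]
  have h : 0 < Nat.gcd (p - 1) 12 := Nat.gcd_pos_of_pos_right _ (by norm_num)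
  exact (Nat.coprime_div_gcd_div_gcd h).symm

theorem lower_form_of (p : ℕ) [Fact p.Prime]
    (hW : ∀ F : ModularForm (Gamma0 p) 2, coeff 0 (qExpansion 1 F) = 0 →
      ∃ f : CuspForm (Gamma0 p) 2, (f : ℍ → ℂ) = F)
    (hθ : ∃ G : ModularForm (Gamma0 p) 2, coeff 0 (qExpansion 1 G) = 1 ∧
      ∀ n, 1 ≤ n → ∃ c : ℤ, coeff n (qExpansion 1 G) = 2 * (c : ℂ)) :
    ∃ f ∈ CuspForm.intLattice p 2, ∃ c : ℤ, IsCoprime c (ModularCurve.eisensteinNumerator p : ℤ) ∧
      ∀ k, 1 ≤ k → ∃ a : ℤ, ModularFormClass.qCoeff f k = a ∧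
        (ModularCurve.eisensteinNumerator p : ℤ) ∣ a - c * sigP p k := by
  obtain ⟨G, hG0, hG⟩ := hθ
  obtain ⟨E, hE⟩ := exists_eisForm p
  have hper := CongruenceSubgroup.one_mem_strictPeriods_Gamma0 p
  set g0 : ℕ := Nat.gcd (p - 1) 12 with hg0
  have hg0pos : 0 < g0 := Nat.gcd_pos_of_pos_right _ (by norm_num)
  set c : ℕ := 12 / g0 with hc
  set n : ℕ := ModularCurve.eisensteinNumerator p with hn
  have hcg : c * g0 = 12 := Nat.div_mul_cancel (Nat.gcd_dvd_right _ _)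
  have hng : n * g0 = p - 1 := Nat.div_mul_cancel (Nat.gcd_dvd_left _ _)
  have hp1 : 1 ≤ p := (Fact.out : p.Prime).one_lt.le
  -- the key numerical relation `c (p - 1) = 12 n`
  have hrel : (c : ℂ) * ((p : ℂ) - 1) = 12 * n := by
    have h1 : c * (p - 1) = 12 * n := by
      rw [← hng, ← hcg]; ring
    have h2 : ((p - 1 : ℕ) : ℂ) = (p : ℂ) - 1 := by
      rw [Nat.cast_sub hp1]; simp
    rw [← h2]
    exact_mod_cast h1
  set F : ModularForm (Gamma0 p) 2 := (c : ℂ) • (E - (((p : ℂ) - 1) / 24) • G) with hF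
  have hqF : qExpansion 1 F
      = (c : ℂ) • (EisQ p - (((p : ℂ) - 1) / 24) • qExpansion 1 G) := by
    have e1 : (F : ℍ → ℂ) = (c : ℂ) • ((E - (((p : ℂ) - 1) / 24) • G :
        ModularForm (Gamma0 p) 2) : ℍ → ℂ) := rfl
    have e2 : ((E - (((p : ℂ) - 1) / 24) • G : ModularForm (Gamma0 p) 2) : ℍ → ℂ)
        = (E : ℍ → ℂ) - (((((p : ℂ) - 1) / 24) • G : ModularForm (Gamma0 p) 2) : ℍ → ℂ) := rfl
    have e3 : (((((p : ℂ) - 1) / 24) • G : ModularForm (Gamma0 p) 2) : ℍ → ℂ)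
        = (((p : ℂ) - 1) / 24) • (G : ℍ → ℂ) := rfl
    rw [e1, ModularForm.qExpansion_smul one_pos hper, e2,
      ModularForm.qExpansion_sub one_pos hper, e3,
      ModularForm.qExpansion_smul one_pos hper, hE]
  have hF0 : coeff 0 (qExpansion 1 F) = 0 := by
    rw [hqF]
    simp only [EisQ, deltaZ, map_smul, map_sub, map_add, hG0, smul_eq_mul, coeff_C,
      if_true, coeff_map, coeff_mk]
    simp [sigP]
  have hFk : ∀ k, 1 ≤ k → ∀ d : ℤ, coeff k (qExpansion 1 G) = 2 * (d : ℂ) →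
      coeff k (qExpansion 1 F) = (((c : ℤ) * sigP p k - n * d : ℤ) : ℂ) := by
    intro k hk d hd
    rw [hqF]
    have hk0 : k ≠ 0 := by omega
    simp only [EisQ, deltaZ, map_smul, map_sub, map_add, hd, smul_eq_mul, coeff_C, hk0,
      if_false, zero_add, coeff_map, coeff_mk]
    push_cast
    linear_combination (-(d : ℂ) / 12) * hrel
  obtain ⟨f, hf⟩ := hW F hF0
  have hfq : ∀ k, ModularFormClass.qCoeff f k = coeff k (qExpansion 1 F) := by
    intro k
    rw [ModularFormClass.qCoeff, hf]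
  refine ⟨f, Submodule.subset_span ?_, (c : ℤ), ?_, ?_⟩
  · intro k
    rcases Nat.eq_zero_or_pos k with rfl | hk
    · exact ⟨0, by rw [hfq, hF0]; simp⟩
    · obtain ⟨d, hd⟩ := hG k hk
      exact ⟨_, by rw [hfq, hFk k hk d hd]⟩
  · exact isCoprime_twelve_div_eisensteinNumerator p
  · intro k hk
    obtain ⟨d, hd⟩ := hG k hk
    refine ⟨_, by rw [hfq, hFk k hk d hd], ?_⟩
    exact ⟨-d, by ring⟩

end Fermat.Agent.S16

end
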