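import Fermat.Agent.S16.Formal

/-!
# S16-F2 : identities for `σ'`, the formal discriminant
-/

set_option autoImplicit false
set_option linter.unusedSectionVars false

noncomputable section

namespace Fermat.Agent.S16

open PowerSeries

namespace SigmaP

/-- `sigP` as an unfiltered sum. -/
theorem sigP_eq_sum (p k : ℕ) : sigP p k = ∑ d ∈ k.divisors, if p ∣ d then 0 else d := by
  unfold sigP
  rw [Finset.sum_filter]
  refine Finset.sum_congr rfl fun d _ => ?_
  by_cases h : p ∣ d <;> simp [h]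

/-- the divisors of `k * l`, `l` prime. -/
theorem divisors_mul_prime {l : ℕ} (hl : l.Prime) {k : ℕ} (hk : k ≠ 0) :
    (k * l).divisors = k.divisors ∪ k.divisors.image (l * ·) := by
  ext d
  simp only [Nat.mem_divisors, Finset.mem_union, Finset.mem_image]
  constructor
  · rintro ⟨hd, -⟩
    by_cases hld : l ∣ d
    · obtain ⟨e, rfl⟩ := hld
      right
      refine ⟨e, ⟨?_, hk⟩, rfl⟩
      rw [mul_comm k l] at hd
      exact Nat.dvd_of_mul_dvd_mul_left hl.pos hd
    · left
      have hcop : Nat.Coprime d l := ((Nat.Prime.coprime_iff_not_dvd hl).2 hld).symm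
      exact ⟨hcop.dvd_of_dvd_mul_right hd, hk⟩
  · rintro (⟨hd, -⟩ | ⟨e, ⟨he, -⟩, rfl⟩)
    · exact ⟨Dvd.dvd.mul_right hd l, mul_ne_zero hk hl.ne_zero⟩
    · exact ⟨by rw [mul_comm k l]; exact Nat.mul_dvd_mul_left l he, mul_ne_zero hk hl.ne_zero⟩

theorem divisors_inter_image {l : ℕ} (hl : l.Prime) {k : ℕ} (hk : k ≠ 0) :
    k.divisors ∩ k.divisors.image (l * ·) =
      if l ∣ k then (k / l).divisors.image (l * ·) else ∅ := by
  ext d
  split_ifs with hlk
  · obtain ⟨m, rfl⟩ := hlk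
    have hm : m ≠ 0 := fun h => hk (by rw [h, mul_zero])
    rw [Nat.mul_div_cancel_left m hl.pos]
    simp only [Finset.mem_inter, Nat.mem_divisors, Finset.mem_image]
    constructor
    · rintro ⟨⟨hd, -⟩, e, -, rfl⟩
      exact ⟨e, ⟨Nat.dvd_of_mul_dvd_mul_left hl.pos hd, hm⟩, rfl⟩
    · rintro ⟨e, ⟨he, -⟩, rfl⟩
      exact ⟨⟨Nat.mul_dvd_mul_left l he, hk⟩, e, ⟨Dvd.dvd.mul_left he l, hk⟩, rfl⟩
  · simp only [Finset.mem_inter, Nat.mem_divisors, Finset.mem_image, Finset.notMem_empty,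
      iff_false]
    rintro ⟨⟨hd, -⟩, e, -, rfl⟩
    exact hlk (dvd_trans (Dvd.intro e rfl) hd)

theorem sum_image_mul {l : ℕ} (hl : l.Prime) (s : Finset ℕ) (g : ℕ → ℕ) :
    ∑ d ∈ s.image (l * ·), g d = ∑ e ∈ s, g (l * e) :=
  Finset.sum_image fun _ _ _ _ h => Nat.eq_of_mul_eq_mul_left hl.pos h

/-- the general Hecke identity for divisor sums. -/
theorem sum_divisors_mul_prime {l : ℕ} (hl : l.Prime) {k : ℕ} (hk : k ≠ 0) (g : ℕ → ℕ) :
    ∑ d ∈ (k * l).divisors, g d + (if l ∣ k then ∑ e ∈ (k / l).divisors, g (l * e) else 0) =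
      ∑ d ∈ k.divisors, g d + ∑ e ∈ k.divisors, g (l * e) := by
  have h := Finset.sum_union_inter (s₁ := k.divisors) (s₂ := k.divisors.image (l * ·)) (f := g)
  rw [← divisors_mul_prime hl hk, divisors_inter_image hl hk, sum_image_mul hl] at h
  rw [← h]
  congr 1
  split_ifs
  · rw [sum_image_mul hl]
  · simp

theorem pow_five_sub_pow_three (d : ℤ) : (12 : ℤ) ∣ d ^ 5 - d ^ 3 := by
  have h : ∀ x : ZMod 12, x ^ 5 - x ^ 3 = 0 := by decide
  have := h (d : ZMod 12)
  have h2 := (ZMod.intCast_zmod_eq_zero_iff_dvd (d ^ 5 - d ^ 3) 12).1 (by push_cast; exact this)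
  exact_mod_cast h2

end SigmaP

open SigmaP

section SigmaP
variable (p : ℕ) [Fact p.Prime]

theorem sigP_zero : sigP p 0 = 0 := by simp [sigP]

theorem sigP_one : sigP p 1 = 1 := by
  have hp : p.Prime := Fact.out
  have : ¬ p ∣ 1 := hp.one_lt.ne' ∘ Nat.dvd_one.1
  simp [sigP, Finset.filter_singleton, this]

theorem sigP_mul_self (k : ℕ) : sigP p (k * p) = sigP p k := by
  have hp : p.Prime := Fact.out
  rcases eq_or_ne k 0 with rfl | hk
  · simp
  unfold sigP
  congr 1
  ext d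
  simp only [Finset.mem_filter, Nat.mem_divisors]
  constructor
  · rintro ⟨⟨hd, -⟩, hpd⟩
    have hcop : Nat.Coprime d p := ((Nat.Prime.coprime_iff_not_dvd hp).2 hpd).symm
    exact ⟨⟨hcop.dvd_of_dvd_mul_right hd, hk⟩, hpd⟩
  · rintro ⟨⟨hd, -⟩, hpd⟩
    exact ⟨⟨Dvd.dvd.mul_right hd p, mul_ne_zero hk hp.ne_zero⟩, hpd⟩

theorem sigP_hecke {l : ℕ} (hl : l.Prime) (hlp : l ≠ p) (k : ℕ) :
    sigP p (k * l) + (if l ∣ k then l * sigP p (k / l) else 0) = (1 + l) * sigP p k := by
  have hp : p.Prime := Fact.out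
  rcases eq_or_ne k 0 with rfl | hk
  · simp [sigP_zero]
  have hg : ∀ e : ℕ, (if p ∣ l * e then 0 else l * e) = l * (if p ∣ e then 0 else e) := by
    intro e
    have hiff : p ∣ l * e ↔ p ∣ e := by
      constructor
      · intro h
        rcases hp.dvd_mul.1 h with h | h
        · exact absurd ((Nat.prime_dvd_prime_iff_eq hp hl).1 h).symm hlp
        · exact h
      · exact fun h => Dvd.dvd.mul_left h l
    by_cases h : p ∣ e <;> simp [hiff, h]
  have h := sum_divisors_mul_prime hl hk (fun d => if p ∣ d then 0 else d)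
  simp only [hg, ← Finset.mul_sum, ← sigP_eq_sum] at h
  rw [h]
  ring

theorem sigP_eq_sigma (k : ℕ) : (sigP p k : ℤ) =
    (ArithmeticFunction.sigma 1 k : ℤ) - p * (if p ∣ k then (ArithmeticFunction.sigma 1 (k / p) : ℤ) else 0) := by
  have hp : p.Prime := Fact.out
  have key : ArithmeticFunction.sigma 1 k =
      sigP p k + p * (if p ∣ k then ArithmeticFunction.sigma 1 (k / p) else 0) := by
    rw [ArithmeticFunction.sigma_one_apply, sigP, add_comm,
      ← Finset.sum_filter_add_sum_filter_not k.divisors (fun d => p ∣ d)]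
    congr 1
    split_ifs with hpk
    · obtain ⟨m, rfl⟩ := hpk
      rw [Nat.mul_div_cancel_left m hp.pos, ArithmeticFunction.sigma_one_apply, Finset.mul_sum,
        ← sum_image_mul hp m.divisors (fun d => d)]
      refine Finset.sum_congr ?_ fun _ _ => rfl
      ext d
      simp only [Finset.mem_filter, Nat.mem_divisors, Finset.mem_image]
      constructor
      · rintro ⟨⟨hd, h0⟩, e, rfl⟩
        exact ⟨e, ⟨Nat.dvd_of_mul_dvd_mul_left hp.pos hd, fun h => h0 (by rw [h, mul_zero])⟩, rfl⟩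
      · rintro ⟨e, ⟨he, h0⟩, rfl⟩
        exact ⟨⟨Nat.mul_dvd_mul_left p he, mul_ne_zero hp.ne_zero h0⟩, Dvd.intro e rfl⟩
    · rw [mul_zero]
      apply Finset.sum_eq_zero
      intro d hd
      rw [Finset.mem_filter, Nat.mem_divisors] at hd
      exact absurd (dvd_trans hd.2 hd.1.1) hpk
  rw [key]
  push_cast
  split_ifs <;> ring

theorem sigP_two (hp : 5 ≤ p) : sigP p 2 = 3 := by
  have h1 : ¬ p ∣ 1 := fun h => by have := Nat.le_of_dvd one_pos h; omega
  have h2 : ¬ p ∣ 2 := fun h => by have := Nat.le_of_dvd two_pos h; omega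
  rw [sigP_eq_sum, Nat.Prime.divisors Nat.prime_two, Finset.sum_pair (by norm_num)]
  simp [h1, h2]

theorem sigP_self : sigP p p = 1 := by
  have := sigP_mul_self p 1
  rwa [one_mul, sigP_one] at this

theorem psU_deltaZ : psU p (deltaZ p) = deltaZ p := by
  ext n
  simp [deltaZ, sigP_mul_self]

theorem psU_EisQ : psU p (EisQ p) = EisQ p := by
  have hp : p.Prime := Fact.out
  unfold EisQ
  rw [psU_add, psU_C hp.ne_zero, ← map_psU, psU_deltaZ]

/-- `d^3 ≡ d^5 mod 12` summed over divisors. -/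
theorem sigma_three_five (k : ℕ) : (12 : ℤ) ∣ (ArithmeticFunction.sigma 5 k : ℤ) - ArithmeticFunction.sigma 3 k := by
  rw [ArithmeticFunction.sigma_apply, ArithmeticFunction.sigma_apply]
  push_cast
  rw [← Finset.sum_sub_distrib]
  exact Finset.dvd_sum fun d _ => pow_five_sub_pow_three d

/-- formal discriminant. -/
theorem exists_deltaSeries : ∃ D : PowerSeries ℤ, 1728 * D = E4Z ^ 3 - E6Z ^ 2 ∧ coeff 0 D = 0 ∧ coeff 1 D = 1 := by
  set A := sigZ 3 with hA
  set B := sigZ 5 with hB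
  let W : PowerSeries ℤ := PowerSeries.mk fun k =>
    ((ArithmeticFunction.sigma 5 k : ℤ) - ArithmeticFunction.sigma 3 k) / 12
  have hBA : B = A + 12 * W := by
    ext k
    have h12 : (12 : PowerSeries ℤ) = C (12 : ℤ) := by simp
    rw [map_add, h12, coeff_C_mul]
    simp only [hA, hB, sigZ, W, coeff_mk]
    rw [Int.mul_ediv_cancel' (sigma_three_five k)]
    ring
  have hA0 : constantCoeff A = 0 := by simp [hA, sigZ]
  have hB0 : constantCoeff B = 0 := by simp [hB, sigZ]
  have hW0 : constantCoeff W = 0 := by simp [W]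
  have hA1 : coeff 1 A = 1 := by simp [hA, sigZ]
  have hW1 : coeff 1 W = 0 := by simp [W]
  have hsq : ∀ F G : PowerSeries ℤ, constantCoeff F = 0 → constantCoeff G = 0 →
      coeff 1 (F * G) = 0 := by
    intro F G hF hG
    rw [coeff_mul, Finset.Nat.antidiagonal_succ]
    simp [hF, hG]
  refine ⟨A + 7 * W + 100 * A ^ 2 + 8000 * A ^ 3 - 147 * B ^ 2, ?_, ?_, ?_⟩
  · unfold E4Z E6Z
    rw [← hA, ← hB, hBA]
    ring
  · rw [coeff_zero_eq_constantCoeff_apply]
    simp [hA0, hB0, hW0]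
  · have h7 : (7 : PowerSeries ℤ) = C (7 : ℤ) := by simp
    have h100 : (100 : PowerSeries ℤ) = C (100 : ℤ) := by simp
    have h8000 : (8000 : PowerSeries ℤ) = C (8000 : ℤ) := by simp
    have h147 : (147 : PowerSeries ℤ) = C (147 : ℤ) := by simp
    rw [map_sub, map_add, map_add, map_add, h7, h100, h8000, h147, coeff_C_mul, coeff_C_mul,
      coeff_C_mul, coeff_C_mul, pow_two, pow_two, pow_succ, pow_two, hsq A A hA0 hA0,
      hsq B B hB0 hB0, hsq (A * A) A (by simp [hA0]) hA0, hA1, hW1]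
    norm_num

end SigmaP

end Fermat.Agent.S16

end
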