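import Fermat.Agent.S16.Defs

/-!
# S16: cosets of `Γ₀(p)` in `SL₂(ℤ)` and constructors for modular / cusp forms on `Γ₀(p)`

* `coset_cases` : `SL₂(ℤ) = Γ₀(p) ∪ ⋃_{j < p} Γ₀(p) S T^j`.
* `slash_cases` : the corresponding statement for `F ∣[k] γ`, `F` invariant under `Γ₀(p)`.
* `exists_modularForm_of`, `exists_cuspForm_of` : a holomorphic `Γ₀(p)`-invariant function which is
  bounded (resp. zero) at `i∞` together with `F ∣[k] S` is a modular (resp. cusp) form.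
-/

set_option autoImplicit false

noncomputable section

namespace Fermat.Agent.S16

open UpperHalfPlane ModularForm CongruenceSubgroup Matrix.SpecialLinearGroup
open scoped MatrixGroups ModularForm Manifold

theorem toGL_T_pow_apply (j : ℕ) :
    (toGL ((map (Int.castRingHom ℝ)) (ModularGroup.T ^ j : SL(2, ℤ))) : GL (Fin 2) ℝ) 1 0 = 0 := by
  have := ModularGroup.coe_T_zpow (j : ℤ)
  rw [zpow_natCast] at this
  have h2 : ((ModularGroup.T ^ j : SL(2, ℤ)) 1 0 : ℤ) = 0 := by rw [this]; simp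
  show ((Int.castRingHom ℝ) ((ModularGroup.T ^ j : SL(2, ℤ)) 1 0)) = 0
  rw [h2]; simp

theorem isBoundedAtImInfty_slash_T_pow {k : ℤ} {F : ℍ → ℂ} (h : IsBoundedAtImInfty F) (j : ℕ) :
    IsBoundedAtImInfty (F ∣[k] (ModularGroup.T ^ j : SL(2, ℤ))) := by
  rw [ModularForm.SL_slash]
  exact h.slash k (toGL_T_pow_apply j)

theorem isZeroAtImInfty_slash_T_pow {k : ℤ} {F : ℍ → ℂ} (h : IsZeroAtImInfty F) (j : ℕ) :
    IsZeroAtImInfty (F ∣[k] (ModularGroup.T ^ j : SL(2, ℤ))) := by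
  rw [ModularForm.SL_slash]
  exact h.slash k (toGL_T_pow_apply j)

section Analytic
variable (p : ℕ) [Fact p.Prime]

theorem coset_cases (γ : SL(2, ℤ)) : γ ∈ Gamma0 p ∨
    ∃ δ ∈ Gamma0 p, ∃ j : ℕ, j < p ∧ γ = δ * ModularGroup.S * ModularGroup.T ^ j := by
  by_cases hγ : γ ∈ Gamma0 p
  · exact Or.inl hγ
  refine Or.inr ?_
  rw [Gamma0_mem] at hγ
  set c : ZMod p := ((γ 1 0 : ℤ) : ZMod p) with hc
  set d : ZMod p := ((γ 1 1 : ℤ) : ZMod p) with hd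
  set j : ℕ := (d * c⁻¹).val with hj
  have hjp : j < p := ZMod.val_lt _
  have hjc : (j : ZMod p) = d * c⁻¹ := by rw [hj, ZMod.natCast_val, ZMod.cast_id', id]
  refine ⟨γ * ModularGroup.T ^ (-(j : ℤ)) * ModularGroup.S⁻¹, ?_, j, hjp, ?_⟩
  · rw [Gamma0_mem]
    have h1 : ((γ * ModularGroup.T ^ (-(j : ℤ)) * ModularGroup.S⁻¹ : SL(2, ℤ)) 1 0 : ℤ)
        = -(γ 1 1 - γ 1 0 * j) := by
      simp only [Matrix.SpecialLinearGroup.coe_mul, Matrix.SpecialLinearGroup.coe_inv,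
        ModularGroup.coe_T_zpow, ModularGroup.coe_S, Matrix.adjugate_fin_two_of,
        Matrix.mul_apply, Fin.sum_univ_two]
      simp
      ring
    rw [h1]
    push_cast
    rw [← hc, ← hd, hjc, mul_comm d, ← mul_assoc, mul_inv_cancel₀ hγ]
    ring
  · rw [zpow_neg, zpow_natCast]
    group

theorem slash_cases (k : ℤ) (F : ℍ → ℂ) (hinv : ∀ γ ∈ Gamma0 p, F ∣[k] γ = F) (γ : SL(2, ℤ)) :
    F ∣[k] γ = F ∨ ∃ j : ℕ, j < p ∧
      F ∣[k] γ = (F ∣[k] ModularGroup.S) ∣[k] (ModularGroup.T ^ j : SL(2, ℤ)) := by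
  rcases coset_cases p γ with h | ⟨δ, hδ, j, hj, rfl⟩
  · exact Or.inl (hinv γ h)
  · refine Or.inr ⟨j, hj, ?_⟩
    rw [SlashAction.slash_mul, SlashAction.slash_mul, hinv δ hδ]

theorem exists_modularForm_of (k : ℤ) (F : ℍ → ℂ) (hinv : ∀ γ ∈ Gamma0 p, F ∣[k] γ = F)
    (hhol : MDiff F) (hb : IsBoundedAtImInfty F)
    (hbS : IsBoundedAtImInfty (F ∣[k] ModularGroup.S)) :
    ∃ G : ModularForm (Gamma0 p) k, (G : ℍ → ℂ) = F := by
  have : NeZero p := ⟨(Fact.out : p.Prime).ne_zero⟩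
  refine ⟨{ toFun := F, slash_action_eq' := ?_, holo' := hhol, bdd_at_cusps' := ?_ }, rfl⟩
  · rintro _ ⟨γ, hγ, rfl⟩
    exact hinv γ hγ
  · intro c hc
    rw [Subgroup.IsArithmetic.isCusp_iff_isCusp_SL2Z] at hc
    rw [OnePoint.isBoundedAt_iff_forall_SL2Z hc]
    intro γ _
    rcases slash_cases p k F hinv γ with h | ⟨j, _, h⟩
    · rw [h]; exact hb
    · rw [h]; exact isBoundedAtImInfty_slash_T_pow hbS j

theorem exists_cuspForm_of (k : ℤ) (F : ℍ → ℂ) (hinv : ∀ γ ∈ Gamma0 p, F ∣[k] γ = F)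
    (hhol : MDiff F) (hb : IsZeroAtImInfty F)
    (hbS : IsZeroAtImInfty (F ∣[k] ModularGroup.S)) :
    ∃ G : CuspForm (Gamma0 p) k, (G : ℍ → ℂ) = F := by
  have : NeZero p := ⟨(Fact.out : p.Prime).ne_zero⟩
  refine ⟨{ toFun := F, slash_action_eq' := ?_, holo' := hhol, zero_at_cusps' := ?_ }, rfl⟩
  · rintro _ ⟨γ, hγ, rfl⟩
    exact hinv γ hγ
  · intro c hc
    rw [Subgroup.IsArithmetic.isCusp_iff_isCusp_SL2Z] at hc
    rw [OnePoint.isZeroAt_iff_forall_SL2Z hc]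
    intro γ _
    rcases slash_cases p k F hinv γ with h | ⟨j, _, h⟩
    · rw [h]; exact hb
    · rw [h]; exact isZeroAtImInfty_slash_T_pow hbS j

end Analytic

end Fermat.Agent.S16

end
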