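import Fermat.Agent.S16.Defs
import Fermat.Prelude.Thm_CongruenceSubgroup_one_mem_strictPeriods_Gamma0

/-!
# S16: the Fricke involution on `M_k(Γ₀(p))`

`sharp p k F (z) = (p z)^(-k) F(-1/(p z))`.  We show that it preserves `M_k(Γ₀(p))`, and the
basic algebraic properties of `sharp` and of `IsPair`.
-/

set_option autoImplicit false

noncomputable section

namespace Fermat.Agent.S16

open UpperHalfPlane ModularForm CongruenceSubgroup Matrix
open scoped MatrixGroups ModularForm Manifold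

variable (p : ℕ) [NeZero p]

/-! ## The Fricke matrix -/

@[simp] theorem val_frickeGL :
    ((frickeGL p : GL (Fin 2) ℝ) : Matrix (Fin 2) (Fin 2) ℝ) = !![0, -1; (p : ℝ), 0] := rfl

theorem det_frickeGL : ((frickeGL p).det : ℝ) = p := by
  rw [Matrix.GeneralLinearGroup.val_det_apply, val_frickeGL, Matrix.det_fin_two_of]
  ring

theorem det_frickeGL_pos : 0 < ((frickeGL p).det : ℝ) := by
  rw [det_frickeGL]; exact_mod_cast Nat.pos_of_ne_zero (NeZero.ne p)

theorem σ_frickeGL : UpperHalfPlane.σ (frickeGL p) = .refl ℝ ℂ := by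
  rw [UpperHalfPlane.σ, if_pos (det_frickeGL_pos p)]

theorem denom_frickeGL (z : ℍ) : UpperHalfPlane.denom (frickeGL p) z = (p : ℂ) * z := by
  simp [UpperHalfPlane.denom]

theorem coe_frickeGL_smul (z : ℍ) : ((frickeGL p • z : ℍ) : ℂ) = -1 / ((p : ℂ) * z) := by
  rw [UpperHalfPlane.coe_smul_of_det_pos (det_frickeGL_pos p)]
  simp [UpperHalfPlane.num, UpperHalfPlane.denom]

theorem natCast_ne_zero' : (p : ℂ) ≠ 0 := by exact_mod_cast NeZero.ne p

theorem slash_frickeGL_apply (k : ℤ) (F : ℍ → ℂ) (z : ℍ) :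
    (F ∣[k] frickeGL p) z = (p : ℂ) ^ (k - 1) * ((p : ℂ) * z) ^ (-k) * F (frickeGL p • z) := by
  rw [ModularForm.slash_apply, σ_frickeGL, det_frickeGL, denom_frickeGL]
  simp only [ContinuousAlgEquiv.refl_apply, Nat.abs_cast, Complex.ofReal_natCast]
  ring

theorem sharp_apply (k : ℤ) (F : ℍ → ℂ) (z : ℍ) :
    sharp p k F z = ((p : ℂ) * z) ^ (-k) * F (frickeGL p • z) := by
  have hp := natCast_ne_zero' p
  rw [sharp, Pi.smul_apply, slash_frickeGL_apply, smul_eq_mul, ← mul_assoc, ← mul_assoc,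
    ← zpow_add₀ hp, show 1 - k + (k - 1) = 0 by ring, zpow_zero, one_mul]

theorem frickeGL_smul_smul (z : ℍ) : frickeGL p • (frickeGL p • z) = z := by
  apply UpperHalfPlane.ext
  rw [coe_frickeGL_smul, coe_frickeGL_smul]
  have hp := natCast_ne_zero' p
  have hz := UpperHalfPlane.ne_zero z
  field_simp

/-! ## Algebraic properties of `sharp` -/

theorem sharp_add (k : ℤ) (F G : ℍ → ℂ) : sharp p k (F + G) = sharp p k F + sharp p k G := by
  simp [sharp, smul_add]

theorem sharp_smul (k : ℤ) (c : ℂ) (F : ℍ → ℂ) : sharp p k (c • F) = c • sharp p k F := by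
  ext z
  simp only [sharp_apply, Pi.smul_apply, smul_eq_mul]
  ring

theorem sharp_neg (k : ℤ) (F : ℍ → ℂ) : sharp p k (-F) = -sharp p k F := by
  ext z
  simp only [sharp_apply, Pi.neg_apply]
  ring

theorem sharp_sub (k : ℤ) (F G : ℍ → ℂ) : sharp p k (F - G) = sharp p k F - sharp p k G := by
  rw [sub_eq_add_neg, sharp_add, sharp_neg, ← sub_eq_add_neg]

theorem sharp_mul (k₁ k₂ : ℤ) (F G : ℍ → ℂ) :
    sharp p (k₁ + k₂) (F * G) = sharp p k₁ F * sharp p k₂ G := by
  ext z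
  have h : (p : ℂ) * z ≠ 0 := mul_ne_zero (natCast_ne_zero' p) (UpperHalfPlane.ne_zero z)
  simp only [sharp_apply, Pi.mul_apply, neg_add, zpow_add₀ h]
  ring

theorem sharp_sharp (k : ℤ) (F : ℍ → ℂ) :
    sharp p k (sharp p k F) = ((-(p : ℂ)) ^ (-k)) • F := by
  ext z
  have hp := natCast_ne_zero' p
  have hz := UpperHalfPlane.ne_zero z
  rw [sharp_apply, sharp_apply, frickeGL_smul_smul, coe_frickeGL_smul, Pi.smul_apply, smul_eq_mul,
    ← mul_assoc, ← mul_zpow]
  congr 2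
  field_simp

/-! ## `sharp` preserves `M_k(Γ₀(p))` -/

/-- the conjugate `W γ W⁻¹` of an element of `Γ₀(p)` -/
def frickeConj (γ : SL(2, ℤ)) (c' : ℤ) (hc : γ 1 0 = p * c') : SL(2, ℤ) :=
  ⟨!![γ 1 1, -c'; -(p * γ 0 1), γ 0 0], by
    have h := γ.det_coe
    rw [Matrix.det_fin_two] at h
    rw [Matrix.det_fin_two_of]
    rw [hc] at h
    linarith⟩

omit [NeZero p] in
@[simp] theorem frickeConj_zero_zero (γ : SL(2, ℤ)) (c' : ℤ) (hc : γ 1 0 = p * c') :
    frickeConj p γ c' hc 0 0 = γ 1 1 := rfl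

omit [NeZero p] in
@[simp] theorem frickeConj_zero_one (γ : SL(2, ℤ)) (c' : ℤ) (hc : γ 1 0 = p * c') :
    frickeConj p γ c' hc 0 1 = -c' := rfl

omit [NeZero p] in
@[simp] theorem frickeConj_one_zero (γ : SL(2, ℤ)) (c' : ℤ) (hc : γ 1 0 = p * c') :
    frickeConj p γ c' hc 1 0 = -(p * γ 0 1) := rfl

omit [NeZero p] in
@[simp] theorem frickeConj_one_one (γ : SL(2, ℤ)) (c' : ℤ) (hc : γ 1 0 = p * c') :
    frickeConj p γ c' hc 1 1 = γ 0 0 := rfl

omit [NeZero p] in
theorem frickeConj_mem (γ : SL(2, ℤ)) (c' : ℤ) (hc : γ 1 0 = p * c') :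
    frickeConj p γ c' hc ∈ Gamma0 p := by
  rw [Gamma0_mem]
  simp

theorem frickeGL_mul (γ : SL(2, ℤ)) (c' : ℤ) (hc : γ 1 0 = p * c') :
    frickeGL p * (γ : GL (Fin 2) ℝ) = (frickeConj p γ c' hc : GL (Fin 2) ℝ) * frickeGL p := by
  apply Matrix.GeneralLinearGroup.ext
  intro i j
  have hc' : ((γ 1 0 : ℤ) : ℝ) = p * c' := by rw [hc]; push_cast; ring
  fin_cases i <;> fin_cases j <;>
    simp [Matrix.mul_apply, Fin.sum_univ_two, hc'] <;> ring

omit [NeZero p] in
theorem exists_eq_mul_of_mem_Gamma0 {γ : SL(2, ℤ)} (hγ : γ ∈ Gamma0 p) :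
    ∃ c' : ℤ, γ 1 0 = p * c' := by
  rw [Gamma0_mem] at hγ
  exact (ZMod.intCast_zmod_eq_zero_iff_dvd _ p).1 hγ

open ConjAct Pointwise in
theorem Gamma0_le_conj :
    ((Gamma0 p : Subgroup SL(2, ℤ)) : Subgroup (GL (Fin 2) ℝ)) ≤
      toConjAct (frickeGL p)⁻¹ • ((Gamma0 p : Subgroup SL(2, ℤ)) : Subgroup (GL (Fin 2) ℝ)) := by
  rintro _ ⟨γ, hγ, rfl⟩
  obtain ⟨c', hc⟩ := exists_eq_mul_of_mem_Gamma0 p hγ
  rw [Subgroup.mem_pointwise_smul_iff_inv_smul_mem, ← map_inv, inv_inv, ConjAct.smul_def,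
    ConjAct.ofConjAct_toConjAct]
  refine ⟨frickeConj p γ c' hc, frickeConj_mem p γ c' hc, ?_⟩
  rw [eq_mul_inv_iff_mul_eq]
  exact (frickeGL_mul p γ c' hc).symm

variable {p} in
/-- `F ∣[k] W` as a modular form on `Γ₀(p)`. -/
def frickeMF {k : ℤ} (F : ModularForm (Gamma0 p) k) : ModularForm (Gamma0 p) k where
  toFun := ⇑F ∣[k] frickeGL p
  slash_action_eq' γ hγ :=
    (ModularForm.translate F (frickeGL p)).slash_action_eq' γ (Gamma0_le_conj p hγ)
  holo' := (ModularForm.translate F (frickeGL p)).holo'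
  bdd_at_cusps' hc := (ModularForm.translate F (frickeGL p)).bdd_at_cusps'
    (hc.mono (Gamma0_le_conj p))

variable {p} in
/-- `F♯` as a modular form on `Γ₀(p)`. -/
def sharpMF {k : ℤ} (F : ModularForm (Gamma0 p) k) : ModularForm (Gamma0 p) k :=
  ((p : ℂ) ^ (1 - k)) • frickeMF F

variable {p} in
@[simp] theorem coe_sharpMF {k : ℤ} (F : ModularForm (Gamma0 p) k) :
    (sharpMF F : ℍ → ℂ) = sharp p k F := rfl

theorem exists_sharp {k : ℤ} (F : ModularForm (Gamma0 p) k) :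
    ∃ G : ModularForm (Gamma0 p) k, (G : ℍ → ℂ) = sharp p k F := ⟨sharpMF F, rfl⟩

omit [NeZero p] in
theorem one_mem_strictPeriods :
    (1 : ℝ) ∈ ((Gamma0 p : Subgroup SL(2, ℤ)) : Subgroup (GL (Fin 2) ℝ)).strictPeriods :=
  CongruenceSubgroup.one_mem_strictPeriods_Gamma0 p

/-! ## Closure properties of `IsPair` -/

section IsPair

variable {k k₁ k₂ : ℤ} {A B A' B' : PowerSeries ℂ}

theorem isPair_of (F : ModularForm (Gamma0 p) k) :
    IsPair p k (qExpansion 1 F) (qExpansion 1 (sharpMF F)) :=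
  ⟨F, sharpMF F, rfl, rfl, rfl⟩

theorem exists_isPair (F : ModularForm (Gamma0 p) k) :
    ∃ B, IsPair p k (qExpansion 1 F) B := ⟨_, isPair_of p F⟩

theorem IsPair.add (h : IsPair p k A B) (h' : IsPair p k A' B') :
    IsPair p k (A + A') (B + B') := by
  obtain ⟨F, G, hG, rfl, rfl⟩ := h
  obtain ⟨F', G', hG', rfl, rfl⟩ := h'
  refine ⟨F + F', G + G', ?_, ?_, ?_⟩
  · rw [FunLike.coe_add, FunLike.coe_add, sharp_add, hG, hG']
  · rw [FunLike.coe_add]
    exact ModularForm.qExpansion_add one_pos (one_mem_strictPeriods p) F F'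
  · rw [FunLike.coe_add]
    exact ModularForm.qExpansion_add one_pos (one_mem_strictPeriods p) G G'

theorem IsPair.smul (c : ℂ) (h : IsPair p k A B) : IsPair p k (c • A) (c • B) := by
  obtain ⟨F, G, hG, rfl, rfl⟩ := h
  refine ⟨c • F, c • G, ?_, ?_, ?_⟩
  · rw [FunLike.coe_smul, FunLike.coe_smul, sharp_smul, hG]
  · rw [FunLike.coe_smul]
    exact ModularForm.qExpansion_smul one_pos (one_mem_strictPeriods p) c F
  · rw [FunLike.coe_smul]
    exact ModularForm.qExpansion_smul one_pos (one_mem_strictPeriods p) c G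

theorem IsPair.neg (h : IsPair p k A B) : IsPair p k (-A) (-B) := by
  simpa using IsPair.smul p (-1) h

theorem IsPair.sub (h : IsPair p k A B) (h' : IsPair p k A' B') :
    IsPair p k (A - A') (B - B') := by
  simpa [sub_eq_add_neg] using IsPair.add p h (IsPair.neg p h')

theorem IsPair.mul (h : IsPair p k₁ A B) (h' : IsPair p k₂ A' B') :
    IsPair p (k₁ + k₂) (A * A') (B * B') := by
  obtain ⟨F, G, hG, rfl, rfl⟩ := h
  obtain ⟨F', G', hG', rfl, rfl⟩ := h'
  refine ⟨F.mul F', G.mul G', ?_, ?_, ?_⟩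
  · rw [ModularForm.coe_mul, ModularForm.coe_mul, sharp_mul, hG, hG']
  · exact ModularForm.qExpansion_mul one_pos (one_mem_strictPeriods p) F F'
  · exact ModularForm.qExpansion_mul one_pos (one_mem_strictPeriods p) G G'

theorem IsPair.swap (h : IsPair p k A B) :
    IsPair p k B (((-(p : ℂ)) ^ (-k)) • A) := by
  obtain ⟨F, G, hG, rfl, rfl⟩ := h
  refine ⟨G, ((-(p : ℂ)) ^ (-k)) • F, ?_, rfl, ?_⟩
  · rw [FunLike.coe_smul, hG, sharp_sharp]
  · rw [FunLike.coe_smul]
    exact ModularForm.qExpansion_smul one_pos (one_mem_strictPeriods p) _ F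

theorem isPair_one : IsPair p 0 1 1 := by
  refine ⟨1, 1, ?_, ?_, ?_⟩
  · ext z
    simp [sharp_apply]
  · exact ModularForm.qExpansion_one
  · exact ModularForm.qExpansion_one

theorem IsPair.pow (r : ℕ) (h : IsPair p k A B) : IsPair p (r * k) (A ^ r) (B ^ r) := by
  induction r with
  | zero => simpa using isPair_one p
  | succ r ih =>
    have h1 := IsPair.mul p ih h
    have e : (r : ℤ) * k + k = ((r + 1 : ℕ) : ℤ) * k := by push_cast; ring
    rw [e] at h1
    simpa [pow_succ] using h1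

/-- `B` is determined by `A`. -/
theorem IsPair.unique (h : IsPair p k A B) (h' : IsPair p k A B') : B = B' := by
  obtain ⟨F, G, hG, rfl, rfl⟩ := h
  obtain ⟨F', G', hG', hA, rfl⟩ := h'
  have hF : F' = F := by
    have h0 : qExpansion 1 ⇑(F' - F) = 0 := by
      rw [FunLike.coe_sub, ModularForm.qExpansion_sub one_pos (one_mem_strictPeriods p) F' F,
        hA, sub_self]
    exact sub_eq_zero.mp
      ((ModularForm.qExpansion_eq_zero_iff one_pos (one_mem_strictPeriods p) _).mp h0)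
  rw [hG, hG', hF]

end IsPair

end Fermat.Agent.S16

end
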