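import Fermat.Agent.S16.Fricke

/-!
# S16: level one forms as Fricke pairs

If `A` is the `q`-expansion of a level one form `H` of weight `k`, then `(A, V_p A)` is a Fricke
pair: `H♯(z) = H(p z)`.
-/

set_option autoImplicit false

noncomputable section

namespace Fermat.Agent.S16

open UpperHalfPlane ModularForm CongruenceSubgroup Matrix
open scoped MatrixGroups ModularForm Manifold

variable (p : ℕ)

theorem Gamma0_le_SL :
    ((Gamma0 p : Subgroup SL(2, ℤ)) : Subgroup (GL (Fin 2) ℝ)) ≤ 𝒮ℒ :=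
  Subgroup.map_le_range _ _

/-- restriction of a level one form to `Γ₀(p)` -/
def resMF {k : ℤ} (H : ModularForm 𝒮ℒ k) : ModularForm (Gamma0 p) k where
  toFun := H
  slash_action_eq' γ hγ := H.slash_action_eq' γ (Gamma0_le_SL p hγ)
  holo' := H.holo'
  bdd_at_cusps' hc := H.bdd_at_cusps' (hc.mono (Gamma0_le_SL p))

@[simp] theorem coe_resMF {k : ℤ} (H : ModularForm 𝒮ℒ k) : (resMF p H : ℍ → ℂ) = H := rfl

variable [NeZero p]

theorem frickeGL_smul_eq (z : ℍ) :
    frickeGL p • z = ModularGroup.S • (heckeDiagMatrix p • z) := by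
  apply UpperHalfPlane.ext
  rw [coe_frickeGL_smul, UpperHalfPlane.modular_S_smul]
  change -1 / ((p : ℂ) * z) = (-((heckeDiagMatrix p • z : ℍ) : ℂ))⁻¹
  rw [coe_heckeDiagMatrix_smul (NeZero.ne p), neg_div, one_div, inv_neg]

theorem levelOne_S_smul {k : ℤ} (H : ModularForm 𝒮ℒ k) (w : ℍ) :
    H (ModularGroup.S • w) = (w : ℂ) ^ k * H w := by
  have : SlashInvariantFormClass (ModularForm 𝒮ℒ k) Γ(1) k := Gamma_one_coe_eq_SL ▸ inferInstance
  have h := SlashInvariantForm.slash_action_eqn_SL'' H (mem_Gamma_one ModularGroup.S) w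
  rwa [ModularGroup.denom_S] at h

theorem sharp_levelOne {k : ℤ} (H : ModularForm 𝒮ℒ k) (z : ℍ) :
    sharp p k H z = H (heckeDiagMatrix p • z) := by
  have h : (p : ℂ) * z ≠ 0 := mul_ne_zero (natCast_ne_zero' p) (UpperHalfPlane.ne_zero z)
  rw [sharp_apply, frickeGL_smul_eq, levelOne_S_smul, coe_heckeDiagMatrix_smul (NeZero.ne p),
    ← mul_assoc, ← zpow_add₀ h, neg_add_cancel, zpow_zero, one_mul]

theorem qParam_heckeDiagMatrix_smul (z : ℍ) :
    Function.Periodic.qParam 1 ((heckeDiagMatrix p • z : ℍ) : ℂ) =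
      Function.Periodic.qParam 1 (z : ℂ) ^ p := by
  rw [coe_heckeDiagMatrix_smul (NeZero.ne p), Function.Periodic.qParam, Function.Periodic.qParam,
    ← Complex.exp_nat_mul]
  congr 1
  ring

theorem qExpansion_sharp_levelOne {k : ℤ} (H : ModularForm 𝒮ℒ k) :
    qExpansion 1 (sharpMF (resMF p H)) = psV p (qExpansion 1 H) := by
  ext m
  have hp : 0 < p := Nat.pos_of_ne_zero (NeZero.ne p)
  set c : ℕ → ℂ := fun m => if p ∣ m then (qExpansion 1 H).coeff (m / p) else 0 with hc
  have key : ∀ τ : ℍ, HasSum (fun m ↦ c m • Function.Periodic.qParam 1 (τ : ℂ) ^ m)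
      (sharpMF (resMF p H) τ) := by
    intro τ
    have h1 := ModularForm.hasSum_qExpansion (f := H) one_pos one_mem_strictPeriods_SL
      (heckeDiagMatrix p • τ)
    rw [qParam_heckeDiagMatrix_smul] at h1
    have h2 : (sharpMF (resMF p H)) τ = H (heckeDiagMatrix p • τ) := by
      have := sharp_levelOne p H τ
      rwa [← coe_resMF p H, ← coe_sharpMF] at this
    rw [h2]
    have hinj : Function.Injective (fun n : ℕ => n * p) := fun a b hab =>
      Nat.eq_of_mul_eq_mul_right hp hab
    refine (hinj.hasSum_iff ?_).mp ?_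
    · intro x hx
      have : ¬ p ∣ x := by
        rintro ⟨y, rfl⟩
        exact hx ⟨y, by simp [mul_comm]⟩
      simp [hc, this]
    · convert h1 using 2 with n
      simp only [Function.comp_apply, hc, dvd_mul_left, if_true, Nat.mul_div_cancel _ hp,
        smul_eq_mul]
      rw [← pow_mul, mul_comm p n]
  have := ModularFormClass.qExpansion_coeff_unique one_pos (one_mem_strictPeriods p) key m
  rw [← this]
  simp [psV, hc]

/-- A level one form gives the Fricke pair `(A, V_p A)`. -/
theorem IsPair.of_levelOne {k : ℤ} {A : PowerSeries ℂ} (h : IsLevelOne k A) :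
    IsPair p k A (psV p A) := by
  obtain ⟨H, rfl⟩ := h
  exact ⟨resMF p H, sharpMF (resMF p H), rfl, rfl, qExpansion_sharp_levelOne p H⟩

end Fermat.Agent.S16

end
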