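import Fermat.Agent.S16.Interface
import Fermat.Agent.S23.Nice
import Fermat.Prelude.Thm_ModularFormClass_qCoeff_heckeU
import Fermat.Prelude.Thm_CongruenceSubgroup_one_mem_strictPeriods_Gamma0

/-!
# S16 (A4): the trace from `Γ₀(p)` to level one, on `q`-expansions
-/

set_option autoImplicit false

noncomputable section

namespace Fermat.Agent.S16

open UpperHalfPlane ModularForm CongruenceSubgroup PowerSeries ModularGroup
open scoped MatrixGroups ModularForm Manifold

namespace Trace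

variable {p : ℕ} {k : ℤ}

/-- `F ∣ γ` only depends on the bottom row of `γ` modulo `p`, up to scalars. -/
lemma slash_eq_of_dvd (F : ModularForm (Gamma0 p) k) (γ γ' : SL(2, ℤ))
    (h : (p : ℤ) ∣ γ' 1 0 * γ 1 1 - γ' 1 1 * γ 1 0) :
    (F : ℍ → ℂ) ∣[k] γ' = (F : ℍ → ℂ) ∣[k] γ := by
  have hmem : γ' * γ⁻¹ ∈ Gamma0 p := by
    rw [Gamma0_mem, ZMod.intCast_zmod_eq_zero_iff_dvd]
    have : (γ' * γ⁻¹) 1 0 = γ' 1 0 * γ 1 1 - γ' 1 1 * γ 1 0 := by
      rw [Matrix.SpecialLinearGroup.coe_mul, Matrix.SpecialLinearGroup.coe_inv,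
        Matrix.adjugate_fin_two, Matrix.mul_apply, Fin.sum_univ_two]
      simp
      ring
    rw [this]
    exact h
  have h1 : γ' = (γ' * γ⁻¹) * γ := by group
  have h2 : (F : ℍ → ℂ) ∣[k] (γ' * γ⁻¹) = F :=
    F.slash_action_eq' _ ⟨_, hmem, rfl⟩
  rw [h1, SlashAction.slash_mul, h2]

variable [Fact p.Prime]

/-- `F ∣ S T^m`. -/
def psi (F : ModularForm (Gamma0 p) k) (m : ℤ) : ℍ → ℂ := (F : ℍ → ℂ) ∣[k] (S * T ^ m)

lemma ST_one_zero (m : ℤ) : (S * T ^ m) 1 0 = 1 := by
  simp [Matrix.SpecialLinearGroup.coe_mul, coe_S, coe_T_zpow, Matrix.mul_apply, Fin.sum_univ_two]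

lemma ST_one_one (m : ℤ) : (S * T ^ m) 1 1 = m := by
  simp [Matrix.SpecialLinearGroup.coe_mul, coe_S, coe_T_zpow, Matrix.mul_apply, Fin.sum_univ_two]

lemma psi_congr (F : ModularForm (Gamma0 p) k) {m n : ℤ} (h : (p : ℤ) ∣ m - n) :
    psi F m = psi F n := by
  refine slash_eq_of_dvd F _ _ ?_
  rw [ST_one_zero, ST_one_zero, ST_one_one, ST_one_one]
  have : (1 : ℤ) * n - m * 1 = -(m - n) := by ring
  rw [this]
  exact (dvd_neg).mpr h

/-- `F ∣ S T^a` for a residue class `a`. -/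
def phi' (F : ModularForm (Gamma0 p) k) (a : ZMod p) : ℍ → ℂ := psi F (a.val : ℤ)

lemma psi_eq_phi' (F : ModularForm (Gamma0 p) k) (m : ℤ) : psi F m = phi' F (m : ZMod p) := by
  refine psi_congr F ?_
  rw [← ZMod.intCast_zmod_eq_zero_iff_dvd]
  simp

lemma phi'_slash_T (F : ModularForm (Gamma0 p) k) (a : ZMod p) :
    phi' F a ∣[k] T = phi' F (a + 1) := by
  have h1 : phi' F a ∣[k] T = psi F ((a.val : ℤ) + 1) := by
    rw [phi', psi, psi, ← SlashAction.slash_mul, mul_assoc, zpow_add_one]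
  rw [h1, psi_eq_phi']
  simp

lemma slash_T (F : ModularForm (Gamma0 p) k) : (F : ℍ → ℂ) ∣[k] T = F :=
  F.slash_action_eq' _ ⟨T, by
    show T ∈ Gamma0 p
    rw [Gamma0_mem]; simp [coe_T], rfl⟩

lemma slash_S (F : ModularForm (Gamma0 p) k) : (F : ℍ → ℂ) ∣[k] S = phi' F 0 := by
  rw [phi', psi]
  simp

lemma phi'_zero_slash_S (F : ModularForm (Gamma0 p) k) : phi' F 0 ∣[k] S = F := by
  rw [← slash_S, ← SlashAction.slash_mul]
  exact F.slash_action_eq' _ ⟨S * S, by
    show S * S ∈ Gamma0 p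
    rw [Gamma0_mem]; simp [Matrix.SpecialLinearGroup.coe_mul, coe_S, Matrix.mul_apply,
      Fin.sum_univ_two], rfl⟩

lemma phi'_slash_S (F : ModularForm (Gamma0 p) k) {a : ZMod p} (ha : a ≠ 0) :
    phi' F a ∣[k] S = phi' F (-a⁻¹) := by
  have h1 : phi' F a ∣[k] S = (F : ℍ → ℂ) ∣[k] (S * T ^ (a.val : ℤ) * S) := by
    rw [phi', psi, ← SlashAction.slash_mul]
  rw [h1, phi', psi]
  refine slash_eq_of_dvd F _ _ ?_
  rw [ST_one_zero, ST_one_one]
  have e1 : (S * T ^ (a.val : ℤ) * S) 1 0 = (a.val : ℤ) := by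
    simp [Matrix.SpecialLinearGroup.coe_mul, coe_S, coe_T_zpow, Matrix.mul_apply,
      Fin.sum_univ_two]
  have e2 : (S * T ^ (a.val : ℤ) * S) 1 1 = -1 := by
    simp [Matrix.SpecialLinearGroup.coe_mul, coe_S, coe_T_zpow, Matrix.mul_apply,
      Fin.sum_univ_two]
  rw [e1, e2, ← ZMod.intCast_zmod_eq_zero_iff_dvd]
  push_cast
  simp [ha]

/-- The trace of `F`, as a function. -/
def trFun (F : ModularForm (Gamma0 p) k) : ℍ → ℂ := F + ∑ a : ZMod p, phi' F a

lemma trFun_slash_T (F : ModularForm (Gamma0 p) k) : trFun F ∣[k] T = trFun F := by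
  rw [trFun, SlashAction.add_slash, slash_T, SlashAction.sum_slash]
  congr 1
  simp_rw [phi'_slash_T]
  exact Equiv.sum_comp (Equiv.addRight (1 : ZMod p)) (phi' F)

lemma trFun_slash_S (F : ModularForm (Gamma0 p) k) : trFun F ∣[k] S = trFun F := by
  rw [trFun, SlashAction.add_slash, slash_S, SlashAction.sum_slash,
    ← Finset.add_sum_erase Finset.univ _ (Finset.mem_univ (0 : ZMod p)),
    ← Finset.add_sum_erase Finset.univ (phi' F) (Finset.mem_univ (0 : ZMod p)),
    phi'_zero_slash_S]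
  have h : ∑ a ∈ Finset.univ.erase (0 : ZMod p), phi' F a ∣[k] S =
      ∑ a ∈ Finset.univ.erase (0 : ZMod p), phi' F a := by
    refine Finset.sum_nbij' (fun a => -a⁻¹) (fun a => -a⁻¹) ?_ ?_ ?_ ?_ ?_
    · intro a ha
      simpa using ha
    · intro a ha
      simpa using ha
    · intro a _
      simp
    · intro a _
      simp
    · intro a ha
      exact phi'_slash_S F (by simpa using ha)
  rw [h]
  abel

lemma mdiff_psi (F : ModularForm (Gamma0 p) k) (m : ℤ) : MDiff (psi F m) :=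
  F.holo'.slash k _

lemma bdd_psi (F : ModularForm (Gamma0 p) k) (m : ℤ) : IsBoundedAtImInfty (psi F m) :=
  ModularFormClass.bdd_at_infty_slash F _

lemma bdd_sum {ι : Type*} (s : Finset ι) (f : ι → ℍ → ℂ)
    (h : ∀ i ∈ s, IsBoundedAtImInfty (f i)) : IsBoundedAtImInfty (∑ i ∈ s, f i) := by
  classical
  induction s using Finset.induction_on with
  | empty => simpa using zero_form_isBoundedAtImInfty
  | insert a s ha ih =>
    rw [Finset.sum_insert ha]
    exact (h a (Finset.mem_insert_self _ _)).add (ih fun i hi => h i (Finset.mem_insert_of_mem hi))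

lemma bdd_trFun (F : ModularForm (Gamma0 p) k) : IsBoundedAtImInfty (trFun F) := by
  have h1 : IsBoundedAtImInfty (F : ℍ → ℂ) := by
    have := ModularFormClass.bdd_at_infty_slash F 1
    rwa [SlashAction.slash_one] at this
  exact h1.add (bdd_sum _ _ fun a _ => bdd_psi F _)

/-- The trace of `F` as a modular form of level one. -/
def trForm (F : ModularForm (Gamma0 p) k) : ModularForm 𝒮ℒ k where
  toFun := trFun F
  slash_action_eq' := by
    rintro _ ⟨γ, rfl⟩
    exact SlashInvariantForm.slash_action_generators_SL2Z (trFun_slash_S F) (trFun_slash_T F) γ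
  holo' := F.holo'.add (MDifferentiable.sum fun a _ => mdiff_psi F _)
  bdd_at_cusps' := by
    intro c hc
    rw [OnePoint.isBoundedAt_iff_forall_SL2Z hc]
    intro γ _
    rw [SlashInvariantForm.slash_action_generators_SL2Z (trFun_slash_S F) (trFun_slash_T F) γ]
    exact bdd_trFun F

@[simp] lemma coe_trForm (F : ModularForm (Gamma0 p) k) : (trForm F : ℍ → ℂ) = trFun F := rfl

lemma det_frickeGL : ((frickeGL p).det : ℝ) = p := by
  simp [frickeGL, Matrix.GeneralLinearGroup.mkOfDetNeZero, Matrix.det_fin_two_of]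

lemma psi_eq (F : ModularForm (Gamma0 p) k) (j : ℕ) :
    psi F (j : ℤ) = (p : ℂ) • (sharp p k F ∣[k] heckeMatrix p j) := by
  have hp0 : p ≠ 0 := (Fact.out : p.Prime).ne_zero
  have hpC : (p : ℂ) ≠ 0 := by exact_mod_cast hp0
  have hpR : (0 : ℝ) < p := by exact_mod_cast Nat.pos_of_ne_zero hp0
  funext z
  set w : ℍ := heckeMatrix p j • z with hw
  have hwc : (w : ℂ) = ((z : ℂ) + j) / p := coe_heckeMatrix_smul hp0 j z
  have hdet : 0 < ((frickeGL p).det : ℝ) := by rw [det_frickeGL]; exact hpR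
  have hden : denom (frickeGL p) w = (z : ℂ) + j := by
    have : denom (frickeGL p) w = (p : ℂ) * w := by
      simp [denom, frickeGL, Matrix.GeneralLinearGroup.mkOfDetNeZero]
    rw [this, hwc]
    field_simp
  obtain ⟨g, hg⟩ : ∃ g : SL(2, ℤ), g = S * T ^ (j : ℤ) := ⟨_, rfl⟩
  have hden2 : denom g z = (z : ℂ) + j := by
    rw [ModularGroup.denom_apply, hg, ST_one_zero, ST_one_one]
    simp
  have hpt : frickeGL p • w = g • z := by
    apply UpperHalfPlane.ext
    rw [UpperHalfPlane.coe_smul_of_det_pos hdet, hden, hg, mul_smul, modular_S_smul]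
    have h2 : num (frickeGL p) w = -1 := by
      simp [num, frickeGL, Matrix.GeneralLinearGroup.mkOfDetNeZero]
    rw [h2]
    simp only [coe_T_zpow_smul_eq]
    push_cast
    rw [neg_div, one_div, inv_neg]
  rw [psi, ← hg, SL_slash_apply, hden2, Pi.smul_apply, slash_heckeMatrix_apply k hp0, ← hw, sharp,
    Pi.smul_apply, ModularForm.slash_apply, hpt, hden, det_frickeGL]
  simp only [σ, hdet, if_true, smul_eq_mul, ContinuousAlgEquiv.refl_apply, Nat.abs_cast,
    Complex.ofReal_natCast]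
  have h3 : (p : ℂ) ^ (1 - k) * (p : ℂ) ^ (k - 1) = 1 := by
    rw [← zpow_add₀ hpC]
    simp
  calc F (g • z) * ((z : ℂ) + j) ^ (-k)
      = ((p : ℂ) * (p : ℂ)⁻¹) * ((p : ℂ) ^ (1 - k) * (p : ℂ) ^ (k - 1)) *
          (F (g • z) * ((z : ℂ) + j) ^ (-k)) := by
        rw [h3, mul_inv_cancel₀ hpC]; ring
    _ = _ := by ring

lemma sum_phi'_eq (F : ModularForm (Gamma0 p) k) :
    ∑ a : ZMod p, phi' F a = (p : ℂ) • heckeU k p (sharp p k F) := by
  have hp0 : p ≠ 0 := (Fact.out : p.Prime).ne_zero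
  rw [heckeU_def, Finset.smul_sum]
  symm
  refine Finset.sum_nbij' (fun j : ℕ => (j : ZMod p)) ZMod.val ?_ ?_ ?_ ?_ ?_
  · intro j _
    exact Finset.mem_univ _
  · intro a _
    exact Finset.mem_range.mpr (ZMod.val_lt a)
  · intro j hj
    exact ZMod.val_natCast_of_lt (Finset.mem_range.mp hj)
  · intro a _
    exact ZMod.natCast_zmod_val a
  · intro j _
    rw [← psi_eq, psi_eq_phi']
    simp

lemma trFun_eq (F : ModularForm (Gamma0 p) k) :
    trFun F = F + (p : ℂ) • heckeU k p (sharp p k F) := by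
  rw [trFun, sum_phi'_eq]

end Trace

open Trace in
/-- **Trace formula.** -/
theorem IsPair.trace (p : ℕ) [Fact p.Prime] {k : ℤ} {A B : PowerSeries ℂ} (h : IsPair p k A B) :
    IsLevelOne k (A + (p : ℂ) • psU p B) := by
  obtain ⟨F, G, hG, rfl, rfl⟩ := h
  have hp0 : p ≠ 0 := (Fact.out : p.Prime).ne_zero
  have hpC : (p : ℂ) ≠ 0 := by exact_mod_cast hp0
  have hΓ := CongruenceSubgroup.one_mem_strictPeriods_Gamma0 p
  refine ⟨trForm F, ?_⟩
  have nF : S23.Nice (F : ℍ → ℂ) := S23.Nice.of_modularFormClass hΓ F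
  have nT : S23.Nice (trFun F) := S23.Nice.of_modularFormClass one_mem_strictPeriods_SL (trForm F)
  have hU : heckeU k p (G : ℍ → ℂ) = (p : ℂ)⁻¹ • (trFun F - F) := by
    rw [trFun_eq, hG, add_sub_cancel_left, smul_smul, inv_mul_cancel₀ hpC, one_smul]
  have nU : S23.Nice (heckeU k p (G : ℍ → ℂ)) := by
    rw [hU]
    exact (nT.sub nF).smul _
  rw [coe_trForm, trFun_eq, ← hG, S23.Nice.qExp_add nF (nU.smul _), S23.Nice.qExp_smul _ nU]
  congr 2
  ext n
  have := ModularFormClass.qCoeff_heckeU G hΓ hp0 n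
  simpa [ModularFormClass.qCoeff, coeffHeckeU, psU] using this

end Fermat.Agent.S16

end
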