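import Fermat.Agent.S16.Interface
import Fermat.Agent.S16.Fricke
import Fermat.Agent.S16.LevelOnePair
import Fermat.Agent.S16.Trace
import Fermat.Agent.S16.Cosets
import Fermat.Agent.S16.EisP

/-!
# S16: weight two forms on `Γ₀(p)`; assembly of `PairCalc p`

* `IsPair.weight_two`: in weight two, `B = -(1/p) U_p A` (the trace to level one vanishes);
* `exists_cuspForm_of_coeff_zero`: a weight two form on `Γ₀(p)` with `a₀ = 0` is a cusp form;
* `pairCalc : PairCalc p`.
-/

set_option autoImplicit false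

noncomputable section

namespace Fermat.Agent.S16

open UpperHalfPlane ModularForm CongruenceSubgroup PowerSeries Filter
open scoped MatrixGroups ModularForm Manifold Topology

/-! ## Level one forms of weight two vanish -/

theorem IsLevelOne.weight_two_eq_zero {A : PowerSeries ℂ} (h : IsLevelOne 2 A) : A = 0 := by
  obtain ⟨H, rfl⟩ := h
  have hH : H = 0 := rank_zero_iff_forall_zero.mp ModularForm.levelOne_weight_two_rank_zero H
  rw [hH]
  exact qExpansion_zero 1

section
variable (p : ℕ) [Fact p.Prime]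

theorem IsPair.weight_two {A B : PowerSeries ℂ} (h : IsPair p 2 A B) :
    B = (-(p : ℂ)⁻¹) • psU p A := by
  have hp : (p : ℂ) ≠ 0 := by exact_mod_cast NeZero.ne p
  have h0 := (IsPair.trace (p := p) (IsPair.swap (p := p) h)).weight_two_eq_zero
  ext n
  have hn := congrArg (coeff n) h0
  simp only [map_add, map_zero, PowerSeries.coeff_smul, psU, PowerSeries.coeff_mk,
    smul_eq_mul] at hn ⊢
  have : coeff n B = -((p : ℂ) * ((-(p : ℂ)) ^ (-2 : ℤ) * coeff (n * p) A)) :=
    eq_neg_of_add_eq_zero_left hn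
  rw [this]
  have h2 : (-(p : ℂ)) ^ (-2 : ℤ) = ((p : ℂ) ^ 2)⁻¹ := by
    rw [zpow_neg, show (2 : ℤ) = ((2 : ℕ) : ℤ) from rfl, zpow_natCast, neg_sq]
  rw [h2]
  field_simp

/-! ## Vanishing at the cusps -/

omit [Fact p.Prime] in
theorem isZeroAtImInfty_of_coeff_zero {k : ℤ} (F : ModularForm (Gamma0 p) k)
    (h0 : coeff 0 (qExpansion 1 F) = 0) : IsZeroAtImInfty F := by
  have h1 := CongruenceSubgroup.one_mem_strictPeriods_Gamma0 p
  have han := ModularFormClass.analyticAt_cuspFunction_zero F one_pos h1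
  have hper := SlashInvariantFormClass.periodic_comp_ofComplex F h1
  have hc0 : cuspFunction 1 F 0 = 0 := by
    have := qExpansion_coeff (h := 1) F 0
    rw [h0] at this
    simpa using this.symm
  have hcomp : (cuspFunction 1 F ∘ fun τ : ℍ ↦ Function.Periodic.qParam 1 τ) = F := by
    funext τ
    simpa using eq_cuspFunction τ one_ne_zero hper
  have := han.continuousAt.tendsto.comp (qParam_tendsto_atImInfty one_pos)
  rw [hcomp, hc0] at this
  exact this

theorem tendsto_heckeMatrix_smul_atImInfty :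
    Tendsto (fun z : ℍ ↦ heckeMatrix p 0 • z) atImInfty atImInfty := by
  have hp : p ≠ 0 := NeZero.ne p
  rw [atImInfty, tendsto_comap_iff]
  have him : (UpperHalfPlane.im ∘ fun z : ℍ ↦ heckeMatrix p 0 • z) = fun z : ℍ ↦ z.im / p := by
    funext z
    have h := coe_heckeMatrix_smul hp 0 z
    have h' := congrArg Complex.im h
    simp only [Function.comp_apply]
    rw [← UpperHalfPlane.coe_im, h']
    simp [Complex.div_natCast_im]
  rw [him]
  exact (tendsto_comap).atTop_div_const (by exact_mod_cast Nat.pos_of_ne_zero hp)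

/-- `(F ∣ S)(z) = F♯(z / p)`. -/
theorem slash_S_eq_sharp (k : ℤ) (F : ℍ → ℂ) (z : ℍ) :
    (F ∣[k] ModularGroup.S) z = sharp p k F (heckeMatrix p 0 • z) := by
  have hp : p ≠ 0 := NeZero.ne p
  have hpc : (p : ℂ) ≠ 0 := by exact_mod_cast hp
  have hz := UpperHalfPlane.ne_zero z
  have hw : ((heckeMatrix p 0 • z : ℍ) : ℂ) = (z : ℂ) / p := by
    rw [coe_heckeMatrix_smul hp 0 z]; simp
  have hpw : (p : ℂ) * ((heckeMatrix p 0 • z : ℍ) : ℂ) = z := by
    rw [hw]; field_simp
  have hS : frickeGL p • (heckeMatrix p 0 • z) = ModularGroup.S • z := by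
    apply UpperHalfPlane.ext
    rw [coe_frickeGL_smul, hpw, UpperHalfPlane.modular_S_smul]
    show -1 / (z : ℂ) = (-(z : ℂ))⁻¹
    field_simp
  rw [SL_slash_apply, sharp_apply, hpw, hS, ModularGroup.denom_S, mul_comm]

theorem exists_cuspForm_of_coeff_zero (F : ModularForm (Gamma0 p) 2)
    (h0 : coeff 0 (qExpansion 1 F) = 0) : ∃ f : CuspForm (Gamma0 p) 2, (f : ℍ → ℂ) = F := by
  obtain ⟨G, hG⟩ := exists_sharp (p := p) F
  refine exists_cuspForm_of (p := p) 2 F (fun γ hγ => ?_) (ModularFormClass.holo F)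
    (isZeroAtImInfty_of_coeff_zero p F h0) ?_
  · exact SlashInvariantFormClass.slash_action_eq F _ (Subgroup.mem_map_of_mem _ hγ)
  · have hB := IsPair.weight_two p (⟨F, G, hG, rfl, rfl⟩ : IsPair p 2 _ _)
    have hG0 : coeff 0 (qExpansion 1 G) = 0 := by
      rw [hB]
      simp [psU, h0]
    have hGz := isZeroAtImInfty_of_coeff_zero p G hG0
    have : (⇑F ∣[(2 : ℤ)] ModularGroup.S) = (G : ℍ → ℂ) ∘ fun z : ℍ ↦ heckeMatrix p 0 • z := by
      funext z
      rw [slash_S_eq_sharp p, hG]
      rfl
    rw [this]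
    exact Tendsto.comp hGz (tendsto_heckeMatrix_smul_atImInfty p)

/-! ## Assembly of `PairCalc p` -/

theorem pairCalc : PairCalc p where
  add := fun h h' => IsPair.add (p := p) h h'
  smul := fun c h => IsPair.smul (p := p) c h
  mul := fun h h' => IsPair.mul (p := p) h h'
  pow := fun r h => IsPair.pow (p := p) r h
  ofLevelOne := fun h => IsPair.of_levelOne (p := p) h
  trace := fun h => IsPair.trace (p := p) h
  weightTwo := fun h => IsPair.weight_two p h
  eis := by
    obtain ⟨F, hF⟩ := exists_eisForm (p := p)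
    exact hF ▸ exists_isPair (p := p) F
  cusp := fun f => exists_isPair (p := p) (CuspForm.toModularFormₗ f)

end

end Fermat.Agent.S16
end
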