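/-
S16 step 0 (owner helper287).  Reduction of the frozen statement
`Nat.card (𝕋 ⧸ image of the Eisenstein ideal) = n` to two statements on the polynomial Hecke ring
`HeckeAlg = ℤ[X_ℓ]`:
* (LB) every `t` acting as `0` on the integral lattice has `n ∣ eis t`;
* (UB) some `t` acting as `0` on the integral lattice has `eis t = n`.
-/
import Fermat.Agent.S16.Defs

set_option autoImplicit false

namespace Fermat.Agent.S16

open ModularCurve CuspForm

/-- Abstract form: `T ⧸ π (ker e) ≃ ℤ ⧸ e (ker π)`. -/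
theorem card_quotient_map_ker {P T : Type*} [CommRing P] [CommRing T] (π : P →+* T)
    (hπ : Function.Surjective π) (e : P →+* ℤ) (n : ℕ)
    (hLB : ∀ t, π t = 0 → (n : ℤ) ∣ e t) (hUB : ∃ t, π t = 0 ∧ e t = n) :
    Nat.card (T ⧸ Ideal.map π (RingHom.ker e)) = n := by
  classical
  set φ : P →+* ZMod n := (Int.castRingHom (ZMod n)).comp e with hφ
  have hker : ∀ t, π t = 0 → φ t = 0 := by
    intro t ht
    rw [hφ, RingHom.comp_apply, eq_intCast, ZMod.intCast_zmod_eq_zero_iff_dvd]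
    exact hLB t ht
  set ψ : T →+* ZMod n := RingHom.liftOfSurjective π hπ ⟨φ, fun t ht => hker t ht⟩ with hψ
  have hψπ : ∀ t, ψ (π t) = φ t := fun t =>
    RingHom.liftOfRightInverse_comp_apply π _ (Function.rightInverse_surjInv hπ) ⟨φ, _⟩ t
  have he1 : ∀ k : ℤ, e (k : P) = k := fun k => by rw [map_intCast]; rfl
  have hψsurj : Function.Surjective ψ := by
    intro y
    obtain ⟨k, rfl⟩ := ZMod.intCast_surjective y
    refine ⟨π (k : P), ?_⟩
    rw [hψπ, hφ, RingHom.comp_apply, he1, eq_intCast]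
  have hkerψ : RingHom.ker ψ = Ideal.map π (RingHom.ker e) := by
    apply le_antisymm
    · intro y hy
      obtain ⟨x, rfl⟩ := hπ y
      rw [RingHom.mem_ker, hψπ, hφ, RingHom.comp_apply, eq_intCast,
        ZMod.intCast_zmod_eq_zero_iff_dvd] at hy
      obtain ⟨k, hk⟩ := hy
      obtain ⟨t0, ht0, het0⟩ := hUB
      have h1 : x - t0 * (k : P) ∈ RingHom.ker e := by
        rw [RingHom.mem_ker, map_sub, map_mul, he1, het0, hk, sub_self]
      have h2 : π (x - t0 * (k : P)) = π x := by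
        rw [map_sub, map_mul, ht0, zero_mul, sub_zero]
      rw [← h2]
      exact Ideal.mem_map_of_mem π h1
    · rw [Ideal.map_le_iff_le_comap]
      intro x hx
      rw [RingHom.mem_ker] at hx
      rw [Ideal.mem_comap, RingHom.mem_ker, hψπ, hφ, RingHom.comp_apply, hx, map_zero]
  rw [← hkerψ, Nat.card_congr (RingHom.quotientKerEquivOfSurjective hψsurj).toEquiv,
    Nat.card_zmod]

variable (N : ℕ) [NeZero N]

omit [NeZero N] in
theorem ker_eis : RingHom.ker (eis N) = eisensteinIdeal N := rfl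

omit [NeZero N] in
theorem eis_heckeGen (ℓ : Nat.Primes) : eis N (heckeGen ℓ) = eisensteinSystem N ℓ :=
  MvPolynomial.aeval_X _ ℓ

omit [NeZero N] in
theorem eis_C (a : ℤ) : eis N (MvPolynomial.C a) = a :=
  MvPolynomial.aeval_C _ a

theorem heckeEvalForms_surjective (k : ℤ) : Function.Surjective (heckeEvalForms N k) := by
  rintro ⟨x, hx⟩
  suffices h : ∃ t, ((heckeEvalForms N k t : heckeAlgebra N k ∅) :
      Module.End ℂ (CuspForm (CongruenceSubgroup.Gamma0 N) k)) = x by
    obtain ⟨t, ht⟩ := h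
    exact ⟨t, Subtype.ext ht⟩
  induction hx using Algebra.adjoin_induction with
  | mem x hx =>
    rcases hx with ⟨ℓ, hℓ, hℓN, -, rfl⟩ | ⟨q, hqN, hq, -, rfl⟩
    · refine ⟨heckeGen ⟨ℓ, hℓ⟩, ?_⟩
      rw [heckeEvalForms_heckeGen_of_not_dvd (ℓ := ⟨ℓ, hℓ⟩) hℓN]
      rfl
    · refine ⟨heckeGen ⟨q, hq⟩, ?_⟩
      rw [heckeEvalForms_heckeGen_of_dvd (q := ⟨q, hq⟩) hqN]
      rfl
  | algebraMap a =>
    refine ⟨MvPolynomial.C a, ?_⟩
    rw [heckeEvalForms_C]
    rfl
  | add x y _ _ hx hy =>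
    obtain ⟨s, rfl⟩ := hx
    obtain ⟨t, rfl⟩ := hy
    exact ⟨s + t, by rw [map_add]; rfl⟩
  | mul x y _ _ hx hy =>
    obtain ⟨s, rfl⟩ := hx
    obtain ⟨t, rfl⟩ := hy
    exact ⟨s * t, by rw [map_mul]; rfl⟩

theorem phi_surjective : Function.Surjective (phi N) :=
  (latticeRestrictHom_surjective N ∅).comp (heckeEvalForms_surjective N 2)

/-- The endomorphism of the space of cusp forms attached to `t`. -/
noncomputable def actC (t : HeckeAlg) :
    Module.End ℂ (CuspForm (CongruenceSubgroup.Gamma0 N) 2) :=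
  (heckeEvalForms N 2 t : heckeAlgebra N 2 ∅)

theorem phi_apply_coe (t : HeckeAlg) (f : ↥(intLattice N 2)) :
    (((phi N t : heckeLatticeAlgebra N ∅) : Module.End ℤ ↥(intLattice N 2)) f :
      CuspForm (CongruenceSubgroup.Gamma0 N) 2) = actC N t f := rfl

theorem phi_eq_zero_iff (t : HeckeAlg) :
    phi N t = 0 ↔ ∀ f ∈ intLattice N 2, actC N t f = 0 := by
  constructor
  · intro h f hf
    have h1 := phi_apply_coe N t ⟨f, hf⟩
    rw [h] at h1
    exact h1.symm
  · intro h
    apply Subtype.ext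
    apply LinearMap.ext
    intro f
    apply Subtype.ext
    rw [phi_apply_coe]
    exact h f.1 f.2

/-- **Step 0 of S16.**  The frozen statement follows from a lower and an upper bound. -/
theorem card_eq_of_bounds (n : ℕ)
    (hLB : ∀ t : HeckeAlg, (∀ f ∈ intLattice N 2, actC N t f = 0) → (n : ℤ) ∣ eis N t)
    (hUB : ∃ t : HeckeAlg, (∀ f ∈ intLattice N 2, actC N t f = 0) ∧ eis N t = n) :
    Nat.card (↥(heckeLatticeAlgebra N ∅) ⧸
        Ideal.map ((latticeRestrictHom N ∅).toRingHom.comp (heckeEvalForms N 2))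
          (eisensteinIdeal N)) = n := by
  obtain ⟨t0, h0, h1⟩ := hUB
  exact card_quotient_map_ker (phi N) (phi_surjective N) (eis N) n
    (fun t ht => hLB t ((phi_eq_zero_iff N t).1 ht)) ⟨t0, (phi_eq_zero_iff N t0).2 h0, h1⟩

/-- The set of values `eis t`, `t` acting as zero, is an ideal of `ℤ`; it has a generator. -/
theorem exists_generator :
    ∃ m : ℕ, (∀ t : HeckeAlg, (∀ f ∈ intLattice N 2, actC N t f = 0) → (m : ℤ) ∣ eis N t) ∧
      ∃ t : HeckeAlg, (∀ f ∈ intLattice N 2, actC N t f = 0) ∧ eis N t = m := by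
  have hsurj : Function.Surjective (eis N) := fun k => ⟨MvPolynomial.C k, eis_C N k⟩
  set I : Ideal ℤ := Ideal.map (eis N) (RingHom.ker (phi N)) with hI
  have hmem : ∀ k : ℤ, k ∈ I ↔ ∃ t, phi N t = 0 ∧ eis N t = k := by
    intro k
    rw [hI, Ideal.mem_map_iff_of_surjective _ hsurj]
    simp only [RingHom.mem_ker]
  obtain ⟨g, hg⟩ : ∃ g : ℤ, I = Ideal.span {g} := (IsPrincipalIdealRing.principal I).principal
  refine ⟨g.natAbs, ?_, ?_⟩
  · intro t ht
    have h1 : eis N t ∈ I := (hmem _).2 ⟨t, (phi_eq_zero_iff N t).2 ht, rfl⟩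
    rw [hg, Ideal.mem_span_singleton] at h1
    exact Int.natAbs_dvd.2 h1
  · have h1 : (g.natAbs : ℤ) ∈ I := by
      rw [hg, Ideal.mem_span_singleton]
      exact Int.dvd_natAbs.2 dvd_rfl
    obtain ⟨t, ht, ht'⟩ := (hmem _).1 h1
    exact ⟨t, (phi_eq_zero_iff N t).1 ht, ht'⟩

/-- **Step 0 of S16, second form.**  The upper bound in the form: every `m` dividing all the
`eis t` (`t` acting as zero on the lattice) divides `n`. -/
theorem card_eq_of_bounds' (n : ℕ)
    (hLB : ∀ t : HeckeAlg, (∀ f ∈ intLattice N 2, actC N t f = 0) → (n : ℤ) ∣ eis N t)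
    (hUB : ∀ m : ℕ,
      (∀ t : HeckeAlg, (∀ f ∈ intLattice N 2, actC N t f = 0) → (m : ℤ) ∣ eis N t) → m ∣ n) :
    Nat.card (↥(heckeLatticeAlgebra N ∅) ⧸
        Ideal.map ((latticeRestrictHom N ∅).toRingHom.comp (heckeEvalForms N 2))
          (eisensteinIdeal N)) = n := by
  obtain ⟨m, hm1, t0, ht0, hm2⟩ := exists_generator N
  have h1 : m ∣ n := hUB m hm1
  have h2 : n ∣ m := by
    have := hLB t0 ht0
    rw [hm2] at this
    exact_mod_cast this
  have h3 : m = n := Nat.dvd_antisymm h1 h2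
  exact card_eq_of_bounds N n hLB ⟨t0, ht0, by rw [hm2, h3]⟩

/-! ### API for `actC` -/

theorem actC_mul (s t : HeckeAlg) : actC N (s * t) = actC N s * actC N t := by
  unfold actC; rw [map_mul]; rfl

theorem actC_add (s t : HeckeAlg) : actC N (s + t) = actC N s + actC N t := by
  unfold actC; rw [map_add]; rfl

theorem actC_C (a : ℤ) : actC N (MvPolynomial.C a) = (a : ℤ) • (1 : Module.End ℂ _) := by
  unfold actC; rw [heckeEvalForms_C, Algebra.algebraMap_eq_smul_one]; rfl

theorem actC_one : actC N 1 = 1 := by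
  unfold actC; rw [map_one]; rfl

theorem actC_zero : actC N 0 = 0 := by
  unfold actC; rw [map_zero]; rfl

theorem actC_heckeGen_of_not_dvd {ℓ : Nat.Primes} (h : ¬ (ℓ : ℕ) ∣ N) :
    actC N (heckeGen ℓ) = heckeTLin 2 ℓ.2 h := by
  unfold actC; rw [heckeEvalForms_heckeGen_of_not_dvd h]; rfl

theorem actC_heckeGen_of_dvd {q : Nat.Primes} (h : (q : ℕ) ∣ N) :
    actC N (heckeGen q) = heckeULin 2 h := by
  unfold actC; rw [heckeEvalForms_heckeGen_of_dvd h]; rfl

theorem coe_act (t : HeckeAlg) (f : Lat N) :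
    ((act N t f : Lat N) : CuspForm (CongruenceSubgroup.Gamma0 N) 2) = actC N t f := rfl

theorem phi_eq_zero_iff_act (t : HeckeAlg) : phi N t = 0 ↔ ∀ f : Lat N, act N t f = 0 := by
  rw [phi_eq_zero_iff]
  constructor
  · intro h f
    exact Subtype.ext (h f.1 f.2)
  · intro h f hf
    exact congrArg Subtype.val (h ⟨f, hf⟩)

theorem actC_mem_intLattice (t : HeckeAlg) {f : CuspForm (CongruenceSubgroup.Gamma0 N) 2}
    (hf : f ∈ intLattice N 2) : actC N t f ∈ intLattice N 2 :=
  mem_intLattice_of_mem_heckeAlgebra one_le_two (heckeEvalForms N 2 t).2 hf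

end Fermat.Agent.S16
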