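/-
S16, cohomological lower bound, node (c) (owner helper220): the Shimura character
`χ : Γ₀(p) → ℤ/n`, `n = (p-1)/gcd(p-1,12)`, `γ ↦ log (d_γ mod p) mod n`.
-/
import Mathlib
import Fermat.Prelude.Def_ModularCurve_ModularUnit
import Fermat.Prelude.Def_ModularCurve_PeriodMap

set_option autoImplicit false

noncomputable section

namespace Fermat.Agent.S16.Chi

open CongruenceSubgroup ModularGroup
open scoped MatrixGroups

variable (p : ℕ) [Fact p.Prime]

/-- the lower right entry modulo `p`, as a homomorphism to the units. -/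
def dHom : Gamma0 p →* (ZMod p)ˣ := (Gamma0Map p).toHomUnits

theorem coe_dHom (γ : Gamma0 p) : ((dHom p γ : (ZMod p)ˣ) : ZMod p) = (((γ : SL(2, ℤ)) 1 1 : ℤ) : ZMod p) :=
  rfl

/-- `n = (p-1)/gcd(p-1,12)`. -/
abbrev nn : ℕ := ModularCurve.eisensteinNumerator p

/-- `g = gcd(p-1,12)`. -/
abbrev gg : ℕ := Nat.gcd (p - 1) 12

omit [Fact p.Prime] in
theorem gg_pos : 0 < gg p := Nat.gcd_pos_of_pos_right _ (by norm_num)

omit [Fact p.Prime] in
theorem nn_mul_gg : nn p * gg p = p - 1 := Nat.div_mul_cancel (Nat.gcd_dvd_left _ _)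

theorem card_units : Nat.card (ZMod p)ˣ = p - 1 := by
  rw [Nat.card_eq_fintype_card, ZMod.card_units]

theorem nn_dvd_card : nn p ∣ Nat.card (ZMod p)ˣ := by
  rw [card_units]; exact ModularCurve.eisensteinNumerator_dvd p

/-- a discrete logarithm modulo `n`. -/
def dlog : (ZMod p)ˣ →* Multiplicative (ZMod (nn p)) :=
  (AddMonoidHom.toMultiplicative (ZMod.castHom (nn_dvd_card p) (ZMod (nn p))).toAddMonoidHom).comp
    (zmodCyclicMulEquiv (G := (ZMod p)ˣ) inferInstance).symm.toMonoidHom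

theorem dlog_surjective : Function.Surjective (dlog p) := by
  intro y
  obtain ⟨x, hx⟩ := ZMod.castHom_surjective (nn_dvd_card p) (Multiplicative.toAdd y)
  refine ⟨zmodCyclicMulEquiv (G := (ZMod p)ˣ) inferInstance (Multiplicative.ofAdd x), ?_⟩
  simp only [dlog, MonoidHom.comp_apply, MulEquiv.coe_toMonoidHom, MulEquiv.symm_apply_apply]
  exact congrArg Multiplicative.ofAdd hx

theorem dlog_eq_one_of_pow_eq_one {u : (ZMod p)ˣ} (hu : u ^ gg p = 1) : dlog p u = 1 := by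
  set e := (zmodCyclicMulEquiv (G := (ZMod p)ˣ) inferInstance).symm with he
  obtain ⟨k, hk⟩ := ZMod.intCast_surjective (Multiplicative.toAdd (e u))
  have h1 : (e u) ^ gg p = 1 := by rw [← map_pow, hu, map_one]
  have h2 : gg p • (Multiplicative.toAdd (e u)) = 0 := by
    have := congrArg Multiplicative.toAdd h1
    simpa using this
  rw [← hk, nsmul_eq_mul] at h2
  have h3 : (((gg p : ℤ) * k : ℤ) : ZMod (Nat.card (ZMod p)ˣ)) = 0 := by
    push_cast; exact h2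
  rw [ZMod.intCast_zmod_eq_zero_iff_dvd, card_units, ← nn_mul_gg, Nat.cast_mul, mul_comm] at h3
  have h4 : (nn p : ℤ) ∣ k :=
    Int.dvd_of_mul_dvd_mul_left (by exact_mod_cast (gg_pos p).ne') h3
  have h5 : Multiplicative.toAdd (dlog p u) = 0 := by
    show (ZMod.castHom (nn_dvd_card p) (ZMod (nn p))) (Multiplicative.toAdd (e u)) = 0
    rw [← hk, map_intCast, ZMod.intCast_zmod_eq_zero_iff_dvd]
    exact h4
  exact congrArg Multiplicative.ofAdd h5

/-- **The Shimura character** `Γ₀(p) → ℤ/n`. -/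
def chi : Additive (Gamma0 p) →+ ZMod (nn p) :=
  MonoidHom.toAdditiveLeft ((dlog p).comp (dHom p))

theorem chi_apply (γ : Gamma0 p) :
    chi p (Additive.ofMul γ) = Multiplicative.toAdd (dlog p (dHom p γ)) := rfl

theorem dHom_surjective : Function.Surjective (dHom p) := by
  intro u
  have hcop : IsCoprime (((u : ZMod p).val : ℕ) : ℤ) (p : ℤ) :=
    Nat.isCoprime_iff_coprime.2 (ZMod.val_coe_unit_coprime u)
  obtain ⟨a, b, hab⟩ := hcop
  let M : SL(2, ℤ) := ⟨!![a, -b; (p : ℤ), ((u : ZMod p).val : ℤ)], by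
    rw [Matrix.det_fin_two_of]; linarith⟩
  have hM : M ∈ Gamma0 p := by
    rw [Gamma0_mem]
    show (((p : ℤ) : ℤ) : ZMod p) = 0
    simp
  refine ⟨⟨M, hM⟩, ?_⟩
  apply Units.ext
  rw [coe_dHom]
  show ((((u : ZMod p).val : ℤ) : ℤ) : ZMod p) = u
  simp

theorem chi_surjective : Function.Surjective (chi p) := by
  intro y
  obtain ⟨u, hu⟩ := dlog_surjective p (Multiplicative.ofAdd y)
  obtain ⟨γ, rfl⟩ := dHom_surjective p u
  exact ⟨Additive.ofMul γ, by rw [chi_apply, hu]; rfl⟩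

theorem chi_eq_zero_of_pow {γ : Gamma0 p} (h : (dHom p γ) ^ gg p = 1) :
    chi p (Additive.ofMul γ) = 0 := by
  rw [chi_apply, dlog_eq_one_of_pow_eq_one p h]; rfl

theorem pow_gg_eq_one {u : (ZMod p)ˣ} (h : u ^ 12 = 1) : u ^ gg p = 1 :=
  pow_gcd_eq_one.2 ⟨ZMod.units_pow_card_sub_one_eq_one p u, h⟩

theorem chi_eq_zero_of_pow_twelve {γ : Gamma0 p} (h : γ ^ 12 = 1) :
    chi p (Additive.ofMul γ) = 0 := by
  apply chi_eq_zero_of_pow
  apply pow_gg_eq_one
  rw [← map_pow, h, map_one]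

/-- the quadratic equation satisfied by `d mod p`. -/
theorem dHom_quadratic (γ : Gamma0 p) :
    ((dHom p γ : (ZMod p)ˣ) : ZMod p) ^ 2
      - ((((γ : SL(2, ℤ)) : Matrix (Fin 2) (Fin 2) ℤ).trace : ℤ) : ZMod p) * (dHom p γ : (ZMod p)ˣ)
      + 1 = 0 := by
  have hdet := Matrix.SpecialLinearGroup.det_coe (γ : SL(2, ℤ))
  rw [Matrix.det_fin_two] at hdet
  have hc : ((((γ : SL(2, ℤ)) 1 0 : ℤ)) : ZMod p) = 0 := Gamma0_mem.1 γ.2
  have h1 := congrArg (Int.cast : ℤ → ZMod p) hdet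
  push_cast at h1
  rw [hc, mul_zero, sub_zero] at h1
  rw [coe_dHom, Matrix.trace_fin_two]
  push_cast
  linear_combination -h1

theorem chi_eq_zero_of_trace_sq {γ : Gamma0 p}
    (h : ((γ : SL(2, ℤ)) : Matrix (Fin 2) (Fin 2) ℤ).trace ^ 2 = 4) :
    chi p (Additive.ofMul γ) = 0 := by
  apply chi_eq_zero_of_pow
  apply pow_gg_eq_one
  have hq := dHom_quadratic p γ
  set t := ((γ : SL(2, ℤ)) : Matrix (Fin 2) (Fin 2) ℤ).trace with ht
  set d : ZMod p := ((dHom p γ : (ZMod p)ˣ) : ZMod p) with hd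
  have h4 : ((t : ℤ) : ZMod p) ^ 2 = 4 := by exact_mod_cast congrArg (Int.cast : ℤ → ZMod p) h
  -- `(2 d - t)^2 = t^2 - 4 = 0`
  have h5 : (d ^ 2 - 1) ^ 2 = 0 := by
    have : d ^ 2 + 1 = (t : ZMod p) * d := by linear_combination hq
    have h6 : (d ^ 2 + 1) ^ 2 = 4 * d ^ 2 := by rw [this, mul_pow, h4]
    linear_combination h6
  have h7 : d ^ 2 = 1 := by
    have := pow_eq_zero_iff (two_ne_zero) |>.1 h5
    linear_combination this
  apply Units.ext
  push_cast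
  rw [← hd]
  calc d ^ 12 = (d ^ 2) ^ 6 := by ring
    _ = 1 := by rw [h7, one_pow]

/-- `χ` is a parabolic homomorphism. -/
theorem chi_isParabolicHom : ModularCurve.Period.IsParabolicHom (Gamma0 p) (chi p) :=
  fun _ h => chi_eq_zero_of_trace_sq p h

theorem S_pow_four : (S : SL(2, ℤ)) ^ 4 = 1 := by decide

theorem ST_pow_six : ((S * T : SL(2, ℤ))) ^ 6 = 1 := by decide

theorem conj_pow_eq_one {G : Type*} [Group G] (g σ : G) (k m : ℕ) (h : σ ^ m = 1) :
    (g⁻¹ * σ ^ k * g) ^ m = 1 := by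
  have : g⁻¹ * σ ^ k * g = g⁻¹ * σ ^ k * (g⁻¹)⁻¹ := by rw [inv_inv]
  rw [this, conj_pow, ← pow_mul, mul_comm, pow_mul, h, one_pow, mul_one, mul_inv_cancel]

theorem trace_conj_T_pow (g : SL(2, ℤ)) (k : ℕ) :
    ((g⁻¹ * T ^ k * g : SL(2, ℤ)) : Matrix (Fin 2) (Fin 2) ℤ).trace = 2 := by
  have h1 : ((g⁻¹ * T ^ k * g : SL(2, ℤ)) : Matrix (Fin 2) (Fin 2) ℤ)
      = (g⁻¹ : SL(2, ℤ)).1 * (T ^ k : SL(2, ℤ)).1 * g.1 := by
    simp [Matrix.SpecialLinearGroup.coe_mul]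
  have h2 : g.1 * (g⁻¹ : SL(2, ℤ)).1 = 1 := by
    rw [← Matrix.SpecialLinearGroup.coe_mul, mul_inv_cancel]; rfl
  rw [h1, Matrix.trace_mul_comm, ← mul_assoc, h2, one_mul]
  have h3 := ModularGroup.coe_T_zpow (k : ℤ)
  rw [zpow_natCast] at h3
  show Matrix.trace ((T ^ k : SL(2, ℤ)) : Matrix (Fin 2) (Fin 2) ℤ) = 2
  rw [h3, Matrix.trace_fin_two_of]
  norm_num

/-- **`χ` kills all elliptic and parabolic elements**, in the exact shape of the hypothesis of
`Fermat.Agent.S16.Lift.exists_lift`. -/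
theorem chi_kills : ∀ σ ∈ ({S, S * T, T} : Set SL(2, ℤ)), ∀ (k : ℕ) (g : SL(2, ℤ))
    (h : g⁻¹ * σ ^ k * g ∈ Gamma0 p), chi p (Additive.ofMul ⟨_, h⟩) = 0 := by
  intro σ hσ k g h
  rcases hσ with rfl | rfl | rfl
  · apply chi_eq_zero_of_pow_twelve
    apply Subtype.ext
    exact conj_pow_eq_one g S k 12 (by
      calc (S : SL(2, ℤ)) ^ 12 = (S ^ 4) ^ 3 := by rw [← pow_mul]
        _ = 1 := by rw [S_pow_four, one_pow])
  · apply chi_eq_zero_of_pow_twelve
    apply Subtype.ext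
    exact conj_pow_eq_one g (S * T) k 12 (by
      calc ((S * T : SL(2, ℤ))) ^ 12 = ((S * T) ^ 6) ^ 2 := by rw [← pow_mul]
        _ = 1 := by rw [ST_pow_six, one_pow])
  · apply chi_eq_zero_of_trace_sq
    show ((g⁻¹ * T ^ k * g : SL(2, ℤ)) : Matrix (Fin 2) (Fin 2) ℤ).trace ^ 2 = 4
    rw [trace_conj_T_pow]; norm_num

/-- `χ` has exact order `n`. -/
theorem dvd_of_smul_chi_eq_zero (k : ℤ) (h : ∀ γ : Gamma0 p, k • chi p (Additive.ofMul γ) = 0) :
    (nn p : ℤ) ∣ k := by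
  obtain ⟨γ, hγ⟩ := chi_surjective p 1
  have h1 := h (Additive.toMul γ)
  rw [ofMul_toMul, hγ, zsmul_eq_mul, mul_one] at h1
  exact (ZMod.intCast_zmod_eq_zero_iff_dvd k (nn p)).1 h1

end Fermat.Agent.S16.Chi

end
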