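import Fermat.Agent.S16.Lift.Data
import Fermat.Agent.S16.Lift.Surj
import Fermat.Agent.S21.Reduction
import Fermat.Agent.S20

/-!
# S16: the lifting lemma (owner: helper261)

Every homomorphism `χ : Γ₀(N) → ℤ/n` which kills the elements of `Γ₀(N)` conjugate in `SL(2,ℤ)` to
powers of `S`, `S * T`, `T` is the reduction of a parabolic homomorphism `Γ₀(N) → ℤ`
(i.e. `H₁(X₀(N), ℤ)` is torsion free).  No presentation of `SL(2,ℤ)` is used: the dimension
formula (S20) and the injectivity of the period map turn the cohomological bound of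
`S21/CohomBound.lean` into an equality.
-/

set_option autoImplicit false

open Module

namespace Fermat.Agent.S16.Lift

open Fermat.Agent.S21 (CohomBound.diffMap CohomBound.R CohomBound.inv CohomBound.L)

section Abstract

variable {G : Type*} [Group G] {Γ : Subgroup G}

lemma cohomBound_coc_eq (φ : Additive Γ →+ ℂ) : Fermat.Agent.S21.CohomBound.coc Γ φ = coc Γ φ := rfl

/-- **Abstract lifting lemma.** -/
theorem abstract_lift [Γ.FiniteIndex] (s t : G)
    (hgen : Subgroup.closure {s, t} = (⊤ : Subgroup G))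
    (P : Submodule ℂ (Additive Γ →+ ℂ))
    (hs : ∃ n : ℕ, 0 < n ∧ ∀ φ ∈ P, ∀ g : G, g⁻¹ * s ^ n * g ∈ Γ ∧
      Fermat.Agent.S21.CohomBound.ext Γ φ (g⁻¹ * s ^ n * g) = 0)
    (hu : ∃ n : ℕ, 0 < n ∧ ∀ φ ∈ P, ∀ g : G, g⁻¹ * (s * t) ^ n * g ∈ Γ ∧
      Fermat.Agent.S21.CohomBound.ext Γ φ (g⁻¹ * (s * t) ^ n * g) = 0)
    (ht : ∃ n : ℕ, 0 < n ∧ ∀ φ ∈ P, ∀ g : G, g⁻¹ * t ^ n * g ∈ Γ ∧
      Fermat.Agent.S21.CohomBound.ext Γ φ (g⁻¹ * t ^ n * g) = 0)
    (heq : Γ.index + 2 ≤ finrank ℂ P + finrank ℂ (CohomBound.inv Γ s)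
      + finrank ℂ (CohomBound.inv Γ (s * t)) + finrank ℂ (CohomBound.inv Γ t))
    (n : ℕ) (χ : Additive Γ →+ ZMod n)
    (hχs : ∀ (k : ℕ) (g : G) (hg : g⁻¹ * s ^ k * g ∈ Γ), χ (Additive.ofMul ⟨_, hg⟩) = 0)
    (hχu : ∀ (k : ℕ) (g : G) (hg : g⁻¹ * (s * t) ^ k * g ∈ Γ), χ (Additive.ofMul ⟨_, hg⟩) = 0)
    (hχt : ∀ (k : ℕ) (g : G) (hg : g⁻¹ * t ^ k * g ∈ Γ), χ (Additive.ofMul ⟨_, hg⟩) = 0) :
    ∃ φ : Additive Γ →+ ℤ, (Int.castAddHom ℂ).comp φ ∈ P ∧ ∀ γ, ((φ γ : ℤ) : ZMod n) = χ γ := by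
  classical
  have : Fintype (G ⧸ Γ) := Subgroup.fintypeQuotientOfFiniteIndex
  have hgen' : Subgroup.closure {s, s * t} = (⊤ : Subgroup G) := by
    rw [eq_top_iff, ← hgen, Subgroup.closure_le]
    have h1 : s ∈ Subgroup.closure {s, s * t} := Subgroup.subset_closure (by simp)
    have h2 : s * t ∈ Subgroup.closure {s, s * t} := Subgroup.subset_closure (by simp)
    rintro x (rfl | hx)
    · exact h1
    · rw [Set.mem_singleton_iff] at hx
      subst hx
      have h3 := Subgroup.mul_mem _ (Subgroup.inv_mem _ h1) h2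
      simpa using h3
  -- the data modulo `n`
  obtain ⟨α, hα⟩ := exists_del_eq_coc χ s hχs
  obtain ⟨β, hβ⟩ := exists_del_eq_coc χ (s * t) hχu
  obtain ⟨ε, hε⟩ := exists_del_eq_coc χ t hχt
  have hrel : ∀ x, del (s * t) β x = del s α (t • x) + del t ε x := by
    intro x
    rw [hα, hβ, hε, coc_mul]
  -- integral data
  obtain ⟨α', β', ε', hα', hβ', hε', hrel'⟩ := exists_int_data n s t hgen α β ε hrel
  let a : G ⧸ Γ → ℂ := fun q => ((del s α' q : ℤ) : ℂ)
  let e : G ⧸ Γ → ℂ := fun q => ((del (s * t) β' q : ℤ) : ℂ)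
  have ha : a ∈ CohomBound.R Γ s := by
    refine ⟨fun q => ((α' q : ℤ) : ℂ), ?_⟩
    funext q
    simp [a]
  have he : e ∈ CohomBound.R Γ (s * t) := by
    refine ⟨fun q => ((β' q : ℤ) : ℂ), ?_⟩
    funext q
    simp [e]
  have hae : e - a ∈ CohomBound.R Γ t := by
    refine ⟨fun q => ((del s α' q + ε' q : ℤ) : ℂ), ?_⟩
    funext q
    have := hrel' q
    simp only [LinearMap.sub_apply, Module.End.one_apply, Pi.sub_apply,
      Fermat.Agent.S21.CohomBound.L_apply, a, e]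
    rw [this]
    simp only [del_apply]
    push_cast
    ring
  obtain ⟨φ, hφP, v, hv1, hv2⟩ := exists_of_data s t hgen P hs hu ht heq a e ha he hae
  -- the complex cocycle
  let D : G → G ⧸ Γ → ℂ := fun g q => CohomBound.diffMap Γ g (φ, v) q
  have hD : IsCoc D := fun g h q => Fermat.Agent.S21.CohomBound.diffMap_mul g h (φ, v) q
  have hDint : ∀ g q, D g q ∈ (Int.castAddHom ℂ).range := by
    intro g
    have h1 : ∀ q, D s q ∈ (Int.castAddHom ℂ).range := by
      intro q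
      refine ⟨del s α' q, ?_⟩
      show ((del s α' q : ℤ) : ℂ) = CohomBound.diffMap Γ s (φ, v) q
      rw [hv1]
    have h2 : ∀ q, D (s * t) q ∈ (Int.castAddHom ℂ).range := by
      intro q
      refine ⟨del (s * t) β' q, ?_⟩
      show ((del (s * t) β' q : ℤ) : ℂ) = CohomBound.diffMap Γ (s * t) (φ, v) q
      rw [hv2]
    exact hD.mem_of_gen _ s (s * t) hgen' h1 h2 g
  choose DZ hDZ using hDint
  have hDZ' : ∀ g q, ((DZ g q : ℤ) : ℂ) = D g q := hDZ
  have hDZcoc : IsCoc DZ := by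
    intro g h q
    have := hD g h q
    rw [← hDZ', ← hDZ', ← hDZ'] at this
    exact_mod_cast this
  set q₀ : G ⧸ Γ := ((1 : G) : G ⧸ Γ) with hq₀
  have hbase : ∀ (γ : G) (hγ : γ ∈ Γ), ((DZ γ q₀ : ℤ) : ℂ) = φ (Additive.ofMul ⟨γ, hγ⟩) := by
    intro γ hγ
    rw [hDZ']
    have hfix : γ • q₀ = q₀ := by
      change ((γ * 1 : G) : G ⧸ Γ) = ((1 : G) : G ⧸ Γ)
      rw [QuotientGroup.eq]
      simpa using hγ
    show CohomBound.diffMap Γ γ (φ, v) q₀ = _
    rw [Fermat.Agent.S21.CohomBound.diffMap_apply, hfix, sub_self, add_zero, cohomBound_coc_eq,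
      coc_base φ hγ]
  let φZ : Additive Γ →+ ℤ := AddMonoidHom.mk' (fun γ => DZ (Additive.toMul γ).1 q₀) (by
    intro γ δ
    have h1 := hbase _ (Additive.toMul γ).2
    have h2 := hbase _ (Additive.toMul δ).2
    have h3 := hbase _ (Additive.toMul (γ + δ)).2
    have h4 : φ (γ + δ) = φ γ + φ δ := map_add φ γ δ
    have h5 : ((DZ (Additive.toMul (γ + δ)).1 q₀ : ℤ) : ℂ)
        = ((DZ (Additive.toMul γ).1 q₀ : ℤ) : ℂ) + ((DZ (Additive.toMul δ).1 q₀ : ℤ) : ℂ) := by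
      rw [h1, h2, h3]
      exact h4
    exact_mod_cast h5)
  refine ⟨φZ, ?_, ?_⟩
  · have : (Int.castAddHom ℂ).comp φZ = φ := by
      refine AddMonoidHom.ext fun γ => ?_
      exact hbase _ (Additive.toMul γ).2
    rw [this]
    exact hφP
  · intro γ
    have hE : IsCoc (fun g q => ((DZ g q : ℤ) : ZMod n)) := hDZcoc.map (Int.castAddHom (ZMod n))
    have hs' : ∀ q, ((DZ s q : ℤ) : ZMod n) = coc Γ χ s q := by
      intro q
      have h1 : DZ s q = del s α' q := by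
        have : ((DZ s q : ℤ) : ℂ) = ((del s α' q : ℤ) : ℂ) := by
          rw [hDZ']
          show CohomBound.diffMap Γ s (φ, v) q = _
          rw [hv1]
        exact_mod_cast this
      rw [h1, ← hα]
      simp only [del_apply]
      push_cast
      rw [hα', hα']
    have hu' : ∀ q, ((DZ (s * t) q : ℤ) : ZMod n) = coc Γ χ (s * t) q := by
      intro q
      have h1 : DZ (s * t) q = del (s * t) β' q := by
        have : ((DZ (s * t) q : ℤ) : ℂ) = ((del (s * t) β' q : ℤ) : ℂ) := by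
          rw [hDZ']
          show CohomBound.diffMap Γ (s * t) (φ, v) q = _
          rw [hv2]
        exact_mod_cast this
      rw [h1, ← hβ]
      simp only [del_apply]
      push_cast
      rw [hβ', hβ']
    have := hE.eq_of_gen (isCoc_coc χ) s (s * t) hgen' hs' hu' (Additive.toMul γ).1 q₀
    show ((DZ (Additive.toMul γ).1 q₀ : ℤ) : ZMod n) = χ γ
    rw [this, coc_base χ (Additive.toMul γ).2]
    rfl

end Abstract

section Gamma0

open scoped MatrixGroups
open ModularGroup ModularCurve.Period CongruenceSubgroup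

/-- The cohomological bound is an equality for `Γ₀(N)`. -/
theorem index_add_two_le (N : ℕ) [NeZero N] :
    (Gamma0 N).index + 2 ≤ finrank ℂ (parabolicHoms ℂ (Gamma0 N) ℂ)
      + finrank ℂ (CohomBound.inv (Gamma0 N) S) + finrank ℂ (CohomBound.inv (Gamma0 N) (S * T))
      + finrank ℂ (CohomBound.inv (Gamma0 N) T) := by
  have hneg := Fermat.Agent.S21.OrbitCount.neg_one_mem_Gamma0 N
  rw [Fermat.Agent.S21.OrbitCount.finrank_inv_eq_card_orbits,
    Fermat.Agent.S21.OrbitCount.finrank_inv_eq_card_orbits,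
    Fermat.Agent.S21.OrbitCount.finrank_inv_eq_card_orbits]
  have h2 := Fermat.Agent.S21.OrbitCount.two_mul_card_orbits_S (Gamma0 N) hneg
  have h3 := Fermat.Agent.S21.OrbitCount.three_mul_card_orbits_ST (Gamma0 N) hneg
  have h4 := Fermat.Agent.S21.two_finrank_cuspForm_le N
  have h5 := Fermat.Agent.S20.result N
  have hμ : Nat.card (SL(2, ℤ) ⧸ Gamma0 N) = (Gamma0 N).index := rfl
  unfold ModularCurve.genusFormula at h5
  rw [← Fermat.Agent.S20.Combinatorics.card_quotient, ← Fermat.Agent.S20.Combinatorics.card_fixedBy_S,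
    ← Fermat.Agent.S20.Combinatorics.card_fixedBy_ST,
    ← Fermat.Agent.S20.Combinatorics.card_orbits_T, hμ] at h5
  have h2' : (2 : ℚ) * Nat.card (MulAction.orbitRel.Quotient (Subgroup.zpowers (S : SL(2, ℤ)))
      (SL(2, ℤ) ⧸ Gamma0 N))
      = (Gamma0 N).index + Nat.card (MulAction.fixedBy (SL(2, ℤ) ⧸ Gamma0 N) (S : SL(2, ℤ))) := by
    exact_mod_cast h2
  have h3' : (3 : ℚ) * Nat.card (MulAction.orbitRel.Quotient (Subgroup.zpowers (S * T : SL(2, ℤ)))
      (SL(2, ℤ) ⧸ Gamma0 N))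
      = (Gamma0 N).index + 2 * Nat.card (MulAction.fixedBy (SL(2, ℤ) ⧸ Gamma0 N)
        (S * T : SL(2, ℤ))) := by
    exact_mod_cast h3
  have h4' : (2 : ℚ) * finrank ℂ (CuspForm (Gamma0 N) 2)
      ≤ finrank ℂ (parabolicHoms ℂ (Gamma0 N) ℂ) := by exact_mod_cast h4
  have key : (((Gamma0 N).index + 2 : ℕ) : ℚ) ≤ ((finrank ℂ (parabolicHoms ℂ (Gamma0 N) ℂ)
      + Nat.card (MulAction.orbitRel.Quotient (Subgroup.zpowers (S : SL(2, ℤ)))
          (SL(2, ℤ) ⧸ Gamma0 N))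
      + Nat.card (MulAction.orbitRel.Quotient (Subgroup.zpowers (S * T : SL(2, ℤ)))
          (SL(2, ℤ) ⧸ Gamma0 N))
      + Nat.card (MulAction.orbitRel.Quotient (Subgroup.zpowers (T : SL(2, ℤ)))
          (SL(2, ℤ) ⧸ Gamma0 N)) : ℕ) : ℚ) := by
    push_cast
    linarith
  exact_mod_cast key

/-- **Lifting lemma.**  A homomorphism `Γ₀(N) → ℤ/n` killing the elements conjugate to powers of
`S`, `S * T` and `T` lifts to a parabolic homomorphism `Γ₀(N) → ℤ`. -/
theorem exists_lift (N : ℕ) [NeZero N] (n : ℕ) (χ : Additive (Gamma0 N) →+ ZMod n)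
    (hχ : ∀ σ ∈ ({S, S * T, T} : Set SL(2, ℤ)), ∀ (k : ℕ) (g : SL(2, ℤ))
      (h : g⁻¹ * σ ^ k * g ∈ Gamma0 N), χ (Additive.ofMul ⟨_, h⟩) = 0) :
    ∃ φ : Additive (Gamma0 N) →+ ℤ, IsParabolicHom (Gamma0 N) φ ∧
      (Int.castAddHom ℂ).comp φ ∈ parabolicHoms ℂ (Gamma0 N) ℂ ∧
      ∀ γ, ((φ γ : ℤ) : ZMod n) = χ γ := by
  obtain ⟨φ, hφ, hφχ⟩ := abstract_lift (Γ := Gamma0 N) S T SpecialLinearGroup.SL2Z_generators
    (parabolicHoms ℂ (Gamma0 N) ℂ)
    (by
      refine ⟨4, by norm_num, fun φ _ g => ?_⟩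
      rw [Fermat.Agent.S21.CohomBound.S_pow_four, mul_one, inv_mul_cancel]
      exact ⟨(Gamma0 N).one_mem, Fermat.Agent.S21.CohomBound.ext_one φ⟩)
    (by
      refine ⟨6, by norm_num, fun φ _ g => ?_⟩
      rw [Fermat.Agent.S21.CohomBound.ST_pow_six, mul_one, inv_mul_cancel]
      exact ⟨(Gamma0 N).one_mem, Fermat.Agent.S21.CohomBound.ext_one φ⟩)
    (by
      have hfi : (Gamma0 N).normalCore.FiniteIndex := inferInstance
      refine ⟨(Gamma0 N).normalCore.index, Nat.pos_of_ne_zero hfi.index_ne_zero, fun φ hφ g => ?_⟩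
      have h1 : T ^ (Gamma0 N).normalCore.index ∈ (Gamma0 N).normalCore := Subgroup.pow_index_mem _ _
      have h2 : g⁻¹ * T ^ (Gamma0 N).normalCore.index * g ∈ Gamma0 N := by
        have := (Subgroup.normalCore_normal (Gamma0 N)).conj_mem _ h1 g⁻¹
        rw [inv_inv] at this
        exact Subgroup.normalCore_le (Gamma0 N) this
      refine ⟨h2, ?_⟩
      rw [Fermat.Agent.S21.CohomBound.ext_of_mem φ h2]
      apply (mem_parabolicHoms_iff.mp hφ)
      simp only [Matrix.SpecialLinearGroup.coe_mul]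
      rw [Matrix.trace_mul_comm, ← Matrix.mul_assoc, ← Matrix.SpecialLinearGroup.coe_mul,
        mul_inv_cancel, Matrix.SpecialLinearGroup.coe_one, Matrix.one_mul]
      have h3 := coe_T_zpow ((Gamma0 N).normalCore.index : ℤ)
      rw [zpow_natCast] at h3
      rw [h3]
      simp [Matrix.trace_fin_two])
    (index_add_two_le N) n χ (hχ S (by simp)) (hχ (S * T) (by simp)) (hχ T (by simp))
  refine ⟨φ, ?_, hφ, hφχ⟩
  intro γ hγ
  have := (mem_parabolicHoms_iff.mp hφ) γ hγ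
  simpa using this

end Gamma0

end Fermat.Agent.S16.Lift
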