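import Fermat.Agent.S16.Defs
import Fermat.Agent.S16.Theta.Cosets
import Fermat.Prelude.Thm_ModularFormClass_qCoeff_heckeU
import Fermat.Prelude.Thm_CongruenceSubgroup_one_mem_strictPeriods_Gamma0

/-!
# S16: explicit coset formulas for Mathlib's trace and norm from `Γ₀(p)` to level one (helper136)
-/

set_option autoImplicit false

noncomputable section

namespace Fermat.Agent.S16

open UpperHalfPlane ModularForm CongruenceSubgroup PowerSeries SlashInvariantForm
open scoped MatrixGroups ModularForm Manifold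

namespace CosetSum

variable (p : ℕ)

/-- `Γ₀(p)` inside `GL₂(ℝ)`. -/
abbrev GG : Subgroup (GL (Fin 2) ℝ) :=
  Subgroup.map (Matrix.SpecialLinearGroup.mapGL ℝ) (Gamma0 p)

/-- the coset space. -/
abbrev QQ : Type := 𝒮ℒ ⧸ ((GG p).subgroupOf 𝒮ℒ)

/-- representatives: `none ↦ 1`, `some j ↦ (S T^j)⁻¹`. -/
def rep : Option (Fin p) → SL(2, ℤ)
  | none => 1
  | some j => (ModularGroup.S * ModularGroup.T ^ (j : ℕ))⁻¹

def repH (i : Option (Fin p)) : 𝒮ℒ := ⟨Matrix.SpecialLinearGroup.mapGL ℝ (rep p i), ⟨_, rfl⟩⟩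

def repQ (i : Option (Fin p)) : QQ p := ⟦repH p i⟧

lemma mk_eq_mk_iff (a b : SL(2, ℤ)) :
    ((⟦⟨Matrix.SpecialLinearGroup.mapGL ℝ a, ⟨_, rfl⟩⟩⟧ : QQ p) =
      ⟦⟨Matrix.SpecialLinearGroup.mapGL ℝ b, ⟨_, rfl⟩⟩⟧) ↔ a⁻¹ * b ∈ Gamma0 p := by
  rw [Quotient.eq, QuotientGroup.leftRel_apply, Subgroup.mem_subgroupOf]
  simp only [Subgroup.coe_mul, InvMemClass.coe_inv, ← map_inv, ← map_mul]
  constructor
  · rintro ⟨c, hc, hc'⟩
    rwa [← Matrix.SpecialLinearGroup.mapGL_injective hc']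
  · intro h
    exact ⟨_, h, rfl⟩


lemma S_T_S_entry (n : ℤ) :
    (ModularGroup.S * ModularGroup.T ^ n * ModularGroup.S⁻¹) 1 0 = -n := by
  rw [Matrix.SpecialLinearGroup.coe_mul, Matrix.SpecialLinearGroup.coe_mul,
    ModularGroup.coe_T_zpow, Matrix.SpecialLinearGroup.SL2_inv_expl]
  rw [Matrix.mul_apply, Fin.sum_univ_two, Matrix.mul_apply, Matrix.mul_apply, Fin.sum_univ_two,
    Fin.sum_univ_two]
  simp [ModularGroup.S]

lemma S_T_entry (n : ℤ) : (ModularGroup.S * ModularGroup.T ^ n) 1 0 = 1 := by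
  rw [Matrix.SpecialLinearGroup.coe_mul, ModularGroup.coe_T_zpow]
  simp [ModularGroup.S]

lemma S_T_S_mem_iff (n : ℤ) :
    ModularGroup.S * ModularGroup.T ^ n * ModularGroup.S⁻¹ ∈ Gamma0 p ↔ (p : ℤ) ∣ n := by
  rw [Gamma0_mem, S_T_S_entry, Int.cast_neg, neg_eq_zero, ZMod.intCast_zmod_eq_zero_iff_dvd]

variable [Fact p.Prime]

lemma S_T_notMem (n : ℤ) : ModularGroup.S * ModularGroup.T ^ n ∉ Gamma0 p := by
  rw [Gamma0_mem, S_T_entry]
  simp

lemma repQ_injective : Function.Injective (repQ p) := by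
  intro i j hij
  rw [repQ, repQ, repH, repH, mk_eq_mk_iff] at hij
  rcases i with _ | i <;> rcases j with _ | j
  · rfl
  · exfalso
    simp only [rep, inv_one, one_mul] at hij
    have := inv_mem hij
    rw [inv_inv, ← zpow_natCast] at this
    exact S_T_notMem p _ this
  · exfalso
    simp only [rep, inv_inv, mul_one] at hij
    rw [← zpow_natCast] at hij
    exact S_T_notMem p _ hij
  · simp only [rep, inv_inv] at hij
    have h1 : ModularGroup.S * ModularGroup.T ^ (i : ℕ) * (ModularGroup.S * ModularGroup.T ^ (j : ℕ))⁻¹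
        = ModularGroup.S * ModularGroup.T ^ ((i : ℕ) - (j : ℕ) : ℤ) * ModularGroup.S⁻¹ := by
      rw [zpow_sub, zpow_natCast, zpow_natCast]
      group
    rw [h1, S_T_S_mem_iff] at hij
    congr 1
    apply Fin.ext
    have hi := i.2
    have hj := j.2
    have h3 := Int.eq_zero_of_abs_lt_dvd hij (by rw [abs_lt]; constructor <;> omega)
    omega


lemma repQ_surjective : Function.Surjective (repQ p) := by
  intro q
  induction q using Quotient.inductionOn with
  | h r =>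
    obtain ⟨r, γ, rfl⟩ := r
    by_cases hγ : γ ∈ Gamma0 p
    · refine ⟨none, ?_⟩
      rw [repQ, repH, mk_eq_mk_iff]
      simpa [rep] using hγ
    · have hγ' : γ⁻¹ ∉ Gamma0 p := fun h => hγ (by simpa using inv_mem h)
      obtain ⟨γ₀, h₀, j, hj⟩ := Theta.exists_Gamma0_mul_S_T γ⁻¹ hγ'
      have hp : (0 : ℤ) < p := by exact_mod_cast (Fact.out : p.Prime).pos
      have hlt : (j % p).toNat < p := by
        have := Int.emod_lt_of_pos j hp
        have := Int.emod_nonneg j hp.ne'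
        omega
      refine ⟨some ⟨(j % p).toNat, hlt⟩, ?_⟩
      rw [repQ, repH, mk_eq_mk_iff]
      have hγeq : γ = (γ₀ * ModularGroup.S * ModularGroup.T ^ j)⁻¹ := by rw [← hj, inv_inv]
      have hcast : (((j % p).toNat : ℕ) : ℤ) = j % p := Int.toNat_of_nonneg (Int.emod_nonneg j hp.ne')
      have h1 : (rep p (some ⟨(j % p).toNat, hlt⟩))⁻¹ * γ =
          (ModularGroup.S * ModularGroup.T ^ (j % p - j) * ModularGroup.S⁻¹) * γ₀⁻¹ := by
        simp only [rep, inv_inv]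
        rw [hγeq, ← zpow_natCast, hcast, zpow_sub]
        group
      rw [h1]
      refine mul_mem ((S_T_S_mem_iff p _).mpr ?_) (inv_mem h₀)
      exact ⟨-(j / p), by have := Int.emod_add_mul_ediv j p; linarith⟩

/-- the bijection between `Option (Fin p)` and the coset space. -/
def equivQ : Option (Fin p) ≃ QQ p :=
  Equiv.ofBijective (repQ p) ⟨repQ_injective p, repQ_surjective p⟩

/-- the coset of `(S T^j)⁻¹`. -/
def repN (j : ℕ) : QQ p :=
  ⟦⟨Matrix.SpecialLinearGroup.mapGL ℝ (ModularGroup.S * ModularGroup.T ^ j)⁻¹, ⟨_, rfl⟩⟩⟧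

theorem sum_QQ {M : Type*} [AddCommMonoid M] [Fintype (QQ p)] (Ψ : QQ p → M) :
    ∑ q, Ψ q = Ψ (repQ p none) + ∑ j ∈ Finset.range p, Ψ (repN p j) := by
  rw [← (equivQ p).sum_comp, Fintype.sum_option, ← Fin.sum_univ_eq_sum_range]
  rfl

theorem prod_QQ {M : Type*} [CommMonoid M] [Fintype (QQ p)] (Ψ : QQ p → M) :
    ∏ q, Ψ q = Ψ (repQ p none) * ∏ j ∈ Finset.range p, Ψ (repN p j) := by
  rw [← (equivQ p).prod_comp, Fintype.prod_option, ← Fin.prod_univ_eq_prod_range]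
  rfl

theorem card_QQ : Nat.card (QQ p) = p + 1 := by
  rw [← Nat.card_congr (equivQ p)]
  simp


/-! ### the Fricke matrix -/

omit [Fact p.Prime] in
lemma val_frickeGL [NeZero p] :
    ((frickeGL p : GL (Fin 2) ℝ) : Matrix (Fin 2) (Fin 2) ℝ) = !![0, -1; (p : ℝ), 0] := rfl

omit [Fact p.Prime] in
lemma det_frickeGL [NeZero p] : ((frickeGL p).det : ℝ) = p := by
  rw [Matrix.GeneralLinearGroup.val_det_apply, val_frickeGL, Matrix.det_fin_two_of]
  ring

omit [Fact p.Prime] in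
lemma det_frickeGL_pos [NeZero p] : 0 < ((frickeGL p).det : ℝ) := by
  rw [det_frickeGL]
  exact_mod_cast Nat.pos_of_ne_zero (NeZero.ne p)

omit [Fact p.Prime] in
lemma σ_frickeGL [NeZero p] : UpperHalfPlane.σ (frickeGL p) = .refl ℝ ℂ := by
  rw [UpperHalfPlane.σ, if_pos (det_frickeGL_pos p)]

omit [Fact p.Prime] in
lemma denom_frickeGL [NeZero p] (τ : ℍ) : UpperHalfPlane.denom (frickeGL p) τ = (p : ℂ) * τ := by
  simp [UpperHalfPlane.denom, val_frickeGL]

omit [Fact p.Prime] in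
lemma coe_frickeGL_smul [NeZero p] (τ : ℍ) :
    ((frickeGL p • τ : ℍ) : ℂ) = -1 / ((p : ℂ) * τ) := by
  rw [UpperHalfPlane.coe_smul_of_det_pos (det_frickeGL_pos p)]
  simp [UpperHalfPlane.num, UpperHalfPlane.denom, val_frickeGL]

omit [Fact p.Prime] in
lemma sharp_apply [NeZero p] (k : ℤ) (F : ℍ → ℂ) (z : ℍ) :
    sharp p k F z = ((p : ℂ) * z) ^ (-k) * F (frickeGL p • z) := by
  have hp' : (p : ℂ) ≠ 0 := by exact_mod_cast NeZero.ne p
  rw [sharp, Pi.smul_apply, ModularForm.slash_apply, σ_frickeGL, det_frickeGL, denom_frickeGL]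
  simp only [ContinuousAlgEquiv.refl_apply, Nat.abs_cast, Complex.ofReal_natCast, smul_eq_mul]
  rw [show (p : ℂ) ^ (1 - k) * (F (frickeGL p • z) * (p : ℂ) ^ (k - 1) * ((p : ℂ) * z) ^ (-k)) =
    ((p : ℂ) ^ (1 - k) * (p : ℂ) ^ (k - 1)) * (((p : ℂ) * z) ^ (-k) * F (frickeGL p • z)) by ring,
    ← zpow_add₀ hp', show 1 - k + (k - 1) = 0 by ring, zpow_zero, one_mul]

/-- `F | S T^j = p • (F♯ | [[1,j],[0,p]])`. -/
lemma slash_S_T (k : ℤ) (F : ℍ → ℂ) (j : ℕ) :
    F ∣[k] (ModularGroup.S * ModularGroup.T ^ j) =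
      (p : ℂ) • ((sharp p k F) ∣[k] heckeMatrix p j) := by
  have hp0 : p ≠ 0 := (Fact.out : p.Prime).ne_zero
  have hp' : (p : ℂ) ≠ 0 := by exact_mod_cast hp0
  funext τ
  rw [Pi.smul_apply, slash_heckeMatrix_apply k hp0, sharp_apply, smul_eq_mul,
    ModularForm.SL_slash_apply, ModularGroup.denom_apply, coe_heckeMatrix_smul hp0]
  have hpt : frickeGL p • heckeMatrix p j • τ = (ModularGroup.S * ModularGroup.T ^ j) • τ := by
    apply UpperHalfPlane.ext
    rw [coe_frickeGL_smul, coe_heckeMatrix_smul hp0, mul_smul, ← zpow_natCast,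
      UpperHalfPlane.modular_T_zpow_smul, UpperHalfPlane.modular_S_smul]
    simp only [UpperHalfPlane.coe_vadd]
    have hne : (τ : ℂ) + j ≠ 0 := by
      intro h
      have := congrArg Complex.im h
      simp at this
      exact τ.im_pos.ne' this
    have hne' : (j : ℂ) + τ ≠ 0 := by rwa [add_comm]
    push_cast
    field_simp
    ring
  rw [hpt]
  have h10 : (ModularGroup.S * ModularGroup.T ^ j) 1 0 = 1 := by
    rw [← zpow_natCast]; exact S_T_entry _
  have h11 : (ModularGroup.S * ModularGroup.T ^ j) 1 1 = j := by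
    rw [← zpow_natCast, Matrix.SpecialLinearGroup.coe_mul, ModularGroup.coe_T_zpow]
    simp [ModularGroup.S]
  rw [h10, h11]
  have : (p : ℂ) * (((τ : ℂ) + j) / p) = ((1 : ℤ) : ℂ) * τ + ((j : ℤ) : ℂ) := by
    push_cast
    field_simp
  rw [this]
  field_simp


/-! ### the trace -/

omit [Fact p.Prime] in
lemma quotientFunc_none {k : ℤ} (F : ModularForm (Gamma0 p) k) :
    quotientFunc F (repQ p none) = F := by
  rw [repQ, quotientFunc_mk]
  simp [repH, rep]

omit [Fact p.Prime] in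
lemma quotientFunc_repN {k : ℤ} (F : ModularForm (Gamma0 p) k) (j : ℕ) :
    quotientFunc F (repN p j) = (F : ℍ → ℂ) ∣[k] (ModularGroup.S * ModularGroup.T ^ j) := by
  rw [repN, quotientFunc_mk]
  simp only [map_inv, inv_inv]
  rfl

/-- Mathlib's trace from `Γ₀(p)` to level one, explicitly. -/
theorem coe_trace_eq_sum {k : ℤ} (F : ModularForm (Gamma0 p) k) :
    (ModularForm.trace 𝒮ℒ F : ℍ → ℂ) =
      F + ∑ j ∈ Finset.range p, (F : ℍ → ℂ) ∣[k] (ModularGroup.S * ModularGroup.T ^ j) := by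
  rw [ModularForm.coe_trace, sum_QQ, quotientFunc_none]
  simp only [quotientFunc_repN]

/-- Mathlib's norm from `Γ₀(p)` to level one, explicitly. -/
theorem coe_norm_eq_prod {k : ℤ} (F : ModularForm (Gamma0 p) k) :
    (ModularForm.norm 𝒮ℒ F : ℍ → ℂ) =
      F * ∏ j ∈ Finset.range p, (F : ℍ → ℂ) ∣[k] (ModularGroup.S * ModularGroup.T ^ j) := by
  rw [ModularForm.coe_norm, prod_QQ, quotientFunc_none]
  simp only [quotientFunc_repN]

theorem coe_trace_eq {k : ℤ} (F : ModularForm (Gamma0 p) k) :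
    (ModularForm.trace 𝒮ℒ F : ℍ → ℂ) = F + (p : ℂ) • heckeU k p (sharp p k F) := by
  rw [coe_trace_eq_sum, heckeU_def, Finset.smul_sum]
  congr 1
  exact Finset.sum_congr rfl fun j _ => slash_S_T p k F j

end CosetSum

end Fermat.Agent.S16

end
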