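import Fermat.Agent.S16.Defs

/-!
# S16: interface between the analytic layer and the formal layer

The formal (power series) part of the upper bound takes the two structures below as hypotheses.
The analytic files prove `PairCalc p` and `LevelOneCalc`.
-/

set_option autoImplicit false

noncomputable section

namespace Fermat.Agent.S16

open UpperHalfPlane ModularForm CongruenceSubgroup PowerSeries
open scoped MatrixGroups ModularForm Manifold

/-- closure properties of level one `q`-expansions, and the integral Sturm bound. -/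
structure LevelOneCalc : Prop where
  add : ∀ {k : ℤ} {A B : PowerSeries ℂ}, IsLevelOne k A → IsLevelOne k B → IsLevelOne k (A + B)
  smul : ∀ {k : ℤ} {A : PowerSeries ℂ} (c : ℂ), IsLevelOne k A → IsLevelOne k (c • A)
  mul : ∀ {k k' : ℤ} {A B : PowerSeries ℂ}, IsLevelOne k A → IsLevelOne k' B →
    IsLevelOne (k + k') (A * B)
  pow : ∀ {k : ℤ} {A : PowerSeries ℂ} (r : ℕ), IsLevelOne k A → IsLevelOne (r * k) (A ^ r)
  E4 : IsLevelOne 4 (toC E4Z)
  E6 : IsLevelOne 6 (toC E6Z)
  sturm : ∀ (I : AddSubgroup ℂ) (k : ℕ) {A : PowerSeries ℂ}, IsLevelOne (k : ℤ) A →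
    (∀ n ≤ k / 12, coeff n A ∈ I) → ∀ n, coeff n A ∈ I

/-- the calculus of Fricke pairs on `Γ₀(p)`. -/
structure PairCalc (p : ℕ) [NeZero p] : Prop where
  add : ∀ {k : ℤ} {A B A' B' : PowerSeries ℂ}, IsPair p k A B → IsPair p k A' B' →
    IsPair p k (A + A') (B + B')
  smul : ∀ {k : ℤ} {A B : PowerSeries ℂ} (c : ℂ), IsPair p k A B → IsPair p k (c • A) (c • B)
  mul : ∀ {k k' : ℤ} {A B A' B' : PowerSeries ℂ}, IsPair p k A B → IsPair p k' A' B' →
    IsPair p (k + k') (A * A') (B * B')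
  pow : ∀ {k : ℤ} {A B : PowerSeries ℂ} (r : ℕ), IsPair p k A B → IsPair p (r * k) (A ^ r) (B ^ r)
  ofLevelOne : ∀ {k : ℤ} {A : PowerSeries ℂ}, IsLevelOne k A → IsPair p k A (psV p A)
  trace : ∀ {k : ℤ} {A B : PowerSeries ℂ}, IsPair p k A B →
    IsLevelOne k (A + (p : ℂ) • psU p B)
  weightTwo : ∀ {A B : PowerSeries ℂ}, IsPair p 2 A B → B = (-(p : ℂ)⁻¹) • psU p A
  eis : ∃ B, IsPair p 2 (EisQ p) B
  cusp : ∀ f : CuspForm (Gamma0 p) 2, ∃ B, IsPair p 2 (qExpansion 1 f) B

end Fermat.Agent.S16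

end
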